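import Mathlib
import Fermat.Agent.LT.H556.A0
import Fermat.Agent.LT.T1.Spec
import Fermat.Agent.LT.T2.Spec
import Fermat.Agent.LT.T2.SpecTau

/-!
# Row LT, tower T2, leaf T2.27 (`LeafT07` = `OpsGoodT` + `OpsAdjT`): SUB-SPEC (helper291)

OFF-MAIN.  Vocabulary: `LT/H556/A0.lean`, `LT/T1/Spec.lean` (v1), `LT/T2/Spec.lean` (v3, sha256
b934629a), `LT/T2/SpecTau.lean` (sha256 4d2b0fc2), byte-identical copies.  Nothing is assumed, no
opaque constant, no placeholder proof.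

This is the `T`-form (class of T5: level `U(𝔫)`, `K_∞`-type `τ`, ray generator `r`) of the
sub-spec `LT/T2/H429/OpsSpec.lean` of helper429 for `T2.Leaf07`; the cut is THE SAME, so that the
owner of a row `T2.07.x` can prove the row `T2.27.x` by the same proof with `τ`, `r` as
parameters.  New with respect to `T2.07`:

* the class is `IsCuspT 𝔫 τ r` (type `τ` under the compact groups at infinity, invariant under
  the ray generator `r` ONLY -- not under the positive scalars of each infinite place);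
* two more generators: the central shifts `shift z`, `shift z⁻¹`, `z` a positive scalar at ONE
  infinite place;
* the circle means are `τ`-twisted (`circleMeanT`);
* the explicit adjoints `OpsAdjT` are part of the leaf.

`T2.LeafT07 K` is split along the GENERATORS of `T2.IsOpT` (`IsGenT291`).

* `PresT291`, `LinT291`, `BddT291`, `CommT291`, `HasAdjT291`: the five clauses of `T2.OpsGoodT`
  for ONE operator (resp. one pair of operators).
* `GenGoodT291 𝔫 τ R`: the five clauses for the generators only.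
* PROVED: `opsGoodT_of_genGoodT291 : (∀ R, GenGoodT291 𝔫 τ R) → OpsGoodT K 𝔫 τ`.
* The sub-leaves `SubT…291` (registry rows `T2.27.x`), each under the standing hypotheses
  `CtxT291 K 𝔫 τ` of the leaf, and the PROVED `leafT07_of_subT291 : SubT291 K → T2.LeafT07 K`.
-/

set_option autoImplicit false

open IsDedekindDomain NumberField MeasureTheory
open Fermat.Agent.LT.H556.A0
open Fermat.Agent.LT.T2

noncomputable section

namespace Fermat.Agent.LT.T2.H291

variable {K : Type} [Field K] [NumberField K]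

attribute [local instance] Fermat.Agent.LT.T2.borelG

/-! ## 1. The generators and the five clauses -/

/-- The generators of `T2.IsOpT`. -/
inductive IsGenT291 (𝔫 : Ideal (𝓞 K)) (τ : G K → ℂ) (F : Frame K) :
    ((G K → ℂ) → (G K → ℂ)) → Prop
  | conv (f : G K → ℂ) (hf : IsSphTestT 𝔫 τ f) : IsGenT291 𝔫 τ F (conv F f)
  | hecke (v : HeightOneSpectrum (𝓞 K)) (hv : ¬ v.asIdeal ∣ 𝔫) (H : Finset (G K))
      (hH : IsHeckeCosetSystem v H) : IsGenT291 𝔫 τ F (heckeSum H)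
  | shift (v : HeightOneSpectrum (𝓞 K)) (hv : ¬ v.asIdeal ∣ 𝔫) (z : G K)
      (hz : IsScalarUniformizerAt v z) : IsGenT291 𝔫 τ F (shift z)
  | shiftInv (v : HeightOneSpectrum (𝓞 K)) (hv : ¬ v.asIdeal ∣ 𝔫) (z : G K)
      (hz : IsScalarUniformizerAt v z) : IsGenT291 𝔫 τ F (shift z⁻¹)
  | central (w : InfinitePlace K) (z : G K) (hz : IsArchPosScalar w z) :
      IsGenT291 𝔫 τ F (shift z)
  | centralInv (w : InfinitePlace K) (z : G K) (hz : IsArchPosScalar w z) :
      IsGenT291 𝔫 τ F (shift z⁻¹)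
  | sphere (w : InfinitePlace K) (hw : w.IsComplex) (d : ℝ) (hd : 0 < d) (Y : ℝ → ℝ → G K)
      (hY : IsSphereAt w d Y) : IsGenT291 𝔫 τ F (sphereMean Y)
  | circle (w : InfinitePlace K) (hw : w.IsReal) (t : ℝ) (ht : 0 < t) (k : ℝ → G K) (a : G K)
      (hk : IsRotAt w k) (ha : IsTorusAt w t a) : IsGenT291 𝔫 τ F (circleMeanT τ k a)

theorem IsGenT291.isOpT {𝔫 : Ideal (𝓞 K)} {τ : G K → ℂ} {F : Frame K}
    {T : (G K → ℂ) → (G K → ℂ)} (h : IsGenT291 𝔫 τ F T) : IsOpT 𝔫 τ F T := by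
  cases h with
  | conv f hf => exact IsOpT.conv f hf
  | hecke v hv H hH => exact IsOpT.hecke v hv H hH
  | shift v hv z hz => exact IsOpT.shift v hv z hz
  | shiftInv v hv z hz => exact IsOpT.shiftInv v hv z hz
  | central w z hz => exact IsOpT.central w z hz
  | centralInv w z hz => exact IsOpT.centralInv w z hz
  | sphere w hw d hd Y hY => exact IsOpT.sphere w hw d hd Y hY
  | circle w hw t ht k a hk ha => exact IsOpT.circle w hw t ht k a hk ha

/-- Induction principle: a property of the generators which is stable under composition holds for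
all operators. -/
theorem isOpT_induction291 {𝔫 : Ideal (𝓞 K)} {τ : G K → ℂ} {F : Frame K}
    {P : ((G K → ℂ) → (G K → ℂ)) → Prop}
    (hgen : ∀ T, IsGenT291 𝔫 τ F T → P T)
    (hcomp : ∀ S T, IsOpT 𝔫 τ F S → IsOpT 𝔫 τ F T → P S → P T → P (fun φ => S (T φ)))
    {T : (G K → ℂ) → (G K → ℂ)} (hT : IsOpT 𝔫 τ F T) : P T := by
  induction hT with
  | conv f hf => exact hgen _ (IsGenT291.conv f hf)
  | hecke v hv H hH => exact hgen _ (IsGenT291.hecke v hv H hH)
  | shift v hv z hz => exact hgen _ (IsGenT291.shift v hv z hz)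
  | shiftInv v hv z hz => exact hgen _ (IsGenT291.shiftInv v hv z hz)
  | central w z hz => exact hgen _ (IsGenT291.central w z hz)
  | centralInv w z hz => exact hgen _ (IsGenT291.centralInv w z hz)
  | sphere w hw d hd Y hY => exact hgen _ (IsGenT291.sphere w hw d hd Y hY)
  | circle w hw t ht k a hk ha => exact hgen _ (IsGenT291.circle w hw t ht k a hk ha)
  | comp S T hS hT ihS ihT => exact hcomp S T hS hT ihS ihT

/-- `T` preserves the cusp functions of the class `(𝔫, τ, r)`. -/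
def PresT291 (𝔫 : Ideal (𝓞 K)) (τ : G K → ℂ) (r : G K) (T : (G K → ℂ) → (G K → ℂ)) : Prop :=
  ∀ φ : G K → ℂ, IsCuspT 𝔫 τ r φ → IsCuspT 𝔫 τ r (T φ)

/-- `T` is additive and homogeneous on the cusp functions of the class. -/
def LinT291 (𝔫 : Ideal (𝓞 K)) (τ : G K → ℂ) (r : G K) (T : (G K → ℂ) → (G K → ℂ)) : Prop :=
  ∀ (φ ψ : G K → ℂ) (c : ℂ), IsCuspT 𝔫 τ r φ → IsCuspT 𝔫 τ r ψ →
    T (fun g => φ g + c * ψ g) = fun g => T φ g + c * T ψ g

/-- `T` is bounded in `L²` on the cusp functions of the class. -/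
def BddT291 (𝔫 : Ideal (𝓞 K)) (τ : G K → ℂ) (R : FrameR K) (T : (G K → ℂ) → (G K → ℂ)) :
    Prop :=
  ∃ C : ℝ, ∀ φ : G K → ℂ, IsCuspT 𝔫 τ R.r φ → nsq R.F (T φ) ≤ C * nsq R.F φ

/-- `S` and `T` commute on the cusp functions of the class. -/
def CommT291 (𝔫 : Ideal (𝓞 K)) (τ : G K → ℂ) (r : G K) (S T : (G K → ℂ) → (G K → ℂ)) : Prop :=
  ∀ φ : G K → ℂ, IsCuspT 𝔫 τ r φ → S (T φ) = T (S φ)

/-- `T'` is adjoint to `T` on the cusp functions of the class. -/
def IsAdjT291 (𝔫 : Ideal (𝓞 K)) (τ : G K → ℂ) (R : FrameR K)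
    (T T' : (G K → ℂ) → (G K → ℂ)) : Prop :=
  ∀ φ ψ : G K → ℂ, IsCuspT 𝔫 τ R.r φ → IsCuspT 𝔫 τ R.r ψ →
    pair R.F (T φ) ψ = pair R.F φ (T' ψ)

/-- `T` has an adjoint among the operators of the class. -/
def HasAdjT291 (𝔫 : Ideal (𝓞 K)) (τ : G K → ℂ) (R : FrameR K)
    (T : (G K → ℂ) → (G K → ℂ)) : Prop :=
  ∃ T', IsOpT 𝔫 τ R.F T' ∧ IsAdjT291 𝔫 τ R T T'

/-- The five clauses of `OpsGoodT` for the generators. -/
structure GenGoodT291 (𝔫 : Ideal (𝓞 K)) (τ : G K → ℂ) (R : FrameR K) : Prop where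
  pres : ∀ T, IsGenT291 𝔫 τ R.F T → PresT291 𝔫 τ R.r T
  lin : ∀ T, IsGenT291 𝔫 τ R.F T → LinT291 𝔫 τ R.r T
  bdd : ∀ T, IsGenT291 𝔫 τ R.F T → BddT291 𝔫 τ R T
  comm : ∀ S T, IsGenT291 𝔫 τ R.F S → IsGenT291 𝔫 τ R.F T → CommT291 𝔫 τ R.r S T
  adj : ∀ T, IsGenT291 𝔫 τ R.F T → HasAdjT291 𝔫 τ R T

/-! ## 2. The assembly -/

/-- The square of the `L²`-norm is non-negative (also when the integrand is not integrable: then
the integral is `0`). -/
theorem nsq_nonnegT291 (F : Frame K) (φ : G K → ℂ) : 0 ≤ nsq F φ := by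
  unfold nsq pair
  by_cases hi : Integrable (fun g => φ g * (starRingEnd ℂ) (φ g)) (F.μ.restrict F.D)
  · have h1 : (∫ g in F.D, φ g * (starRingEnd ℂ) (φ g) ∂F.μ).re
        = ∫ g in F.D, (φ g * (starRingEnd ℂ) (φ g)).re ∂F.μ := by
      have := integral_re (𝕜 := ℂ) hi
      simpa using this.symm
    rw [h1]
    apply integral_nonneg
    intro g
    simp only [Complex.mul_conj]
    exact_mod_cast Complex.normSq_nonneg (φ g)
  · rw [integral_undef hi]
    simp

theorem pres_isOpT291 {𝔫 : Ideal (𝓞 K)} {τ : G K → ℂ} {R : FrameR K} (h : GenGoodT291 𝔫 τ R)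
    {T : (G K → ℂ) → (G K → ℂ)} (hT : IsOpT 𝔫 τ R.F T) : PresT291 𝔫 τ R.r T :=
  isOpT_induction291 (P := PresT291 𝔫 τ R.r) h.pres
    (fun _ _ _ _ hS hT φ hφ => hS _ (hT φ hφ)) hT

theorem lin_isOpT291 {𝔫 : Ideal (𝓞 K)} {τ : G K → ℂ} {R : FrameR K} (h : GenGoodT291 𝔫 τ R)
    {T : (G K → ℂ) → (G K → ℂ)} (hT : IsOpT 𝔫 τ R.F T) : LinT291 𝔫 τ R.r T := by
  refine isOpT_induction291 (P := LinT291 𝔫 τ R.r) h.lin ?_ hT
  intro S T _ hT' hS hT φ ψ c hφ hψ
  have h1 : T (fun g => φ g + c * ψ g) = fun g => T φ g + c * T ψ g := hT φ ψ c hφ hψ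
  have h2 := hS (T φ) (T ψ) c (pres_isOpT291 h hT' φ hφ) (pres_isOpT291 h hT' ψ hψ)
  show S (T (fun g => φ g + c * ψ g)) = fun g => S (T φ) g + c * S (T ψ) g
  rw [h1, h2]

theorem bdd_isOpT291 {𝔫 : Ideal (𝓞 K)} {τ : G K → ℂ} {R : FrameR K} (h : GenGoodT291 𝔫 τ R)
    {T : (G K → ℂ) → (G K → ℂ)} (hT : IsOpT 𝔫 τ R.F T) : BddT291 𝔫 τ R T := by
  refine isOpT_induction291 (P := BddT291 𝔫 τ R) h.bdd ?_ hT
  rintro S T _ hT' ⟨C, hC⟩ ⟨C', hC'⟩
  refine ⟨max C 0 * max C' 0, fun φ hφ => ?_⟩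
  have h1 : nsq R.F (S (T φ)) ≤ C * nsq R.F (T φ) := hC _ (pres_isOpT291 h hT' φ hφ)
  have h2 : nsq R.F (T φ) ≤ C' * nsq R.F φ := hC' φ hφ
  have h3 : C * nsq R.F (T φ) ≤ max C 0 * nsq R.F (T φ) :=
    mul_le_mul_of_nonneg_right (le_max_left _ _) (nsq_nonnegT291 R.F _)
  have h4 : C' * nsq R.F φ ≤ max C' 0 * nsq R.F φ :=
    mul_le_mul_of_nonneg_right (le_max_left _ _) (nsq_nonnegT291 R.F _)
  calc nsq R.F (S (T φ)) ≤ max C 0 * nsq R.F (T φ) := h1.trans h3
    _ ≤ max C 0 * (max C' 0 * nsq R.F φ) :=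
        mul_le_mul_of_nonneg_left (h2.trans h4) (le_max_right _ _)
    _ = max C 0 * max C' 0 * nsq R.F φ := by ring

/-- A generator commutes with every operator. -/
theorem comm_gen_isOpT291 {𝔫 : Ideal (𝓞 K)} {τ : G K → ℂ} {R : FrameR K}
    (h : GenGoodT291 𝔫 τ R) {S : (G K → ℂ) → (G K → ℂ)} (hS : IsGenT291 𝔫 τ R.F S)
    {T : (G K → ℂ) → (G K → ℂ)} (hT : IsOpT 𝔫 τ R.F T) : CommT291 𝔫 τ R.r S T := by
  refine isOpT_induction291 (P := CommT291 𝔫 τ R.r S) (fun T hT => h.comm S T hS hT) ?_ hT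
  intro T₁ T₂ _ hT₂ h₁ h₂ φ hφ
  show S (T₁ (T₂ φ)) = T₁ (T₂ (S φ))
  rw [h₁ _ (pres_isOpT291 h hT₂ φ hφ), h₂ φ hφ]

theorem comm_isOpT291 {𝔫 : Ideal (𝓞 K)} {τ : G K → ℂ} {R : FrameR K} (h : GenGoodT291 𝔫 τ R)
    {S T : (G K → ℂ) → (G K → ℂ)} (hS : IsOpT 𝔫 τ R.F S) (hT : IsOpT 𝔫 τ R.F T) :
    CommT291 𝔫 τ R.r S T := by
  refine isOpT_induction291 (P := fun S => CommT291 𝔫 τ R.r S T)
    (fun S hS => comm_gen_isOpT291 h hS hT) ?_ hS
  intro S₁ S₂ _ hS₂ h₁ h₂ φ hφ
  show S₁ (S₂ (T φ)) = T (S₁ (S₂ φ))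
  rw [h₂ φ hφ, h₁ _ (pres_isOpT291 h hS₂ φ hφ)]

theorem adj_isOpT291 {𝔫 : Ideal (𝓞 K)} {τ : G K → ℂ} {R : FrameR K} (h : GenGoodT291 𝔫 τ R)
    {T : (G K → ℂ) → (G K → ℂ)} (hT : IsOpT 𝔫 τ R.F T) : HasAdjT291 𝔫 τ R T := by
  refine isOpT_induction291 (P := HasAdjT291 𝔫 τ R) h.adj ?_ hT
  rintro S T _ hT' ⟨S', hS', hSa⟩ ⟨T', hT'', hTa⟩
  refine ⟨fun ψ => T' (S' ψ), IsOpT.comp T' S' hT'' hS', fun φ ψ hφ hψ => ?_⟩
  show pair R.F (S (T φ)) ψ = pair R.F φ (T' (S' ψ))
  rw [hSa _ ψ (pres_isOpT291 h hT' φ hφ) hψ, hTa φ _ hφ (pres_isOpT291 h hS' ψ hψ)]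

/-- **ASSEMBLY**: the five clauses for the generators give `OpsGoodT`. -/
theorem opsGoodT_of_genGoodT291 {𝔫 : Ideal (𝓞 K)} {τ : G K → ℂ}
    (h : ∀ R : FrameR K, GenGoodT291 𝔫 τ R) : OpsGoodT K 𝔫 τ := fun R =>
  ⟨fun _ hT => pres_isOpT291 (h R) hT, fun _ hT => lin_isOpT291 (h R) hT,
    fun _ hT => bdd_isOpT291 (h R) hT, fun _ _ hS hT => comm_isOpT291 (h R) hS hT,
    fun _ hT => adj_isOpT291 (h R) hT⟩

/-! ## 3. Formal facts (no hypothesis) -/

theorem CommT291.symm {𝔫 : Ideal (𝓞 K)} {τ : G K → ℂ} {r : G K}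
    {S T : (G K → ℂ) → (G K → ℂ)} (h : CommT291 𝔫 τ r S T) : CommT291 𝔫 τ r T S :=
  fun φ hφ => (h φ hφ).symm

/-- Hecke sums are additive and homogeneous (on all functions). -/
theorem lin_heckeSumT291 (𝔫 : Ideal (𝓞 K)) (τ : G K → ℂ) (r : G K) (H : Finset (G K)) :
    LinT291 𝔫 τ r (heckeSum H) := by
  intro φ ψ c _ _
  funext g
  simp only [heckeSum, Finset.sum_add_distrib, Finset.mul_sum]

/-- Shifts are additive and homogeneous (on all functions). -/
theorem lin_shiftT291 (𝔫 : Ideal (𝓞 K)) (τ : G K → ℂ) (r : G K) (z : G K) :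
    LinT291 𝔫 τ r (shift z) := by
  intro φ ψ c _ _
  rfl

/-- The shift by a central element commutes with every generator (on all functions). -/
theorem comm_shift_genT291 {𝔫 : Ideal (𝓞 K)} {τ : G K → ℂ} {r : G K} {F : Frame K} {z : G K}
    (hz : ∀ g : G K, g * z = z * g) {T : (G K → ℂ) → (G K → ℂ)} (hT : IsGenT291 𝔫 τ F T) :
    CommT291 𝔫 τ r (shift z) T := by
  intro φ _
  have key : ∀ x h : G K, x * z * h = x * h * z := fun x h => by
    rw [mul_assoc, ← hz h, mul_assoc]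
  cases hT with
  | conv f hf =>
    funext x
    simp only [shift, conv, key]
  | hecke v hv H hH =>
    funext x
    simp only [shift, heckeSum, key]
  | shift v hv z' hz' =>
    funext x
    simp only [shift, key]
  | shiftInv v hv z' hz' =>
    funext x
    simp only [shift, key]
  | central w z' hz' =>
    funext x
    simp only [shift, key]
  | centralInv w z' hz' =>
    funext x
    simp only [shift, key]
  | sphere w hw d hd Y hY =>
    funext x
    simp only [shift, sphereMean, key]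
  | circle w hw t ht k a hk ha =>
    funext x
    simp only [shift, circleMeanT, key]

/-- The inverse of a central element is central. -/
theorem central_invT291 {z : G K} (hz : ∀ g : G K, g * z = z * g) (g : G K) :
    g * z⁻¹ = z⁻¹ * g := by
  have h := hz (z⁻¹ * g * z⁻¹)
  have h1 : z⁻¹ * g * z⁻¹ * z = z⁻¹ * g := by group
  have h2 : z * (z⁻¹ * g * z⁻¹) = g * z⁻¹ := by group
  rw [h1, h2] at h
  exact h.symm

/-! ## 4. The standing hypotheses and the sub-leaves (registry rows `T2.27.x`) -/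

/-- The standing hypotheses of `T2.LeafT07`. -/
structure CtxT291 (K : Type) [Field K] [NumberField K] (𝔫 : Ideal (𝓞 K)) (τ : G K → ℂ) :
    Prop where
  t1 : T1.T1Out K
  ne : 𝔫 ≠ ⊥
  kt : IsKType τ
  pd : PairDefiniteT K 𝔫 τ
  cc : ConvCuspT K 𝔫 τ

/-- **T2.27.00** (KEY LEMMA, `T`-form: invariance of the Petersson integral under right
translations): for a function `Φ`, left invariant under `GL₂(K)` and right invariant under the ray
generator `r`, `∫_D Φ(g h) dμ(g) = ∫_D Φ(g) dμ(g)` for every `h ∈ GL₂(𝔸_K)`.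
Proof: `T1.UnimodC` (right invariance of `μ`), `T1.AdNormC` (`‖det r‖ = 2`, the slab is a
fundamental domain of `⟨r⟩`), `r` is central: `D` and `D h` are two fundamental domains of the
countable group `GL₂(K) × ⟨r⟩` acting on `GL₂(𝔸_K)` by `(γ, m) • g = γ g r^m`
(`IsFundamentalDomain.setIntegral_eq`). -/
def SubTranslT291 (K : Type) [Field K] [NumberField K] : Prop :=
  T1.T1Out K → ∀ (R : FrameR K) (Φ : G K → ℂ),
    (∀ (γ : GL (Fin 2) K) (g : G K), Φ (T1.ratG K γ * g) = Φ g) →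
    (∀ g : G K, Φ (g * R.r) = Φ g) →
    ∀ h : G K, ∫ g in R.F.D, Φ (g * h) ∂(R.F.μ) = ∫ g in R.F.D, Φ g ∂(R.F.μ)

/-- **T2.27.01** the scalar uniformisers and the positive scalars at one infinite place are
central. -/
def SubCentralT291 (K : Type) [Field K] [NumberField K] : Prop :=
  (∀ (v : HeightOneSpectrum (𝓞 K)) (z : G K), IsScalarUniformizerAt v z →
    ∀ g : G K, g * z = z * g) ∧
  (∀ (w : InfinitePlace K) (z : G K), IsArchPosScalar w z → ∀ g : G K, g * z = z * g)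

/-- **T2.27.02** Hecke sums preserve the cusp functions of the class (`T1.HeckeCosetC`:
`u h = h' k`; `T1.AddFundDomC`: the constant term is an integral over a set of finite measure;
the elements of `H` commute with the elements supported at the infinite places and with `r`). -/
def SubHeckePresT291 (K : Type) [Field K] [NumberField K] : Prop :=
  ∀ (𝔫 : Ideal (𝓞 K)) (τ : G K → ℂ), CtxT291 K 𝔫 τ → ∀ (R : FrameR K)
    (v : HeightOneSpectrum (𝓞 K)), ¬ v.asIdeal ∣ 𝔫 →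
    ∀ H : Finset (G K), IsHeckeCosetSystem v H → PresT291 𝔫 τ R.r (heckeSum H)

/-- **T2.27.03** `‖T_H φ‖² ≤ (q_v + 1)² ‖φ‖²` (Cauchy--Schwarz and the KEY LEMMA). -/
def SubHeckeBddT291 (K : Type) [Field K] [NumberField K] : Prop :=
  ∀ (𝔫 : Ideal (𝓞 K)) (τ : G K → ℂ), CtxT291 K 𝔫 τ → ∀ (R : FrameR K)
    (v : HeightOneSpectrum (𝓞 K)), ¬ v.asIdeal ∣ 𝔫 →
    ∀ H : Finset (G K), IsHeckeCosetSystem v H → BddT291 𝔫 τ R (heckeSum H)

/-- **T2.27.04** `T_v* = S_v⁻¹ T_v`: `B(h) = ∫_D φ(g h) ψ̄(g)` is bi-invariant under `GL₂(𝒪_v)`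
(KEY LEMMA), and `h`, `h⁻¹ z` lie in the same double coset `GL₂(𝒪_v) diag(ϖ, 1) GL₂(𝒪_v)`.
For EVERY coset system `H` and EVERY scalar uniformiser `z` at `v` (clause 3 of `OpsAdjT`). -/
def SubHeckeAdjT291 (K : Type) [Field K] [NumberField K] : Prop :=
  ∀ (𝔫 : Ideal (𝓞 K)) (τ : G K → ℂ), CtxT291 K 𝔫 τ → ∀ (R : FrameR K)
    (v : HeightOneSpectrum (𝓞 K)), ¬ v.asIdeal ∣ 𝔫 →
    ∀ H : Finset (G K), IsHeckeCosetSystem v H →
    ∀ z : G K, IsScalarUniformizerAt v z →
      IsAdjT291 𝔫 τ R (heckeSum H) (fun ψ => shift z⁻¹ (heckeSum H ψ))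

/-- **T2.27.05** the shift by a central element preserves the cusp functions of the class. -/
def SubShiftPresT291 (K : Type) [Field K] [NumberField K] : Prop :=
  ∀ (𝔫 : Ideal (𝓞 K)) (τ : G K → ℂ) (r z : G K), (∀ g : G K, g * z = z * g) →
    PresT291 𝔫 τ r (shift z)

/-- **T2.27.06** right translations are isometries on the class (KEY LEMMA): clauses 1 and 2 of
`OpsAdjT`, for an arbitrary element `z`. -/
def SubShiftIsoT291 (K : Type) [Field K] [NumberField K] : Prop :=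
  ∀ (𝔫 : Ideal (𝓞 K)) (τ : G K → ℂ), CtxT291 K 𝔫 τ → ∀ (R : FrameR K) (z : G K)
    (φ ψ : G K → ℂ), IsCuspT 𝔫 τ R.r φ → IsCuspT 𝔫 τ R.r ψ →
      pair R.F (shift z φ) (shift z ψ) = pair R.F φ ψ

/-- **T2.27.08** convolutions are additive and homogeneous on the cusp functions of the class
(integrability: `f` continuous with compact support, `φ` continuous and bounded). -/
def SubConvLinT291 (K : Type) [Field K] [NumberField K] : Prop :=
  ∀ (𝔫 : Ideal (𝓞 K)) (τ : G K → ℂ), CtxT291 K 𝔫 τ → ∀ (R : FrameR K) (f : G K → ℂ),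
    IsSphTestT 𝔫 τ f → LinT291 𝔫 τ R.r (conv R.F f)

/-- **T2.27.09** `‖R(f) φ‖² ≤ ‖f‖₁² ‖φ‖²` (Cauchy--Schwarz, Tonelli, KEY LEMMA). -/
def SubConvBddT291 (K : Type) [Field K] [NumberField K] : Prop :=
  ∀ (𝔫 : Ideal (𝓞 K)) (τ : G K → ℂ), CtxT291 K 𝔫 τ → ∀ (R : FrameR K) (f : G K → ℂ),
    IsSphTestT 𝔫 τ f → BddT291 𝔫 τ R (conv R.F f)

/-- **T2.27.10** two Hecke sums commute on the cusp functions of the class (different places: the
elements commute; same place: independence of the coset system, asset helper129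
`heckeSum_indep_level129`). -/
def SubCommHeckeHeckeT291 (K : Type) [Field K] [NumberField K] : Prop :=
  ∀ (𝔫 : Ideal (𝓞 K)) (τ : G K → ℂ), CtxT291 K 𝔫 τ → ∀ R : FrameR K,
    ∀ (v : HeightOneSpectrum (𝓞 K)), ¬ v.asIdeal ∣ 𝔫 → ∀ H : Finset (G K),
    IsHeckeCosetSystem v H →
    ∀ (v' : HeightOneSpectrum (𝓞 K)), ¬ v'.asIdeal ∣ 𝔫 → ∀ H' : Finset (G K),
    IsHeckeCosetSystem v' H' → CommT291 𝔫 τ R.r (heckeSum H) (heckeSum H')

/-- **T2.27.11** a convolution by a spherical test function of type `τ` commutes with a Hecke sum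
(commutativity of the spherical Hecke algebra at `v`; the type `τ` plays no role).
[Bump, Thm 4.6.1]. -/
def SubCommConvHeckeT291 (K : Type) [Field K] [NumberField K] : Prop :=
  ∀ (𝔫 : Ideal (𝓞 K)) (τ : G K → ℂ), CtxT291 K 𝔫 τ → ∀ (R : FrameR K) (f : G K → ℂ),
    IsSphTestT 𝔫 τ f →
    ∀ (v : HeightOneSpectrum (𝓞 K)), ¬ v.asIdeal ∣ 𝔫 → ∀ H : Finset (G K),
    IsHeckeCosetSystem v H → CommT291 𝔫 τ R.r (conv R.F f) (heckeSum H)

/-- **T2.27.12** sphere means preserve the cusp functions of the class.  The type under `U(2)` at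
the place of the mean: `τ` is trivial on `SU(2)` (`SubTypeSU2T291`), `U(2) = U(1) · SU(2)` with
`U(1)` central, and `sin β dβ dα` is invariant under the rotations of `S² = SU(2) / T`
(`SubS2RotT291`); continuity of `Y` by `SubLocContT291`. -/
def SubSpherePresT291 (K : Type) [Field K] [NumberField K] : Prop :=
  ∀ (𝔫 : Ideal (𝓞 K)) (τ : G K → ℂ), CtxT291 K 𝔫 τ → ∀ (R : FrameR K)
    (w : InfinitePlace K), w.IsComplex → ∀ d : ℝ, 0 < d →
    ∀ Y : ℝ → ℝ → G K, IsSphereAt w d Y → PresT291 𝔫 τ R.r (sphereMean Y)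

/-- **T2.27.13** the `τ`-twisted circle means preserve the cusp functions of the class (the
circle is a one-parameter group, `θ ↦ τ(k_θ)⁻¹ φ(g k_θ a)` has period `2π` because `-1` is
central: periodicity). -/
def SubCirclePresT291 (K : Type) [Field K] [NumberField K] : Prop :=
  ∀ (𝔫 : Ideal (𝓞 K)) (τ : G K → ℂ), CtxT291 K 𝔫 τ → ∀ (R : FrameR K)
    (w : InfinitePlace K), w.IsReal → ∀ t : ℝ, 0 < t → ∀ (k : ℝ → G K) (a : G K),
    IsRotAt w k → IsTorusAt w t a → PresT291 𝔫 τ R.r (circleMeanT τ k a)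

/-- **T2.27.14** sphere means and twisted circle means are additive and homogeneous on the cusp
functions of the class. -/
def SubMeanLinT291 (K : Type) [Field K] [NumberField K] : Prop :=
  ∀ (𝔫 : Ideal (𝓞 K)) (τ : G K → ℂ), CtxT291 K 𝔫 τ → ∀ R : FrameR K,
    (∀ (w : InfinitePlace K), w.IsComplex → ∀ d : ℝ, 0 < d →
      ∀ Y : ℝ → ℝ → G K, IsSphereAt w d Y → LinT291 𝔫 τ R.r (sphereMean Y)) ∧
    (∀ (w : InfinitePlace K), w.IsReal → ∀ t : ℝ, 0 < t → ∀ (k : ℝ → G K) (a : G K),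
      IsRotAt w k → IsTorusAt w t a → LinT291 𝔫 τ R.r (circleMeanT τ k a))

/-- **T2.27.15** `‖M φ‖² ≤ (4π)² ‖φ‖²`, resp. `(2π)² ‖φ‖²` (Cauchy--Schwarz, Fubini, KEY LEMMA;
`|τ| = 1`). -/
def SubMeanBddT291 (K : Type) [Field K] [NumberField K] : Prop :=
  ∀ (𝔫 : Ideal (𝓞 K)) (τ : G K → ℂ), CtxT291 K 𝔫 τ → ∀ R : FrameR K,
    (∀ (w : InfinitePlace K), w.IsComplex → ∀ d : ℝ, 0 < d →
      ∀ Y : ℝ → ℝ → G K, IsSphereAt w d Y → BddT291 𝔫 τ R (sphereMean Y)) ∧
    (∀ (w : InfinitePlace K), w.IsReal → ∀ t : ℝ, 0 < t → ∀ (k : ℝ → G K) (a : G K),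
      IsRotAt w k → IsTorusAt w t a → BddT291 𝔫 τ R (circleMeanT τ k a))

/-- **T2.27.16** sphere means and twisted circle means are self-adjoint (clauses 4 and 5 of
`OpsAdjT`): `B(h) = ∫_D φ(g h) ψ̄(g)` satisfies `B(k₁ h k₂) = τ(k₁)⁻¹ … ` under the compact group
at `w` (KEY LEMMA), and `torus(d)⁻¹ = w₀ torus(d) w₀⁻¹` with `w₀ = [[0, 1], [-1, 0]]`
(`w₀ ∈ SU(2)`, resp. `w₀ = rotY π ∈ SO(2)`; the factors `τ(w₀)`, `τ(w₀)⁻¹` cancel). -/
def SubMeanAdjT291 (K : Type) [Field K] [NumberField K] : Prop :=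
  ∀ (𝔫 : Ideal (𝓞 K)) (τ : G K → ℂ), CtxT291 K 𝔫 τ → ∀ R : FrameR K,
    (∀ (w : InfinitePlace K), w.IsComplex → ∀ d : ℝ, 0 < d →
      ∀ Y : ℝ → ℝ → G K, IsSphereAt w d Y → IsAdjT291 𝔫 τ R (sphereMean Y) (sphereMean Y)) ∧
    (∀ (w : InfinitePlace K), w.IsReal → ∀ t : ℝ, 0 < t → ∀ (k : ℝ → G K) (a : G K),
      IsRotAt w k → IsTorusAt w t a →
      IsAdjT291 𝔫 τ R (circleMeanT τ k a) (circleMeanT τ k a))

/-- **T2.27.17** sphere means and twisted circle means commute with the Hecke sums (the elements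
commute; the integral of a finite sum). -/
def SubCommMeanHeckeT291 (K : Type) [Field K] [NumberField K] : Prop :=
  ∀ (𝔫 : Ideal (𝓞 K)) (τ : G K → ℂ), CtxT291 K 𝔫 τ → ∀ R : FrameR K,
    ∀ (v : HeightOneSpectrum (𝓞 K)), ¬ v.asIdeal ∣ 𝔫 → ∀ H : Finset (G K),
    IsHeckeCosetSystem v H →
    (∀ (w : InfinitePlace K), w.IsComplex → ∀ d : ℝ, 0 < d →
      ∀ Y : ℝ → ℝ → G K, IsSphereAt w d Y → CommT291 𝔫 τ R.r (sphereMean Y) (heckeSum H)) ∧
    (∀ (w : InfinitePlace K), w.IsReal → ∀ t : ℝ, 0 < t → ∀ (k : ℝ → G K) (a : G K),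
      IsRotAt w k → IsTorusAt w t a → CommT291 𝔫 τ R.r (circleMeanT τ k a) (heckeSum H))

/-- **T2.27.18** two sphere means commute on the cusp functions of the class.  Different places:
Fubini.  Same place: on functions of type `τ` the sphere mean is the convolution with a measure
which is bi-equivariant of type `τ⁻¹` under `U(2)`; the transposition fixes the diagonal
matrices and `τ(kᵀ) = τ(k)` on `U(2)` (`τ` is a power of the determinant: trivial on `SU(2)`);
Cartan decomposition `GL₂(ℂ) = U(2) A U(2)`; then `PairDefiniteT`. [Helgason, GGA IV §2]. -/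
def SubCommSphereSphereT291 (K : Type) [Field K] [NumberField K] : Prop :=
  ∀ (𝔫 : Ideal (𝓞 K)) (τ : G K → ℂ), CtxT291 K 𝔫 τ → ∀ R : FrameR K,
    ∀ (w : InfinitePlace K), w.IsComplex → ∀ d : ℝ, 0 < d →
    ∀ Y : ℝ → ℝ → G K, IsSphereAt w d Y →
    ∀ (w' : InfinitePlace K), w'.IsComplex → ∀ d' : ℝ, 0 < d' →
    ∀ Y' : ℝ → ℝ → G K, IsSphereAt w' d' Y' →
      CommT291 𝔫 τ R.r (sphereMean Y) (sphereMean Y')

/-- **T2.27.19** a sphere mean and a twisted circle mean commute (different places: Fubini). -/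
def SubCommSphereCircleT291 (K : Type) [Field K] [NumberField K] : Prop :=
  ∀ (𝔫 : Ideal (𝓞 K)) (τ : G K → ℂ), CtxT291 K 𝔫 τ → ∀ R : FrameR K,
    ∀ (w : InfinitePlace K), w.IsComplex → ∀ d : ℝ, 0 < d →
    ∀ Y : ℝ → ℝ → G K, IsSphereAt w d Y →
    ∀ (w' : InfinitePlace K), w'.IsReal → ∀ t : ℝ, 0 < t → ∀ (k : ℝ → G K) (a : G K),
    IsRotAt w' k → IsTorusAt w' t a →
      CommT291 𝔫 τ R.r (sphereMean Y) (circleMeanT τ k a)

/-- **T2.27.20** two twisted circle means commute.  Different places: Fubini.  Same place: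
Gelfand's trick with the anti-involution `θ(g) = e gᵀ e`, `e = diag(1, -1)`, which fixes `SO(2)`
pointwise and the diagonal matrices; `GL₂(ℝ) = SO(2) A' SO(2)`, `A'` = real diagonal matrices. -/
def SubCommCircleCircleT291 (K : Type) [Field K] [NumberField K] : Prop :=
  ∀ (𝔫 : Ideal (𝓞 K)) (τ : G K → ℂ), CtxT291 K 𝔫 τ → ∀ R : FrameR K,
    ∀ (w : InfinitePlace K), w.IsReal → ∀ t : ℝ, 0 < t → ∀ (k : ℝ → G K) (a : G K),
    IsRotAt w k → IsTorusAt w t a →
    ∀ (w' : InfinitePlace K), w'.IsReal → ∀ t' : ℝ, 0 < t' → ∀ (k' : ℝ → G K) (a' : G K),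
    IsRotAt w' k' → IsTorusAt w' t' a' →
      CommT291 𝔫 τ R.r (circleMeanT τ k a) (circleMeanT τ k' a')

/-- **T2.27.21** a convolution by a spherical test function of type `τ` commutes with the sphere
means and with the twisted circle means (Gelfand's trick at `w`, with the transposition at a
complex place and with `θ(g) = e gᵀ e` at a real place; then `PairDefiniteT`).
[Helgason, GGA IV §3], [Lang, `SL₂(ℝ)`, ch. IV]. -/
def SubCommConvMeanT291 (K : Type) [Field K] [NumberField K] : Prop :=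
  ∀ (𝔫 : Ideal (𝓞 K)) (τ : G K → ℂ), CtxT291 K 𝔫 τ → ∀ (R : FrameR K) (f : G K → ℂ),
    IsSphTestT 𝔫 τ f →
    (∀ (w : InfinitePlace K), w.IsComplex → ∀ d : ℝ, 0 < d →
      ∀ Y : ℝ → ℝ → G K, IsSphereAt w d Y → CommT291 𝔫 τ R.r (conv R.F f) (sphereMean Y)) ∧
    (∀ (w : InfinitePlace K), w.IsReal → ∀ t : ℝ, 0 < t → ∀ (k : ℝ → G K) (a : G K),
      IsRotAt w k → IsTorusAt w t a → CommT291 𝔫 τ R.r (conv R.F f) (circleMeanT τ k a))

/-! ### Auxiliary sub-leaves (Mathlib + A0 only; inputs of T2.27.12 -- T2.27.21) -/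

/-- **T2.27.31** invariance of the measure `sin β dβ dα` of `S² = SU(2) / T` under the
rotations, in Euler angles: for `ψ` continuous on the invertible matrices and right invariant
under the diagonal torus `T = {rotZ γ}` of `SU(2)`, and `k₀ ∈ SU(2)`.
(The form `T2.07.31` of helper429 -- `ψ` right invariant under `U(2)`, `k₀ ∈ U(2)` -- does not
apply to functions of type `τ`; this form implies it.) -/
def SubS2RotT291 : Prop :=
  ∀ ψ : Matrix (Fin 2) (Fin 2) ℂ → ℂ, ContinuousOn ψ {m | m.det ≠ 0} →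
    (∀ (m : Matrix (Fin 2) (Fin 2) ℂ) (γ : ℝ), ψ (m * rotZ γ) = ψ m) →
    ∀ k₀ : Matrix (Fin 2) (Fin 2) ℂ, k₀ * k₀.conjTranspose = 1 → k₀.det = 1 →
      (∫ α in (0 : ℝ)..(2 * Real.pi), ∫ β in (0 : ℝ)..Real.pi,
          ψ (k₀ * (rotZ α * rotY β)) * ((Real.sin β : ℝ) : ℂ))
        = ∫ α in (0 : ℝ)..(2 * Real.pi), ∫ β in (0 : ℝ)..Real.pi,
          ψ (rotZ α * rotY β) * ((Real.sin β : ℝ) : ℂ)

/-- **T2.27.33** a `K_∞`-type is trivial on `SU(2)` at a complex place: `rotZ (2γ)` is the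
commutator of `rotZ γ` and `w₀ = [[0, 1], [-1, 0]]`, every element of `SU(2)` is conjugate in
`SU(2)` to some `rotZ γ`, and `τ` is multiplicative on the elements of `U(2)` at `w`. -/
def SubTypeSU2T291 (K : Type) [Field K] [NumberField K] : Prop :=
  ∀ τ : G K → ℂ, IsKType τ → ∀ (w : InfinitePlace K), w.IsComplex →
    ∀ k : G K, IsArchCompact w k → (infComp w k).det = 1 → τ k = 1

/-- ALL SUB-LEAVES of `T2.LeafT07` which enter the assembly. -/
structure SubT291 (K : Type) [Field K] [NumberField K] : Prop where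
  central : SubCentralT291 K
  heckePres : SubHeckePresT291 K
  heckeBdd : SubHeckeBddT291 K
  heckeAdj : SubHeckeAdjT291 K
  shiftPres : SubShiftPresT291 K
  shiftIso : SubShiftIsoT291 K
  convLin : SubConvLinT291 K
  convBdd : SubConvBddT291 K
  commHeckeHecke : SubCommHeckeHeckeT291 K
  commConvHecke : SubCommConvHeckeT291 K
  spherePres : SubSpherePresT291 K
  circlePres : SubCirclePresT291 K
  meanLin : SubMeanLinT291 K
  meanBdd : SubMeanBddT291 K
  meanAdj : SubMeanAdjT291 K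
  commMeanHecke : SubCommMeanHeckeT291 K
  commSphereSphere : SubCommSphereSphereT291 K
  commSphereCircle : SubCommSphereCircleT291 K
  commCircleCircle : SubCommCircleCircleT291 K
  commConvMean : SubCommConvMeanT291 K

/-! ## 5. The leaf from the sub-leaves -/

theorem shift_shiftT291 (h k : G K) (φ : G K → ℂ) : shift h (shift k φ) = shift (h * k) φ := by
  funext g
  show φ (g * h * k) = φ (g * (h * k))
  rw [mul_assoc]

theorem shift_oneT291 (φ : G K → ℂ) : shift (1 : G K) φ = φ := by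
  funext g
  show φ (g * 1) = φ g
  rw [mul_one]

/-- The adjoint of the shift by a central element is the shift by its inverse. -/
theorem adj_shift_of_isoT291 (S : SubT291 K) {𝔫 : Ideal (𝓞 K)} {τ : G K → ℂ}
    (c : CtxT291 K 𝔫 τ) (R : FrameR K) {z : G K} (hz : ∀ g : G K, g * z = z * g) :
    IsAdjT291 𝔫 τ R (shift z) (shift z⁻¹) := by
  intro φ ψ hφ hψ
  have hψ' : IsCuspT 𝔫 τ R.r (shift z⁻¹ ψ) :=
    S.shiftPres 𝔫 τ R.r z⁻¹ (central_invT291 hz) ψ hψ
  have := S.shiftIso 𝔫 τ c R z φ (shift z⁻¹ ψ) hφ hψ'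
  rw [shift_shiftT291, mul_inv_cancel, shift_oneT291] at this
  exact this

theorem bdd_shift_of_isoT291 (S : SubT291 K) {𝔫 : Ideal (𝓞 K)} {τ : G K → ℂ}
    (c : CtxT291 K 𝔫 τ) (R : FrameR K) (z : G K) : BddT291 𝔫 τ R (shift z) :=
  ⟨1, fun φ hφ => by
    unfold nsq
    rw [S.shiftIso 𝔫 τ c R z φ φ hφ hφ, one_mul]⟩

theorem genGoodT_of_subT291 (S : SubT291 K) {𝔫 : Ideal (𝓞 K)} {τ : G K → ℂ}
    (c : CtxT291 K 𝔫 τ) (R : FrameR K) : GenGoodT291 𝔫 τ R := by
  have hcen : ∀ (v : HeightOneSpectrum (𝓞 K)) (z : G K), IsScalarUniformizerAt v z →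
      ∀ g : G K, g * z = z * g := S.central.1
  have hcen' : ∀ (w : InfinitePlace K) (z : G K), IsArchPosScalar w z →
      ∀ g : G K, g * z = z * g := S.central.2
  have hcc := c.cc R
  refine ⟨?_, ?_, ?_, ?_, ?_⟩
  · -- preservation
    intro T hT
    cases hT with
    | conv f hf => exact fun φ hφ => hcc.2.2.1 f φ hf.test hφ
    | hecke v hv H hH => exact S.heckePres 𝔫 τ c R v hv H hH
    | shift v hv z hz => exact S.shiftPres 𝔫 τ R.r z (hcen v z hz)
    | shiftInv v hv z hz => exact S.shiftPres 𝔫 τ R.r z⁻¹ (central_invT291 (hcen v z hz))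
    | central w z hz => exact S.shiftPres 𝔫 τ R.r z (hcen' w z hz)
    | centralInv w z hz => exact S.shiftPres 𝔫 τ R.r z⁻¹ (central_invT291 (hcen' w z hz))
    | sphere w hw d hd Y hY => exact S.spherePres 𝔫 τ c R w hw d hd Y hY
    | circle w hw t ht k a hk ha => exact S.circlePres 𝔫 τ c R w hw t ht k a hk ha
  · -- linearity
    intro T hT
    cases hT with
    | conv f hf => exact S.convLin 𝔫 τ c R f hf
    | hecke v hv H hH => exact lin_heckeSumT291 𝔫 τ R.r H
    | shift v hv z hz => exact lin_shiftT291 𝔫 τ R.r z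
    | shiftInv v hv z hz => exact lin_shiftT291 𝔫 τ R.r z⁻¹
    | central w z hz => exact lin_shiftT291 𝔫 τ R.r z
    | centralInv w z hz => exact lin_shiftT291 𝔫 τ R.r z⁻¹
    | sphere w hw d hd Y hY => exact (S.meanLin 𝔫 τ c R).1 w hw d hd Y hY
    | circle w hw t ht k a hk ha => exact (S.meanLin 𝔫 τ c R).2 w hw t ht k a hk ha
  · -- bounds
    intro T hT
    cases hT with
    | conv f hf => exact S.convBdd 𝔫 τ c R f hf
    | hecke v hv H hH => exact S.heckeBdd 𝔫 τ c R v hv H hH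
    | shift v hv z hz => exact bdd_shift_of_isoT291 S c R z
    | shiftInv v hv z hz => exact bdd_shift_of_isoT291 S c R z⁻¹
    | central w z hz => exact bdd_shift_of_isoT291 S c R z
    | centralInv w z hz => exact bdd_shift_of_isoT291 S c R z⁻¹
    | sphere w hw d hd Y hY => exact (S.meanBdd 𝔫 τ c R).1 w hw d hd Y hY
    | circle w hw t ht k a hk ha => exact (S.meanBdd 𝔫 τ c R).2 w hw t ht k a hk ha
  · -- commutation
    intro T₁ T₂ h₁ h₂
    cases h₁ with
    | shift v hv z hz => exact comm_shift_genT291 (hcen v z hz) h₂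
    | shiftInv v hv z hz => exact comm_shift_genT291 (central_invT291 (hcen v z hz)) h₂
    | central w z hz => exact comm_shift_genT291 (hcen' w z hz) h₂
    | centralInv w z hz => exact comm_shift_genT291 (central_invT291 (hcen' w z hz)) h₂
    | conv f hf =>
      cases h₂ with
      | conv f' hf' =>
        exact fun φ hφ => hcc.2.2.2.2.2 f f' φ hf hf' hφ.aut
      | hecke v hv H hH => exact S.commConvHecke 𝔫 τ c R f hf v hv H hH
      | shift v hv z hz =>
        exact (comm_shift_genT291 (hcen v z hz) (IsGenT291.conv (F := R.F) f hf)).symm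
      | shiftInv v hv z hz =>
        exact (comm_shift_genT291 (central_invT291 (hcen v z hz))
          (IsGenT291.conv (F := R.F) f hf)).symm
      | central w z hz =>
        exact (comm_shift_genT291 (hcen' w z hz) (IsGenT291.conv (F := R.F) f hf)).symm
      | centralInv w z hz =>
        exact (comm_shift_genT291 (central_invT291 (hcen' w z hz))
          (IsGenT291.conv (F := R.F) f hf)).symm
      | sphere w hw d hd Y hY => exact (S.commConvMean 𝔫 τ c R f hf).1 w hw d hd Y hY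
      | circle w hw t ht k a hk ha => exact (S.commConvMean 𝔫 τ c R f hf).2 w hw t ht k a hk ha
    | hecke v hv H hH =>
      cases h₂ with
      | conv f' hf' => exact (S.commConvHecke 𝔫 τ c R f' hf' v hv H hH).symm
      | hecke v' hv' H' hH' => exact S.commHeckeHecke 𝔫 τ c R v hv H hH v' hv' H' hH'
      | shift v' hv' z hz =>
        exact (comm_shift_genT291 (hcen v' z hz)
          (IsGenT291.hecke (τ := τ) (F := R.F) v hv H hH)).symm
      | shiftInv v' hv' z hz =>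
        exact (comm_shift_genT291 (central_invT291 (hcen v' z hz))
          (IsGenT291.hecke (τ := τ) (F := R.F) v hv H hH)).symm
      | central w z hz =>
        exact (comm_shift_genT291 (hcen' w z hz)
          (IsGenT291.hecke (τ := τ) (F := R.F) v hv H hH)).symm
      | centralInv w z hz =>
        exact (comm_shift_genT291 (central_invT291 (hcen' w z hz))
          (IsGenT291.hecke (τ := τ) (F := R.F) v hv H hH)).symm
      | sphere w hw d hd Y hY =>
        exact ((S.commMeanHecke 𝔫 τ c R v hv H hH).1 w hw d hd Y hY).symm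
      | circle w hw t ht k a hk ha =>
        exact ((S.commMeanHecke 𝔫 τ c R v hv H hH).2 w hw t ht k a hk ha).symm
    | sphere w hw d hd Y hY =>
      cases h₂ with
      | conv f' hf' => exact ((S.commConvMean 𝔫 τ c R f' hf').1 w hw d hd Y hY).symm
      | hecke v hv H hH => exact (S.commMeanHecke 𝔫 τ c R v hv H hH).1 w hw d hd Y hY
      | shift v' hv' z hz =>
        exact (comm_shift_genT291 (hcen v' z hz)
          (IsGenT291.sphere (𝔫 := 𝔫) (τ := τ) (F := R.F) w hw d hd Y hY)).symm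
      | shiftInv v' hv' z hz =>
        exact (comm_shift_genT291 (central_invT291 (hcen v' z hz))
          (IsGenT291.sphere (𝔫 := 𝔫) (τ := τ) (F := R.F) w hw d hd Y hY)).symm
      | central w' z hz =>
        exact (comm_shift_genT291 (hcen' w' z hz)
          (IsGenT291.sphere (𝔫 := 𝔫) (τ := τ) (F := R.F) w hw d hd Y hY)).symm
      | centralInv w' z hz =>
        exact (comm_shift_genT291 (central_invT291 (hcen' w' z hz))
          (IsGenT291.sphere (𝔫 := 𝔫) (τ := τ) (F := R.F) w hw d hd Y hY)).symm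
      | sphere w' hw' d' hd' Y' hY' =>
        exact S.commSphereSphere 𝔫 τ c R w hw d hd Y hY w' hw' d' hd' Y' hY'
      | circle w' hw' t ht k a hk ha =>
        exact S.commSphereCircle 𝔫 τ c R w hw d hd Y hY w' hw' t ht k a hk ha
    | circle w hw t ht k a hk ha =>
      cases h₂ with
      | conv f' hf' => exact ((S.commConvMean 𝔫 τ c R f' hf').2 w hw t ht k a hk ha).symm
      | hecke v hv H hH => exact (S.commMeanHecke 𝔫 τ c R v hv H hH).2 w hw t ht k a hk ha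
      | shift v' hv' z hz =>
        exact (comm_shift_genT291 (hcen v' z hz)
          (IsGenT291.circle (𝔫 := 𝔫) (F := R.F) w hw t ht k a hk ha)).symm
      | shiftInv v' hv' z hz =>
        exact (comm_shift_genT291 (central_invT291 (hcen v' z hz))
          (IsGenT291.circle (𝔫 := 𝔫) (F := R.F) w hw t ht k a hk ha)).symm
      | central w' z hz =>
        exact (comm_shift_genT291 (hcen' w' z hz)
          (IsGenT291.circle (𝔫 := 𝔫) (F := R.F) w hw t ht k a hk ha)).symm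
      | centralInv w' z hz =>
        exact (comm_shift_genT291 (central_invT291 (hcen' w' z hz))
          (IsGenT291.circle (𝔫 := 𝔫) (F := R.F) w hw t ht k a hk ha)).symm
      | sphere w' hw' d' hd' Y' hY' =>
        exact (S.commSphereCircle 𝔫 τ c R w' hw' d' hd' Y' hY' w hw t ht k a hk ha).symm
      | circle w' hw' t' ht' k' a' hk' ha' =>
        exact S.commCircleCircle 𝔫 τ c R w hw t ht k a hk ha w' hw' t' ht' k' a' hk' ha'
  · -- adjoints
    intro T hT
    cases hT with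
    | conv f hf =>
      exact ⟨conv R.F (adj f), IsOpT.conv _ (hcc.2.1 f hf),
        fun φ ψ hφ hψ => hcc.2.2.2.2.1 f φ ψ hf.test hφ.aut hψ.aut⟩
    | hecke v hv H hH =>
      obtain ⟨z, hz⟩ := (c.t1.heckeCoset v).2.2
      exact ⟨fun ψ => shift z⁻¹ (heckeSum H ψ),
        IsOpT.comp _ _ (IsOpT.shiftInv v hv z hz) (IsOpT.hecke v hv H hH),
        S.heckeAdj 𝔫 τ c R v hv H hH z hz⟩
    | shift v hv z hz =>
      exact ⟨shift z⁻¹, IsOpT.shiftInv v hv z hz, adj_shift_of_isoT291 S c R (hcen v z hz)⟩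
    | shiftInv v hv z hz =>
      refine ⟨shift z, IsOpT.shift v hv z hz, ?_⟩
      have := adj_shift_of_isoT291 S c R (central_invT291 (hcen v z hz))
      rwa [inv_inv] at this
    | central w z hz =>
      exact ⟨shift z⁻¹, IsOpT.centralInv w z hz, adj_shift_of_isoT291 S c R (hcen' w z hz)⟩
    | centralInv w z hz =>
      refine ⟨shift z, IsOpT.central w z hz, ?_⟩
      have := adj_shift_of_isoT291 S c R (central_invT291 (hcen' w z hz))
      rwa [inv_inv] at this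
    | sphere w hw d hd Y hY =>
      exact ⟨sphereMean Y, IsOpT.sphere w hw d hd Y hY, (S.meanAdj 𝔫 τ c R).1 w hw d hd Y hY⟩
    | circle w hw t ht k a hk ha =>
      exact ⟨circleMeanT τ k a, IsOpT.circle w hw t ht k a hk ha,
        (S.meanAdj 𝔫 τ c R).2 w hw t ht k a hk ha⟩

/-- The explicit adjoints from the sub-leaves. -/
theorem opsAdjT_of_subT291 (S : SubT291 K) {𝔫 : Ideal (𝓞 K)} {τ : G K → ℂ}
    (c : CtxT291 K 𝔫 τ) : OpsAdjT K 𝔫 τ := fun R =>
  ⟨fun _ _ z _ φ ψ hφ hψ => S.shiftIso 𝔫 τ c R z φ ψ hφ hψ,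
    fun _ z _ φ ψ hφ hψ => S.shiftIso 𝔫 τ c R z φ ψ hφ hψ,
    fun v hv H z hH hz φ ψ hφ hψ => S.heckeAdj 𝔫 τ c R v hv H hH z hz φ ψ hφ hψ,
    fun w hw d hd Y hY φ ψ hφ hψ => (S.meanAdj 𝔫 τ c R).1 w hw d hd Y hY φ ψ hφ hψ,
    fun w hw t ht k a hk ha φ ψ hφ hψ => (S.meanAdj 𝔫 τ c R).2 w hw t ht k a hk ha φ ψ hφ hψ⟩

/-- **THE LEAF `T2.27` FROM ITS SUB-LEAVES.** -/
theorem leafT07_of_subT291 (S : SubT291 K) : LeafT07 K := fun hT1 𝔫 τ h𝔫 hτ hP hC =>
  ⟨opsGoodT_of_genGoodT291 fun R => genGoodT_of_subT291 S ⟨hT1, h𝔫, hτ, hP, hC⟩ R,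
    opsAdjT_of_subT291 S ⟨hT1, h𝔫, hτ, hP, hC⟩⟩

end Fermat.Agent.LT.T2.H291

end
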