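import Fermat.Agent.LT.T2.Admissible
import Fermat.Agent.LT.T2.H899.MeanAdjT
import Fermat.Agent.LT.T2.H560.LeafT09
import Fermat.Agent.LT.T2.H354.LeafT06

/-!
# Row LT, tower T2, class of T5: ADMISSIBILITY AT THE REAL PLACES (helper291)

OFF-MAIN.  ADDITIVE, PROVED, UNCONDITIONAL.  Mirror, for the class `(𝔫, τ, r)` of T5 and the REAL
places, of `LT/T2/Admissible.lean` (helper130, totally complex fields, trivial type).

For a totally real field (in particular `ℚ`), every level `𝔫 ≠ 0` and every `K_∞`-type `τ`: the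
members of an orthonormal family of cusp functions of the class `(𝔫, τ, r)` which are invariant
under the positive scalars at the infinite places and have the same eigenvalue functions of the
`τ`-twisted circle means (`T2.MeanEigRT`) are FINITE in number (`finite_meanClassT291`); the
index type of ANY orthonormal family of cusp functions of the class is countable
(`countable_indexT291`).  No eigen-condition for the other operators is needed.

Proof.  `B_u(h) = ∫_D u(g h) conj u(g) dμ(g)` (matrix coefficient, `H770.B770`).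
* `B_u(k h) = τ(k) B_u(h)`, `B_u(h k) = τ(k) B_u(h)` for `k` in the compact group at `w`
  (`H899.B_leftT899`), `B_u` is right invariant under the positive scalars and under `U(𝔫)`;
* for `a` of component `torus t` at the real place `w`, `t > 0`, and `h'` trivial at `w`:
  `2π B_u(a h') = m_w(t) B_u(h')` (Fubini, `fubini_pair130`, and the circle mean);
* Cartan decomposition of `GL₂⁺(ℝ)` (`cartan_torusR291`, from `subCartanInf555`), induction over
  the places: `B_u = B_{u'}` on the elements which are trivial at the finite places and have a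
  positive determinant at every infinite place, when `u`, `u'` have the same eigenvalue
  functions (`coef_eqT291`);
* Fubini again: `⟨R(f) u, u⟩ = ∫ f(h) B_u(h) dμ(h)`; for the approximate identity of helper354
  (supported in `GL₂⁺(K_∞) U(𝔫)`) it depends on the eigenvalue functions only;
* Hilbert--Schmidt (`HSBoundT`) and Cauchy--Schwarz in the pre-Hilbert space of the class
  (`H560.V560`): for a test function `f` only finitely many members of an orthonormal family
  have `|⟨R(f) u, u⟩| > 1/2` (`finite_coefLargeT291`); approximate identity: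
  `⟨R(f_k) u, u⟩ → 1` (`large_of_approxT291`).
-/

set_option autoImplicit false
set_option linter.unusedSectionVars false
set_option linter.unusedVariables false
set_option linter.style.haveILetI false

open IsDedekindDomain NumberField MeasureTheory Filter Topology
open Fermat.Agent.LT.H556.A0
open scoped ComplexConjugate Matrix

noncomputable section

namespace Fermat.Agent.LT.T2.H291

open Fermat.Agent.LT.T2

attribute [local instance] Fermat.Agent.LT.T2.borelG

/-! ## 1. The Cartan decomposition of `GL₂⁺(ℝ)` with a torus element -/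

/-- Real special orthogonal matrices, as complex matrices. -/
def IsSOT291 (U : Matrix (Fin 2) (Fin 2) ℂ) : Prop :=
  U * Uᴴ = 1 ∧ (∀ i j, (U i j).im = 0) ∧ U.det = 1

theorem IsSOT291.mul {U V : Matrix (Fin 2) (Fin 2) ℂ} (hU : IsSOT291 U) (hV : IsSOT291 V) :
    IsSOT291 (U * V) := by
  refine ⟨H770.unitary_mul770 hU.1 hV.1, fun i j => ?_, by rw [Matrix.det_mul, hU.2.2, hV.2.2,
    one_mul]⟩
  rw [Matrix.mul_apply, Fin.sum_univ_two, Complex.add_im, Complex.mul_im, Complex.mul_im,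
    hU.2.1, hU.2.1, hV.2.1, hV.2.1]
  ring

theorem isSOT_rotY291 (θ : ℝ) : IsSOT291 (rotY θ) := by
  refine ⟨H770.rotY_unitary770 θ, fun i j => ?_, H770.rotY_det770 θ⟩
  unfold rotY
  fin_cases i <;> fin_cases j
  · exact Complex.ofReal_im _
  · show (-((Real.sin (θ / 2) : ℝ) : ℂ)).im = 0
    rw [Complex.neg_im, Complex.ofReal_im, neg_zero]
  · exact Complex.ofReal_im _
  · exact Complex.ofReal_im _

/-- The scalar matrix `ε`, `ε = ± 1`, is special orthogonal. -/
theorem isSOT_sign291 {ε : ℝ} (hε : ε * ε = 1) :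
    IsSOT291 (Matrix.diagonal ![(ε : ℂ), (ε : ℂ)]) := by
  have hc : (ε : ℂ) * (ε : ℂ) = 1 := by
    rw [← Complex.ofReal_mul, hε, Complex.ofReal_one]
  have e : (Matrix.diagonal ![(ε : ℂ), (ε : ℂ)] : Matrix (Fin 2) (Fin 2) ℂ)
      = !![(ε : ℂ), 0; 0, (ε : ℂ)] := by
    ext i j
    fin_cases i <;> fin_cases j <;> simp
  refine ⟨?_, fun i j => ?_, ?_⟩
  · rw [e]
    exact H770.diag_unitary770 (by rw [Complex.conj_ofReal]; exact hc)
      (by rw [Complex.conj_ofReal]; exact hc)
  · rw [e]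
    fin_cases i <;> fin_cases j <;> simp
  · rw [Matrix.det_diagonal, Fin.prod_univ_two]
    simpa using hc

/-- A real diagonal matrix with entries of the same sign is a sign times the diagonal matrix of
the absolute values. -/
theorem diag_signT291 {a b : ℝ} (hab : 0 < a * b) :
    ∃ ε : ℝ, ε * ε = 1 ∧
      (Matrix.diagonal ![(a : ℂ), (b : ℂ)] : Matrix (Fin 2) (Fin 2) ℂ)
        = Matrix.diagonal ![(ε : ℂ), (ε : ℂ)]
          * Matrix.diagonal ![((|a| : ℝ) : ℂ), ((|b| : ℝ) : ℂ)] := by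
  rcases lt_or_gt_of_ne (show a ≠ 0 from fun h => by rw [h, zero_mul] at hab; exact lt_irrefl _ hab)
    with ha | ha
  · have hb : b < 0 := by
      by_contra h
      push Not at h
      nlinarith
    refine ⟨-1, by norm_num, ?_⟩
    rw [Matrix.diagonal_mul_diagonal, abs_of_neg ha, abs_of_neg hb]
    congr 1
    funext i
    fin_cases i <;> simp
  · have hb : 0 < b := by
      by_contra h
      push Not at h
      nlinarith
    refine ⟨1, by norm_num, ?_⟩
    rw [Matrix.diagonal_mul_diagonal, abs_of_pos ha, abs_of_pos hb]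
    congr 1
    funext i
    fin_cases i <;> simp

/-- **The Cartan decomposition of `GL₂⁺(ℝ)` with a torus element**: every real matrix of
positive determinant is `U₁ · torus d · U₂ · r` with `U₁`, `U₂` in `SO(2)`, `d ≥ 0`, `r > 0`. -/
theorem cartan_torusR291 (X : Matrix (Fin 2) (Fin 2) ℂ) (hre : ∀ i j, (X i j).im = 0)
    (hX : 0 < X.det.re) :
    ∃ (U₁ U₂ : Matrix (Fin 2) (Fin 2) ℂ) (d r : ℝ), IsSOT291 U₁ ∧ IsSOT291 U₂ ∧ 0 ≤ d ∧
      0 < r ∧ X = U₁ * torus d * U₂ * Matrix.diagonal (fun _ => (r : ℂ)) := by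
  have hX0 : X.det ≠ 0 := fun h => by rw [h, Complex.zero_re] at hX; exact lt_irrefl _ hX
  obtain ⟨k₁, k₂, a, b, hk₁, hk₂, hXe, hreal⟩ := H555.subCartanInf555 X hX0
  obtain ⟨hk₁r, hk₂r, hk₁d, hk₂d, ha, hb⟩ := hreal hre
  have hK₁ : IsSOT291 k₁ := ⟨hk₁, hk₁r, hk₁d⟩
  have hK₂ : IsSOT291 k₂ := ⟨hk₂, hk₂r, hk₂d⟩
  have hae : a = ((a.re : ℝ) : ℂ) := Complex.ext rfl (by rw [Complex.ofReal_im, ha])
  have hbe : b = ((b.re : ℝ) : ℂ) := Complex.ext rfl (by rw [Complex.ofReal_im, hb])
  have hdet : X.det = ((a.re * b.re : ℝ) : ℂ) := by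
    rw [hXe, Matrix.det_mul, Matrix.det_mul, Matrix.det_diagonal, Fin.prod_univ_two, hk₁d, hk₂d]
    simp only [Matrix.cons_val_zero, Matrix.cons_val_one]
    rw [one_mul, mul_one, Complex.ofReal_mul, ← hae, ← hbe]
  have hab : 0 < a.re * b.re := by
    rw [hdet, Complex.ofReal_re] at hX
    exact hX
  obtain ⟨ε, hε, hsign⟩ := diag_signT291 hab
  have hE := isSOT_sign291 hε
  have hna : 0 < |a.re| := abs_pos.2 (fun h => by rw [h, zero_mul] at hab; exact lt_irrefl _ hab)
  have hnb : 0 < |b.re| := abs_pos.2 (fun h => by rw [h, mul_zero] at hab; exact lt_irrefl _ hab)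
  have hXe' : X = k₁ * (Matrix.diagonal ![(ε : ℂ), (ε : ℂ)]
      * Matrix.diagonal ![((|a.re| : ℝ) : ℂ), ((|b.re| : ℝ) : ℂ)]) * k₂ := by
    rw [← hsign, ← hae, ← hbe]
    exact hXe
  rcases le_total |b.re| |a.re| with hle | hle
  · obtain ⟨d, r, hd, hr, hdr⟩ := posDiag_eq130 hnb hle
    refine ⟨k₁ * Matrix.diagonal ![(ε : ℂ), (ε : ℂ)], k₂, d, r, hK₁.mul hE, hK₂, hd, hr, ?_⟩
    rw [hXe', hdr]
    simp only [Matrix.mul_assoc]
    rw [scalar_comm130 (r : ℂ) k₂]
  · obtain ⟨d, r, hd, hr, hdr⟩ := posDiag_eq130 hna hle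
    refine ⟨k₁ * Matrix.diagonal ![(ε : ℂ), (ε : ℂ)] * rotY Real.pi, rotY (-Real.pi) * k₂, d, r,
      (hK₁.mul hE).mul (isSOT_rotY291 _), (isSOT_rotY291 _).mul hK₂, hd, hr, ?_⟩
    have hsw : (Matrix.diagonal ![((|a.re| : ℝ) : ℂ), ((|b.re| : ℝ) : ℂ)] :
        Matrix (Fin 2) (Fin 2) ℂ)
        = rotY Real.pi * (torus d * Matrix.diagonal (fun _ => (r : ℂ))) * rotY (-Real.pi) := by
      rw [← hdr, weyl_diag130]
    rw [hXe', hsw]
    simp only [Matrix.mul_assoc]
    rw [scalar_comm130 (r : ℂ) (rotY (-Real.pi) * k₂)]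
    simp only [Matrix.mul_assoc]

theorem torus_realT291 (d : ℝ) (i j : Fin 2) : (torus d i j).im = 0 := by
  unfold torus
  fin_cases i <;> fin_cases j
  · exact Complex.ofReal_im _
  · exact Complex.zero_im
  · exact Complex.zero_im
  · exact Complex.ofReal_im _

theorem scalar_realT291 (r : ℝ) (i j : Fin 2) :
    ((Matrix.diagonal (fun _ : Fin 2 => (r : ℂ)) : Matrix (Fin 2) (Fin 2) ℂ) i j).im = 0 := by
  rw [Matrix.diagonal_apply]
  split_ifs
  · exact Complex.ofReal_im _
  · exact Complex.zero_im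

/-! ## 2. The matrix coefficient of the class -/

section Coeff

variable {K : Type} [Field K] [NumberField K]

/-- `u` is right invariant under the positive scalars at the infinite places. -/
def IsScInvT291 (u : G K → ℂ) : Prop :=
  ∀ (w : InfinitePlace K) (z : G K), IsArchPosScalar w z → ∀ g : G K, u (g * z) = u g

/-- A parametrisation of the rotations at `w`. -/
theorem exists_rotT291 (w : InfinitePlace K) : ∃ k : ℝ → G K, IsRotAt w k := by
  have hex : ∀ θ : ℝ, ∃ g : G K, IsArchCompact w g ∧ infComp w g = rotY θ := fun θ =>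
    H878.exists_archCompact878 w (rotY θ) (isSOT_rotY291 θ).1
      (fun _ => ⟨(isSOT_rotY291 θ).2.1, (isSOT_rotY291 θ).2.2⟩)
  choose k hk using hex
  exact ⟨k, fun θ => ⟨(hk θ).1.1, (hk θ).2⟩⟩

variable (R : FrameR K) {𝔫 : Ideal (𝓞 K)} {τ : G K → ℂ}

theorem coef_right_scalarT291 {u : G K → ℂ} (hu : IsScInvT291 u) (ψ : G K → ℂ)
    {w : InfinitePlace K} {z : G K} (hz : IsArchPosScalar w z) (h : G K) :
    H770.B770 R.F u ψ (h * z) = H770.B770 R.F u ψ h := by
  unfold H770.B770
  congr 1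
  funext g
  rw [← mul_assoc, hu w z hz]

theorem coef_right_cptT291 {u : G K → ℂ} (hu : IsAutT 𝔫 τ R.r u) (ψ : G K → ℂ)
    {w : InfinitePlace K} {k : G K} (hk : IsArchCompact w k) (h : G K) :
    H770.B770 R.F u ψ (h * k) = τ k * H770.B770 R.F u ψ h := by
  unfold H770.B770
  rw [← integral_const_mul]
  congr 1
  funext g
  rw [← mul_assoc, hu.arch_compact w k hk]
  ring

theorem nuC_massT291 : H770.nuC770.real Set.univ = 2 * Real.pi := by
  have h2pi : (0 : ℝ) ≤ 2 * Real.pi := by positivity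
  unfold H770.nuC770
  rw [Measure.real, Measure.restrict_apply_univ, Real.volume_Ioc, sub_zero,
    ENNReal.toReal_ofReal h2pi]

theorem two_pi_ne_zeroT291 : ((2 * Real.pi : ℝ) : ℂ) ≠ 0 := by
  rw [Ne, Complex.ofReal_eq_zero]
  positivity

/-- **The functional equation of the matrix coefficient at a real place**: for `a` of component
`torus t` at `w`, `t > 0`, and `h'` trivial at `w`: `2π B(a h') = m(t) B(h')`. -/
theorem coef_torusT291 (hτ : IsKType τ) {u : G K → ℂ} (hu : IsAutT 𝔫 τ R.r u)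
    {w : InfinitePlace K} {m : ℝ → ℂ} (hm : MeanEigRT τ u w m) {t : ℝ} (ht : 0 < t)
    {a h' : G K} (ha : IsTorusAt w t a) (hh' : TrivAtInf w h') :
    ((2 * Real.pi : ℝ) : ℂ) * H770.B770 R.F u u (a * h') = m t * H770.B770 R.F u u h' := by
  have hT1 := T1.t1Out K
  obtain ⟨-, hLC', hT2, hSC⟩ := hT1.locComp
  have := hLC'
  have := hT2
  have := hSC
  have hBor : BorelSpace (G K) := ⟨rfl⟩
  have := R.F.haar
  have hfin := H770.isFiniteMeasure_nuC770
  have hTr : H899.TranslInvT899 R := H899.translInvT_of_sub899 (subTranslT291 K) hT1 R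
  obtain ⟨k, hk⟩ := exists_rotT291 w
  have hkc : Continuous k := H899.continuous_rot899 hk
  have hyc : Continuous fun θ : ℝ => k θ * a := hkc.mul continuous_const
  obtain ⟨C, hC⟩ := hu.bdd
  have hφc : Continuous fun g : G K => u (g * h') :=
    hu.cont.comp (continuous_id.mul continuous_const)
  have hs : Continuous fun θ : ℝ => (τ (k θ))⁻¹ := H899.continuous_tau_rot_inv899 hτ hk
  have hsi : Integrable (fun θ : ℝ => (τ (k θ))⁻¹) H770.nuC770 := by
    refine Integrable.of_bound hs.aestronglyMeasurable 1 (Filter.Eventually.of_forall fun θ => ?_)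
    rw [H899.norm_tau_inv899 hτ (H899.isArchCompact_rot899 hk θ)]
  have key : ∫ g in R.F.D, (∫ θ, u (g * (k θ * a) * h') * (τ (k θ))⁻¹ ∂H770.nuC770)
        * conj (u g) ∂(R.F.μ)
      = ∫ θ, (τ (k θ))⁻¹ * ∫ g in R.F.D, u (g * (k θ * a) * h') * conj (u g) ∂(R.F.μ)
          ∂H770.nuC770 :=
    fubini_pair130 R.F.μ R.F.D R.F.fin H770.nuC770 hφc hu.cont (fun g => hC (g * h')) hC hyc
      hs hsi
  have hloc : ∀ θ, IsLocalAtInf w (k θ * a) := fun θ =>
    H878.isLocalAtInf_mul878 (hk θ).1 ha.1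
  have hL : ∀ g : G K,
      ∫ θ, u (g * (k θ * a) * h') * (τ (k θ))⁻¹ ∂H770.nuC770 = m t * u (g * h') := by
    intro g
    have e : ∀ θ : ℝ, g * (k θ * a) * h' = g * h' * (k θ * a) := fun θ => by
      rw [mul_assoc, commute_local_triv130 (hloc θ) hh', ← mul_assoc]
    simp only [e]
    rw [← hm t ht k a hk ha (g * h'), H899.circleMeanT_eq899]
    congr 1
    funext θ
    ring
  have hR : ∀ θ : ℝ,
      (τ (k θ))⁻¹ * ∫ g in R.F.D, u (g * (k θ * a) * h') * conj (u g) ∂(R.F.μ)
        = H770.B770 R.F u u (a * h') := by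
    intro θ
    have hkθ := H899.isArchCompact_rot899 hk θ
    have e : H770.B770 R.F u u (k θ * (a * h')) = τ (k θ) * H770.B770 R.F u u (a * h') :=
      H899.B_leftT899 R hTr hτ hu hu hkθ (a * h')
    have e2 : ∫ g in R.F.D, u (g * (k θ * a) * h') * conj (u g) ∂(R.F.μ)
        = H770.B770 R.F u u (k θ * (a * h')) := by
      unfold H770.B770
      congr 1
      funext g
      simp only [mul_assoc]
    rw [e2, e, ← mul_assoc, inv_mul_cancel₀ (H899.tau_ne_zero899 hτ hkθ), one_mul]
  simp only [hL, hR] at key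
  rw [integral_const, nuC_massT291, Complex.real_smul] at key
  rw [← key]
  unfold H770.B770
  rw [← integral_const_mul]
  congr 1
  funext g
  ring

/-- The matrix coefficient at `x h'`, `x` supported at the real place `w` with a positive
determinant, `h'` trivial at `w`, is a constant (which depends on `x` and `τ` only) times the
matrix coefficient at `a h'` for a torus element `a` at `w` of parameter `d ≥ 0`. -/
theorem coef_cartanT291 (hτ : IsKType τ) {w : InfinitePlace K} (hw : w.IsReal) {x : G K}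
    (hx : IsLocalAtInf w x) (hdet : 0 < (infComp w x).det.re) :
    ∃ (d : ℝ) (a : G K) (c : ℂ), 0 ≤ d ∧ IsTorusAt w d a ∧
      ∀ (u : G K → ℂ), IsAutT 𝔫 τ R.r u → IsScInvT291 u → ∀ h' : G K, TrivAtInf w h' →
        H770.B770 R.F u u (x * h') = c * H770.B770 R.F u u (a * h') := by
  have hT1 := T1.t1Out K
  have hTr : H899.TranslInvT899 R := H899.translInvT_of_sub899 (subTranslT291 K) hT1 R
  obtain ⟨U₁, U₂, d, r, hU₁, hU₂, hd, hr, hX⟩ :=
    cartan_torusR291 (infComp w x) (fun i j => H878.infComp_real878 hw x i j) hdet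
  obtain ⟨κ₁, hκ₁, hκ₁c⟩ := H878.exists_archCompact878 w U₁ hU₁.1
    (fun _ => ⟨hU₁.2.1, hU₁.2.2⟩)
  obtain ⟨κ₂, hκ₂, hκ₂c⟩ := H878.exists_archCompact878 w U₂ hU₂.1
    (fun _ => ⟨hU₂.2.1, hU₂.2.2⟩)
  obtain ⟨a, ha, hac⟩ := H878.exists_local878 w (torus d) (H878.det_torus878 d)
    (fun _ => torus_realT291 d)
  have hrdet : (Matrix.diagonal (fun _ : Fin 2 => (r : ℂ))).det ≠ 0 := by
    rw [Matrix.det_diagonal, Fin.prod_univ_two]
    have : (r : ℂ) ≠ 0 := by
      rw [Ne, Complex.ofReal_eq_zero]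
      exact hr.ne'
    exact mul_ne_zero this this
  obtain ⟨z, hz, hzc⟩ := H878.exists_local878 w (Matrix.diagonal (fun _ : Fin 2 => (r : ℂ)))
    hrdet (fun _ => scalar_realT291 r)
  have hzs : IsArchPosScalar w z := ⟨hz, r, hr, hzc⟩
  have hprod : IsLocalAtInf w (κ₁ * a * κ₂ * z) :=
    H878.isLocalAtInf_mul878 (H878.isLocalAtInf_mul878 (H878.isLocalAtInf_mul878 hκ₁.1 ha) hκ₂.1)
      hz
  have hxe : x = κ₁ * a * κ₂ * z := by
    refine H878.local_unique878 hx hprod ?_
    rw [H878.infComp_mul878, H878.infComp_mul878, H878.infComp_mul878, hκ₁c, hac, hκ₂c, hzc]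
    exact hX
  refine ⟨d, a, τ κ₁ * τ κ₂, hd, ⟨ha, hac⟩, fun u hu hsc h' hh' => ?_⟩
  have hκz : IsLocalAtInf w (κ₂ * z) := H878.isLocalAtInf_mul878 hκ₂.1 hz
  have e1 : x * h' = κ₁ * (a * h' * κ₂ * z) := by
    rw [hxe]
    have := commute_local_triv130 hκz hh'
    calc κ₁ * a * κ₂ * z * h' = κ₁ * a * (κ₂ * z * h') := by simp only [mul_assoc]
      _ = κ₁ * a * (h' * (κ₂ * z)) := by rw [this]
      _ = κ₁ * (a * h' * κ₂ * z) := by simp only [mul_assoc]
  rw [e1, H899.B_leftT899 R hTr hτ hu hu hκ₁ (a * h' * κ₂ * z),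
    coef_right_scalarT291 R hsc u hzs, coef_right_cptT291 R hu u hκ₂, mul_assoc]

/-- One step of the induction over the places. -/
theorem coef_stepT291 (hτ : IsKType τ) {u u' : G K → ℂ} (hu : IsAutT 𝔫 τ R.r u)
    (hu' : IsAutT 𝔫 τ R.r u') (hsc : IsScInvT291 u) (hsc' : IsScInvT291 u')
    {w : InfinitePlace K} (hw : w.IsReal) {m : ℝ → ℂ}
    (hm : MeanEigRT τ u w m) (hm' : MeanEigRT τ u' w m) {x h' : G K} (hx : IsLocalAtInf w x)
    (hdet : 0 < (infComp w x).det.re)
    (hh' : TrivAtInf w h') (hIH : H770.B770 R.F u u h' = H770.B770 R.F u' u' h') :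
    H770.B770 R.F u u (x * h') = H770.B770 R.F u' u' (x * h') := by
  obtain ⟨d, a, c, hd, ha, hred⟩ := coef_cartanT291 (𝔫 := 𝔫) R hτ hw hx hdet
  rw [hred u hu hsc h' hh', hred u' hu' hsc' h' hh']
  congr 1
  rcases hd.eq_or_lt with h0 | hpos
  · have ha1 : a = 1 := by
      refine H878.local_unique878 ha.1 ⟨fun w' _ => ?_, fun v => ?_⟩ ?_
      · exact (H129.trivAtInf_iff129 w' 1).2 (map_one _)
      · exact (H129.trivAtFin_iff129 v 1).2 (map_one _)
      · rw [ha.2, ← h0, H879.torus_zero879, H878.infComp_one878]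
    rw [ha1, one_mul]
    exact hIH
  · have h1 := coef_torusT291 R hτ hu hm hpos ha hh'
    have h2 := coef_torusT291 R hτ hu' hm' hpos ha hh'
    rw [hIH, ← h2] at h1
    exact mul_left_cancel₀ two_pi_ne_zeroT291 h1

/-- **The matrix coefficients of two unit cusp functions of the class with the same eigenvalue
functions of the circle means agree on the elements which are trivial at the finite places and
have a positive determinant at the infinite places** (all of them real). -/
theorem coef_eqT291 (hre : ∀ w : InfinitePlace K, w.IsReal) (hτ : IsKType τ) {u u' : G K → ℂ}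
    (hu : IsAutT 𝔫 τ R.r u) (hu' : IsAutT 𝔫 τ R.r u') (hsc : IsScInvT291 u)
    (hsc' : IsScInvT291 u') (h1 : pair R.F u u = 1) (h1' : pair R.F u' u' = 1)
    {m : InfinitePlace K → ℝ → ℂ} (hm : ∀ w, MeanEigRT τ u w (m w))
    (hm' : ∀ w, MeanEigRT τ u' w (m w)) (S : Finset (InfinitePlace K)) :
    ∀ h : G K, (∀ v : HeightOneSpectrum (𝓞 K), TrivAtFin v h) →
      (∀ w : InfinitePlace K, w ∉ S → TrivAtInf w h) →
      (∀ w : InfinitePlace K, w ∈ S → 0 < (infComp w h).det.re) →
      H770.B770 R.F u u h = H770.B770 R.F u' u' h := by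
  classical
  induction S using Finset.induction_on with
  | empty =>
    intro h hF hI _
    have e : h = 1 := by
      refine H129.G_ext129 (fun w => ?_) (fun v => ?_)
      · rw [map_one]
        exact (H129.trivAtInf_iff129 w h).1 (hI w (Finset.notMem_empty w))
      · rw [map_one]
        exact (H129.trivAtFin_iff129 v h).1 (hF v)
    rw [e, coef_one130, coef_one130, h1, h1']
  | insert w S hw ih =>
    intro h hF hI hD
    set x : G K := H429.locInf429 w (H129.infCompHom129 w h) with hxdef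
    have hx : IsLocalAtInf w x := H429.isLocalAtInf_locInf429 w _
    have hx' := (H429.isLocalAtInf_iff429 w x).1 hx
    set h' : G K := x⁻¹ * h with hh'def
    have hh'w : TrivAtInf w h' := by
      rw [H129.trivAtInf_iff129, hh'def, map_mul, map_inv, hxdef, H429.infCompHom_locInf429,
        inv_mul_cancel]
    have hh'F : ∀ v : HeightOneSpectrum (𝓞 K), TrivAtFin v h' := fun v => by
      rw [H129.trivAtFin_iff129, hh'def, map_mul, map_inv, hx'.2 v, inv_one, one_mul]
      exact (H129.trivAtFin_iff129 v h).1 (hF v)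
    have hcomp : ∀ w' : InfinitePlace K, w' ≠ w →
        H129.infCompHom129 w' h' = H129.infCompHom129 w' h := fun w' e => by
      rw [hh'def, map_mul, map_inv, hx'.1 w' e, inv_one, one_mul]
    have hh'I : ∀ w' : InfinitePlace K, w' ∉ S → TrivAtInf w' h' := fun w' hw' => by
      by_cases e : w' = w
      · subst e
        exact hh'w
      · rw [H129.trivAtInf_iff129, hcomp w' e]
        refine (H129.trivAtInf_iff129 w' h).1 (hI w' ?_)
        rw [Finset.mem_insert, not_or]
        exact ⟨e, hw'⟩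
    have hh'D : ∀ w' : InfinitePlace K, w' ∈ S → 0 < (infComp w' h').det.re := fun w' hw' => by
      have e : w' ≠ w := fun e => hw (e ▸ hw')
      rw [H429.infComp_eq429, hcomp w' e, ← H429.infComp_eq429]
      exact hD w' (Finset.mem_insert_of_mem hw')
    have hxD : 0 < (infComp w x).det.re := by
      rw [H429.infComp_eq429, hxdef, H429.infCompHom_locInf429, ← H429.infComp_eq429]
      exact hD w (Finset.mem_insert_self w S)
    have hxe : h = x * h' := by
      rw [hh'def, mul_inv_cancel_left]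
    rw [hxe]
    exact coef_stepT291 R hτ hu hu' hsc hsc' (hre w) (hm w) (hm' w) hx hxD hh'w
      (ih h' hh'F hh'I hh'D)

/-- The pairing `⟨R(f) u, u⟩` is the integral of `f` against the matrix coefficient. -/
theorem pair_conv_eqT291 {u : G K → ℂ} (hu : IsAutT 𝔫 τ R.r u) {f : G K → ℂ}
    (hf : IsTestT 𝔫 τ f) :
    pair R.F (conv R.F f u) u = ∫ h, f h * H770.B770 R.F u u h ∂(R.F.μ) := by
  have hT1 := T1.t1Out K
  obtain ⟨-, hLC', hT2, hSC⟩ := hT1.locComp
  have := hLC'
  have := hT2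
  have := hSC
  have hBor : BorelSpace (G K) := ⟨rfl⟩
  have := R.F.haar
  obtain ⟨C, hC⟩ := hu.bdd
  have hfint : Integrable f R.F.μ := hf.cont.integrable_of_hasCompactSupport hf.cpt
  have key := fubini_pair130 R.F.μ R.F.D R.F.fin R.F.μ hu.cont hu.cont hC hC (y := fun h : G K => h)
    continuous_id hf.cont hfint
  exact key

theorem infComp_pInfT291 (w : InfinitePlace K) (g : G K) :
    infComp w (H437.pInf437 g) = infComp w g := by
  have e := congrArg Units.val (H437.cGL_pInf437 w g)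
  rw [H437.cGL_val437, H437.cGL_val437] at e
  ext i j
  have e2 := congrFun (congrFun e i) j
  exact congrArg (InfinitePlace.Completion.extensionEmbedding w) e2

/-- **The coefficient `⟨R(f) u, u⟩` depends on the eigenvalue functions of the circle means
only**, for a test function `f` which is supported in `GL₂⁺(K_∞) U(𝔫)`. -/
theorem convCoef_eqT291 (hre : ∀ w : InfinitePlace K, w.IsReal) (hτ : IsKType τ)
    {u u' : G K → ℂ} (hu : IsAutT 𝔫 τ R.r u) (hu' : IsAutT 𝔫 τ R.r u') (hsc : IsScInvT291 u)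
    (hsc' : IsScInvT291 u') (h1 : pair R.F u u = 1) (h1' : pair R.F u' u' = 1)
    {m : InfinitePlace K → ℝ → ℂ} (hm : ∀ w, MeanEigRT τ u w (m w))
    (hm' : ∀ w, MeanEigRT τ u' w (m w)) {f : G K → ℂ} (hf : IsTestT 𝔫 τ f)
    (hsupp : ∀ g : G K, f g ≠ 0 →
      H437.FinLevel437 𝔫 g ∧ ∀ w : InfinitePlace K, 0 < (infComp w g).det.re) :
    pair R.F (conv R.F f u) u = pair R.F (conv R.F f u') u' := by
  rw [pair_conv_eqT291 R hu hf, pair_conv_eqT291 R hu' hf]
  congr 1
  funext h
  by_cases h0 : f h = 0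
  · rw [h0, zero_mul, zero_mul]
  · congr 1
    obtain ⟨hfl, hdet⟩ := hsupp h h0
    have hlev : InLevelGroup 𝔫 ((H437.pInf437 h)⁻¹ * h) := H437.inLevelGroup_finPart437 hfl
    have hdec : h = H437.pInf437 h * ((H437.pInf437 h)⁻¹ * h) := by
      rw [mul_inv_cancel_left]
    have hF : ∀ v : HeightOneSpectrum (𝓞 K), TrivAtFin v (H437.pInf437 h) := fun v => by
      have := congrArg Units.val (H437.fGL_pInf437 v h)
      rwa [H437.fGL_val437, Units.val_one] at this
    have e := coef_eqT291 R hre hτ hu hu' hsc hsc' h1 h1' hm hm' Finset.univ (H437.pInf437 h) hF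
      (fun w hw => absurd (Finset.mem_univ w) hw)
      (fun w _ => by rw [infComp_pInfT291]; exact hdet w)
    rw [hdec, coef_right_level130 R.F u u hu.level_inv hlev,
      coef_right_level130 R.F u' u' hu'.level_inv hlev]
    exact e

end Coeff

/-! ## 3. The approximate identity of the class, with its support -/

section Approx

open Fermat.Agent.LT.T8.H864 Fermat.Agent.LT.H51.MS4 Fermat.Agent.LT.T2.H907
  Fermat.Agent.LT.T2.H354

variable {K : Type} [Field K] [NumberField K]

/-- The approximate identity of the class `(𝔫, τ, r)` (helper354), as a SEQUENCE which works for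
every cusp function of the class, with its support: in `GL₂(K_∞) U(𝔫)`, with a positive
determinant at the real places. -/
theorem approxSeqSuppT291 (K : Type) [Field K] [NumberField K] (𝔫 : Ideal (𝓞 K)) (h𝔫 : 𝔫 ≠ ⊥)
    {τ : G K → ℂ} (hτ : IsKType τ) (R : FrameR K) :
    ∃ f : ℕ → G K → ℂ, (∀ k, IsSphTestT 𝔫 τ (f k)) ∧
      (∀ k (g : G K), f k g ≠ 0 → H437.FinLevel437 𝔫 g ∧
        ∀ w : InfinitePlace K, w.IsReal → 0 < (infComp w g).det.re) ∧
      ∀ φ : G K → ℂ, IsCuspT 𝔫 τ R.r φ →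
        Tendsto (fun k => nsq R.F (fun g => conv R.F (f k) φ g - φ g)) atTop (𝓝 0) := by
  have hC : ConvCuspT K 𝔫 τ := convCuspT_closed K 𝔫 τ h𝔫 hτ
  obtain ⟨n, hn⟩ := ktype_class354 hτ
  have := borelSpace_G907 (K := K)
  have := R.F.haar
  set η : ℕ → ℝ := fun k => 1 / ((k : ℝ) + 1) with hη
  have hηpos : ∀ k, 0 < η k := fun k => by positivity
  have hη1 : ∀ k, η k ≤ 1 := fun k => by
    rw [hη, div_le_one (by positivity)]
    have : (0 : ℝ) ≤ k := Nat.cast_nonneg k
    linarith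
  set f : ℕ → G K → ℂ := fun k => testT354 n (apx907 R.F 𝔫 (η k)) with hf
  have hfT : ∀ k, IsSphTestT 𝔫 τ (f k) := fun k =>
    isSphTestT_testT354 h𝔫 hτ hn (hηpos k) (hη1 k) _
  refine ⟨f, hfT, fun k g hg => ?_, fun φ hφ => ?_⟩
  · have ha : apx907 R.F 𝔫 (η k) g ≠ 0 := by
      intro h0
      apply hg
      show testT354 n (apx907 R.F 𝔫 (η k)) g = 0
      unfold testT354
      rw [h0, mul_zero]
    have hb : bump907 𝔫 (η k) g ≠ 0 := by
      intro h0
      apply ha
      unfold apx907 testFn907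
      rw [h0, mul_zero, Complex.ofReal_zero]
    have hD := (pfin_of_bump907_ne_zero (hηpos k) hb).2
    exact ⟨finLevel_of_apx130 R.F (hηpos k) ha, fun w hw =>
      det_re_pos_of_defect354 (lt_of_lt_of_le hD (hη1 k)) hw⟩
  · obtain ⟨B, hB⟩ := hφ.aut.bdd
    have hB0 : 0 ≤ B := (norm_nonneg _).trans (hB 1)
    set ψ : ℕ → G K → ℂ := fun k g => conv R.F (f k) φ g - φ g with hψ
    have hψeq : ∀ k g, ψ k g
        = conv R.F (apx907 R.F 𝔫 (η k)) (psiX354 n φ g) 1 - psiX354 n φ g 1 := fun k g => by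
      rw [hψ, hf]
      simp only
      rw [conv_testT354, psiX354_one]
    have hψc : ∀ k, Continuous (ψ k) := fun k =>
      ((hC R).2.2.1 _ φ (hfT k).test hφ).aut.cont.sub hφ.aut.cont
    have hψb : ∀ k g, ‖ψ k g‖ ≤ 2 * B := fun k g => by
      rw [hψeq]
      refine norm_conv_sub_le907 R.F h𝔫 (hηpos k) (hη1 k)
        (continuous_psiX354 n hφ.aut.cont g) 1 fun h _ => ?_
      calc ‖psiX354 n φ g (1 * h) - psiX354 n φ g 1‖
          ≤ ‖psiX354 n φ g (1 * h)‖ + ‖psiX354 n φ g 1‖ := norm_sub_le _ _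
        _ ≤ B + B := add_le_add (norm_psiX354_le hB n g _) (norm_psiX354_le hB n g _)
        _ = 2 * B := by ring
    have hψlim : ∀ g, Tendsto (fun k => ψ k g) atTop (𝓝 0) := fun g => by
      rw [Metric.tendsto_atTop]
      intro ε' hε'
      obtain ⟨k₀, hk₀⟩ := exists_close907 h𝔫 (continuous_psiX354 n hφ.aut.cont g)
        (psiX354_level n hφ.aut g) (psiX354_arch hτ hn hφ.aut g) 1 (half_pos hε')
      refine ⟨k₀, fun k hk => ?_⟩
      rw [dist_zero_right]
      have hle : ‖ψ k g‖ ≤ ε' / 2 := by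
        rw [hψeq]
        refine norm_conv_sub_le907 R.F h𝔫 (hηpos k) (hη1 k)
          (continuous_psiX354 n hφ.aut.cont g) 1 fun h hb => ?_
        obtain ⟨hP, hD⟩ := pfin_of_bump907_ne_zero (hηpos k) hb
        refine (hk₀ h hP (hD.le.trans ?_)).le
        rw [hη]
        apply one_div_le_one_div_of_le (by positivity)
        have : (k₀ : ℝ) ≤ k := Nat.cast_le.mpr hk
        linarith
      linarith
    have hfin : IsFiniteMeasure (R.F.μ.restrict R.F.D) :=
      ⟨by rw [Measure.restrict_apply_univ]; exact R.F.fin⟩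
    have hlim : Tendsto (fun k => ∫ g in R.F.D, ψ k g * (starRingEnd ℂ) (ψ k g) ∂(R.F.μ)) atTop
        (𝓝 (∫ _ in R.F.D, (0 : ℂ) ∂(R.F.μ))) := by
      refine tendsto_integral_of_dominated_convergence (fun _ => (2 * B) ^ 2)
        (fun k => ?_) (integrable_const _) (fun k => Eventually.of_forall fun g => ?_)
        (Eventually.of_forall fun g => ?_)
      · exact ((hψc k).mul (Complex.continuous_conj.comp (hψc k))).aestronglyMeasurable
      · rw [norm_mul, RCLike.norm_conj, ← sq]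
        exact pow_le_pow_left₀ (norm_nonneg _) (hψb k g) 2
      · have := (hψlim g).mul ((Complex.continuous_conj.tendsto 0).comp (hψlim g))
        simpa using this
    rw [integral_zero] at hlim
    have h0 : Tendsto (fun k => (∫ g in R.F.D, ψ k g * (starRingEnd ℂ) (ψ k g) ∂(R.F.μ)).re)
        atTop (𝓝 ((0 : ℂ).re)) := (Complex.continuous_re.tendsto 0).comp hlim
    rw [Complex.zero_re] at h0
    exact h0

end Approx

/-! ## 4. Hilbert--Schmidt and Cauchy--Schwarz -/

section Count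

variable {K : Type} [Field K] [NumberField K] {𝔫 : Ideal (𝓞 K)} {τ : G K → ℂ} {R : FrameR K}

/-- The Cauchy--Schwarz inequality on the cusp functions of the class. -/
theorem cauchy_schwarzT291 (hP : PairDefiniteT K 𝔫 τ) {a b : G K → ℂ}
    (ha : IsCuspT 𝔫 τ R.r a) (hb : IsCuspT 𝔫 τ R.r b) :
    ‖pair R.F a b‖ ^ 2 ≤ nsq R.F a * nsq R.F b := by
  set d : H560.Cls560 K := H560.clsT560 𝔫 τ R hP with hd
  set x : H560.V560 d := H560.mk560 d b hb with hx
  set y : H560.V560 d := H560.mk560 d a ha with hy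
  have h1 : ‖inner ℂ x y‖ ≤ ‖x‖ * ‖y‖ := norm_inner_le_norm x y
  have h2 : inner ℂ x y = pair R.F a b := H560.inner560 x y
  have h3 : ‖x‖ ^ 2 = nsq R.F b := H560.norm_sq560 x
  have h4 : ‖y‖ ^ 2 = nsq R.F a := H560.norm_sq560 y
  rw [h2] at h1
  calc ‖pair R.F a b‖ ^ 2 ≤ (‖x‖ * ‖y‖) ^ 2 := pow_le_pow_left₀ (norm_nonneg _) h1 2
    _ = ‖y‖ ^ 2 * ‖x‖ ^ 2 := by ring
    _ = nsq R.F a * nsq R.F b := by rw [h3, h4]

/-- `⟨a - b, c⟩ = ⟨a, c⟩ - ⟨b, c⟩` on the cusp functions of the class. -/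
theorem pair_sub_leftT291 (hP : PairDefiniteT K 𝔫 τ) {a b c : G K → ℂ}
    (ha : IsCuspT 𝔫 τ R.r a) (hb : IsCuspT 𝔫 τ R.r b) (hc : IsCuspT 𝔫 τ R.r c) :
    pair R.F (fun g => a g - b g) c = pair R.F a c - pair R.F b c := by
  set d : H560.Cls560 K := H560.clsT560 𝔫 τ R hP with hd
  set x : H560.V560 d := H560.mk560 d c hc with hx
  set y₁ : H560.V560 d := H560.mk560 d a ha with hy₁
  set y₂ : H560.V560 d := H560.mk560 d b hb with hy₂
  have h := inner_sub_right (𝕜 := ℂ) x y₁ y₂
  rw [H560.inner560, H560.inner560, H560.inner560, H560.fn560_sub] at h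
  exact h

variable {ι : Type} {u : ι → G K → ℂ}

/-- For a test function `f`: only finitely many members of an orthonormal family of cusp
functions of the class have `|⟨R(f) u, u⟩| > 1/2`. -/
theorem finite_coefLargeT291 (hP : PairDefiniteT K 𝔫 τ) (hCC : ConvCuspT K 𝔫 τ)
    (hHS : HSBoundT K 𝔫 τ) (hcusp : ∀ j, IsCuspT 𝔫 τ R.r (u j))
    (hone : ∀ j, pair R.F (u j) (u j) = 1)
    (horth : ∀ i j, i ≠ j → pair R.F (u i) (u j) = 0)
    (f : G K → ℂ) (hf : IsTestT 𝔫 τ f) :
    {j : ι | 1 / 2 < ‖pair R.F (conv R.F f (u j)) (u j)‖}.Finite := by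
  obtain ⟨C, hC⟩ := hHS R f hf
  by_contra hinf
  have hinf' : {j : ι | 1 / 2 < ‖pair R.F (conv R.F f (u j)) (u j)‖}.Infinite := hinf
  obtain ⟨n, hn⟩ := exists_nat_gt (4 * C)
  obtain ⟨t, hts, htc⟩ := hinf'.exists_subset_card_eq n
  have e : Fin n ≃ t := (t.equivFin.trans (finCongr htc)).symm
  have hnsq1 : ∀ j, nsq R.F (u j) = 1 := fun j => by
    unfold nsq
    rw [hone j]
    rfl
  have hsum := hC n (fun i => u (e i)) (fun i => hcusp _) (fun i j => by
    by_cases hij : i = j
    · rw [hij, if_pos rfl]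
      exact hone _
    · rw [if_neg hij]
      refine horth _ _ fun h => hij ?_
      exact e.injective (Subtype.ext h))
  have hterm : ∀ i : Fin n, (1 : ℝ) / 4 ≤ nsq R.F (conv R.F f (u (e i))) := fun i => by
    have hcs := cauchy_schwarzT291 hP ((hCC R).2.2.1 f (u (e i)) hf (hcusp _)) (hcusp (e i))
    rw [hnsq1, mul_one] at hcs
    have h1 : 1 / 2 < ‖pair R.F (conv R.F f (u (e i))) (u (e i))‖ := hts (e i).2
    nlinarith [norm_nonneg (pair R.F (conv R.F f (u (e i))) (u (e i)))]
  have h2 : (n : ℝ) * (1 / 4) ≤ ∑ i : Fin n, nsq R.F (conv R.F f (u (e i))) := by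
    calc (n : ℝ) * (1 / 4) = ∑ _i : Fin n, (1 / 4 : ℝ) := by
          rw [Finset.sum_const, Finset.card_univ, Fintype.card_fin, nsmul_eq_mul]
      _ ≤ ∑ i : Fin n, nsq R.F (conv R.F f (u (e i))) := Finset.sum_le_sum fun i _ => hterm i
  linarith

/-- If `R(f_k) e → e` in `L²`, `‖e‖ = 1`, then `|⟨R(f_k) e, e⟩| > 1/2` for some `k`. -/
theorem large_of_approxT291 (hP : PairDefiniteT K 𝔫 τ) (hCC : ConvCuspT K 𝔫 τ)
    {f : ℕ → G K → ℂ} (hf : ∀ k, IsTestT 𝔫 τ (f k)) {e : G K → ℂ}
    (he : IsCuspT 𝔫 τ R.r e) (h1 : pair R.F e e = 1)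
    (hlim : Tendsto (fun k => nsq R.F (fun g => conv R.F (f k) e g - e g)) atTop (𝓝 0)) :
    ∃ k : ℕ, 1 / 2 < ‖pair R.F (conv R.F (f k) e) e‖ := by
  have hnsq1 : nsq R.F e = 1 := by
    unfold nsq
    rw [h1]
    rfl
  obtain ⟨k, hk⟩ := ((tendsto_order.1 hlim).2 (1 / 4) (by norm_num)).exists
  refine ⟨k, ?_⟩
  have hck : IsCuspT 𝔫 τ R.r (conv R.F (f k) e) := (hCC R).2.2.1 (f k) e (hf k) he
  have hsub : IsCuspT 𝔫 τ R.r (fun g => conv R.F (f k) e g - e g) := by
    have h := H560.isCuspT_add560 hck (H560.isCuspT_smul560 (-1 : ℂ) he)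
    have e2 : (fun g => conv R.F (f k) e g + (-1 : ℂ) * e g)
        = fun g => conv R.F (f k) e g - e g := by
      funext g
      ring
    rw [e2] at h
    exact h
  have hcs := cauchy_schwarzT291 hP hsub he
  rw [hnsq1, mul_one, pair_sub_leftT291 hP hck he he, h1] at hcs
  have h4 : ‖pair R.F (conv R.F (f k) e) e - 1‖ < 1 / 2 := by
    by_contra h5
    push Not at h5
    nlinarith [norm_nonneg (pair R.F (conv R.F (f k) e) e - 1)]
  have h6 : ‖(1 : ℂ)‖ ≤ ‖pair R.F (conv R.F (f k) e) e‖ + ‖pair R.F (conv R.F (f k) e) e - 1‖ := by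
    have := norm_sub_le (pair R.F (conv R.F (f k) e) e) (pair R.F (conv R.F (f k) e) e - 1)
    simpa using this
  rw [norm_one] at h6
  linarith

end Count

/-! ## 5. Admissibility -/

section Adm

variable {K : Type} [Field K] [NumberField K] {𝔫 : Ideal (𝓞 K)} {τ : G K → ℂ} {R : FrameR K}
  {ι : Type} {u : ι → G K → ℂ}

/-- **The index type of an orthonormal family of cusp functions of the class is countable.** -/
theorem countable_indexT291 (h𝔫 : 𝔫 ≠ ⊥) (hτ : IsKType τ)
    (hcusp : ∀ j, IsCuspT 𝔫 τ R.r (u j)) (hone : ∀ j, pair R.F (u j) (u j) = 1)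
    (horth : ∀ i j, i ≠ j → pair R.F (u i) (u j) = 0) : Countable ι := by
  have hE := estimatesT_closed K 𝔫 τ h𝔫 hτ
  have hP : PairDefiniteT K 𝔫 τ := hE.2.1
  have hCC : ConvCuspT K 𝔫 τ := hE.2.2.1
  have hHS : HSBoundT K 𝔫 τ := hE.2.2.2.2.2.1
  obtain ⟨f, hsph, -, hlim⟩ := approxSeqSuppT291 K 𝔫 h𝔫 hτ R
  have hcover : ∀ j : ι, ∃ k : ℕ, 1 / 2 < ‖pair R.F (conv R.F (f k) (u j)) (u j)‖ := fun j =>
    large_of_approxT291 hP hCC (fun k => (hsph k).test) (hcusp j) (hone j)
      (hlim (u j) (hcusp j))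
  have hfin : ∀ k : ℕ, {j : ι | 1 / 2 < ‖pair R.F (conv R.F (f k) (u j)) (u j)‖}.Finite :=
    fun k => finite_coefLargeT291 hP hCC hHS hcusp hone horth (f k) (hsph k).test
  have huniv : (Set.univ : Set ι)
      = ⋃ k : ℕ, {j : ι | 1 / 2 < ‖pair R.F (conv R.F (f k) (u j)) (u j)‖} := by
    ext j
    simp only [Set.mem_univ, Set.mem_iUnion, true_iff]
    exact hcover j
  have hcount : (Set.univ : Set ι).Countable := by
    rw [huniv]
    exact Set.countable_iUnion fun k => (hfin k).countable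
  exact Set.countable_univ_iff.1 hcount

/-- **ADMISSIBILITY AT THE REAL PLACES.**  For a totally real field, a level `𝔫 ≠ 0` and a
`K_∞`-type `τ`: the members of an orthonormal family of cusp functions of the class `(𝔫, τ, r)`,
invariant under the positive scalars at the infinite places, which have the same eigenvalue
functions of the `τ`-twisted circle means as a given member are finite in number. -/
theorem finite_meanClassT291 (hre : ∀ w : InfinitePlace K, w.IsReal) (h𝔫 : 𝔫 ≠ ⊥)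
    (hτ : IsKType τ) {m : ι → InfinitePlace K → ℝ → ℂ}
    (hcusp : ∀ j, IsCuspT 𝔫 τ R.r (u j)) (hsc : ∀ j, IsScInvT291 (u j))
    (hone : ∀ j, pair R.F (u j) (u j) = 1)
    (horth : ∀ i j, i ≠ j → pair R.F (u i) (u j) = 0)
    (hmean : ∀ j w, MeanEigRT τ (u j) w (m j w)) (j₀ : ι) :
    {j : ι | ∀ (w : InfinitePlace K) (d : ℝ), 0 < d → m j w d = m j₀ w d}.Finite := by
  have hE := estimatesT_closed K 𝔫 τ h𝔫 hτ
  have hP : PairDefiniteT K 𝔫 τ := hE.2.1
  have hCC : ConvCuspT K 𝔫 τ := hE.2.2.1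
  have hHS : HSBoundT K 𝔫 τ := hE.2.2.2.2.2.1
  obtain ⟨f, hsph, hsupp, hlim⟩ := approxSeqSuppT291 K 𝔫 h𝔫 hτ R
  obtain ⟨k, hk⟩ := large_of_approxT291 hP hCC (fun k => (hsph k).test) (hcusp j₀) (hone j₀)
    (hlim (u j₀) (hcusp j₀))
  refine (finite_coefLargeT291 hP hCC hHS hcusp hone horth (f k) (hsph k).test).subset ?_
  intro j hj
  have hm' : ∀ w, MeanEigRT τ (u j) w (m j₀ w) := fun w t ht κ a hκ ha g => by
    rw [← hj w t ht]
    exact hmean j w t ht κ a hκ ha g
  have e : pair R.F (conv R.F (f k) (u j)) (u j) = pair R.F (conv R.F (f k) (u j₀)) (u j₀) :=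
    convCoef_eqT291 R hre hτ (hcusp j).aut (hcusp j₀).aut (hsc j) (hsc j₀) (hone j) (hone j₀)
      hm' (hmean j₀) (hsph k).test
      (fun g hg => ⟨(hsupp k g hg).1, fun w => (hsupp k g hg).2 w (hre w)⟩)
  show 1 / 2 < ‖pair R.F (conv R.F (f k) (u j)) (u j)‖
  rw [e]
  exact hk

end Adm

end Fermat.Agent.LT.T2.H291

end
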