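import Mathlib
import Fermat.Agent.LT.H556.A0
import Fermat.Agent.LT.T1.Spec
import Fermat.Agent.LT.T2.Spec
import Fermat.Agent.LT.T2.SpecTau
import Fermat.Agent.LT.T1.H919.SiegelTools
import Fermat.Agent.LT.T1.H558.FundDom
import Fermat.Agent.LT.T2.H429.Loc
import Fermat.Agent.LT.T2.H291.OpsSpecT

/-!
# Row LT, tower T2, sub-leaf T2.27.00 (helper291): THE KEY LEMMA, ray form

OFF-MAIN.  `translT291`: for ANY function `Φ` on `GL₂(𝔸_K)` which is left invariant under
`GL₂(K)` and right invariant under the ray generator `r` (`T2.IsRayGen r`), and for any frame `F`,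
`∫_D Φ(g h) dμ(g) = ∫_D Φ(g) dμ(g)` for every `h ∈ GL₂(𝔸_K)`.

Proof.  `r` is central and `‖det r‖ = 2`, so the domain `D` of a frame (a strict fundamental
domain of `GL₂(K)` in the slab `1 ≤ ‖det‖ < 2`) is a fundamental domain of the countable group
`GL₂(K) × ℤ` acting on `GL₂(𝔸_K)` by `(γ, m) • g = γ g r^m`, for the Haar measure itself; `D h` is
another one; `IsFundamentalDomain.setIntegral_eq`.

Hypotheses used: `T1.AdNormC K` and `T1.UnimodC K` only.  Assets (byte-identical copies):
helper919 `LT/T1/H919/SiegelTools.lean`, helper558 `LT/T1/H558/FundDom.lean`, helper129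
`LT/H129/{Comp,Local}.lean`, helper429 `LT/T2/H429/Loc.lean`.  The elementary facts on the
determinant module are those of helper429 `LT/T2/H429/Transl.lean` (same proofs, names `…T291`).

`subTranslT291 : SubTranslT291 K` closes the registry row T2.27.00.
-/

set_option autoImplicit false
set_option linter.style.haveILetI false
set_option linter.unusedSectionVars false

open IsDedekindDomain NumberField MeasureTheory
open Fermat.Agent.LT.H556.A0
open Fermat.Agent.LT.H129
open Fermat.Agent.LT.T2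
open Fermat.Agent.LT.T2.H429

noncomputable section

namespace Fermat.Agent.LT.T2.H291

variable {K : Type} [Field K] [NumberField K]

attribute [local instance] Fermat.Agent.LT.T2.borelG

/-! ## 1. Countability, the determinant module -/

theorem countable_fieldT291 (K : Type) [Field K] [NumberField K] : Countable K := by
  have e : K ≃ₗ[ℚ] (Fin (Module.finrank ℚ K) → ℚ) := (Module.finBasis ℚ K).equivFun
  exact e.toEquiv.injective.countable

theorem countable_glT291 (K : Type) [Field K] [NumberField K] : Countable (GL (Fin 2) K) := by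
  haveI := countable_fieldT291 K
  have hinj : Function.Injective
      (fun γ : GL (Fin 2) K => (γ : Matrix (Fin 2) (Fin 2) K)) := fun a b h => Units.ext h
  haveI : Countable (Matrix (Fin 2) (Fin 2) K) := by
    unfold Matrix
    infer_instance
  exact hinj.countable

theorem borelSpace_GT291 (K : Type) [Field K] [NumberField K] : BorelSpace (G K) := ⟨rfl⟩

/-- The determinant module `g ↦ ‖det g‖_𝔸`. -/
def dnT291 (g : G K) : ℝ := T1.adNorm K (Matrix.det (g : Matrix (Fin 2) (Fin 2) (Adl K)))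

theorem mem_slab_iffT291 (g : G K) : g ∈ T1.slab K ↔ 1 ≤ dnT291 g ∧ dnT291 g < 2 := Iff.rfl

theorem dn_mulT291 (hN : T1.AdNormC K) (g h : G K) :
    dnT291 (g * h) = dnT291 g * dnT291 h := by
  obtain ⟨-, hmul, -, -⟩ := hN
  have h1 : Matrix.det ((g * h : G K) : Matrix (Fin 2) (Fin 2) (Adl K))
      = ((Matrix.GeneralLinearGroup.det g * Matrix.GeneralLinearGroup.det h :
          (Adl K)ˣ) : Adl K) := by
    rw [Units.val_mul, Matrix.det_mul, Units.val_mul]
    rfl
  unfold dnT291
  rw [h1, hmul]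
  rfl

theorem dn_posT291 (hN : T1.AdNormC K) (g : G K) : 0 < dnT291 g :=
  hN.1 (Matrix.GeneralLinearGroup.det g)

theorem dn_oneT291 (hN : T1.AdNormC K) : dnT291 (1 : G K) = 1 := by
  have h := dn_mulT291 hN (1 : G K) 1
  rw [mul_one] at h
  have hp := dn_posT291 hN (1 : G K)
  nlinarith

theorem dn_invT291 (hN : T1.AdNormC K) (g : G K) : dnT291 g⁻¹ = (dnT291 g)⁻¹ := by
  have h := dn_mulT291 hN g g⁻¹
  rw [mul_inv_cancel, dn_oneT291 hN] at h
  have hp := dn_posT291 hN g
  field_simp
  linarith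

theorem dn_ratGT291 (hN : T1.AdNormC K) (γ : GL (Fin 2) K) (g : G K) :
    dnT291 (T1.ratG K γ * g) = dnT291 g :=
  T1.H558.adNorm_det_ratG_mul558 K hN γ g

/-- The determinant module as a homomorphism to the positive reals (as units). -/
theorem dn_zpowT291 (hN : T1.AdNormC K) (g : G K) (n : ℤ) :
    dnT291 (g ^ n) = dnT291 g ^ n := by
  induction n using Int.induction_on with
  | zero => simp [dn_oneT291 hN]
  | succ n ih =>
    rw [zpow_add_one, dn_mulT291 hN, ih, zpow_add_one₀ (dn_posT291 hN g).ne']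
  | pred n ih =>
    rw [zpow_sub_one, dn_mulT291 hN, ih, dn_invT291 hN, zpow_sub_one₀ (dn_posT291 hN g).ne']

/-! ## 2. The ray generator: central, of determinant module `2` -/

/-- The scalar matrix of the real number `s` at every infinite place, `1` at the finite
places. -/
def zposT291 (K : Type) [Field K] [NumberField K] (s : ℝˣ) : G K :=
  T1.H919.scalarG919 (Units.map (T1.H919.rayAdl919 K) s)

theorem zposT291_val (s : ℝˣ) :
    ((zposT291 K s : G K) : Matrix (Fin 2) (Fin 2) (Adl K))
      = Matrix.diagonal (fun _ => T1.H919.rayAdl919 K (s : ℝ)) :=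
  T1.H919.scalarG919_val _

theorem finComp_zposT291 (s : ℝˣ) (v : HeightOneSpectrum (𝓞 K)) :
    finComp v (zposT291 K s) = 1 := by
  refine Matrix.ext fun i j => ?_
  show (((zposT291 K s : G K) : Matrix (Fin 2) (Fin 2) (Adl K)) i j).2 v
    = (1 : Matrix (Fin 2) (Fin 2) (v.adicCompletion K)) i j
  rw [zposT291_val]
  by_cases hij : i = j
  · subst hij
    rw [Matrix.diagonal_apply_eq, Matrix.one_apply_eq]
    rfl
  · rw [Matrix.diagonal_apply_ne _ hij, Matrix.one_apply_ne hij]
    rfl

theorem infComp_zposT291 (s : ℝˣ) (w : InfinitePlace K) :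
    infComp w (zposT291 K s) = Matrix.diagonal (fun _ => (((s : ℝ) : ℝ) : ℂ)) := by
  refine Matrix.ext fun i j => ?_
  show InfinitePlace.Completion.extensionEmbedding w
    ((((zposT291 K s : G K) : Matrix (Fin 2) (Fin 2) (Adl K)) i j).1 w)
    = (Matrix.diagonal (fun _ => (((s : ℝ) : ℝ) : ℂ)) : Matrix (Fin 2) (Fin 2) ℂ) i j
  rw [zposT291_val]
  by_cases hij : i = j
  · subst hij
    rw [Matrix.diagonal_apply_eq, Matrix.diagonal_apply_eq, T1.H919.rayAdl919_inf,
      T1.H919.extensionEmbedding_realTo919]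
  · rw [Matrix.diagonal_apply_ne _ hij, Matrix.diagonal_apply_ne _ hij]
    exact map_zero _

theorem dn_zposT291 (s : ℝˣ) :
    dnT291 (zposT291 K s) = |(s : ℝ) * s| ^ Module.finrank ℚ K := by
  unfold dnT291
  rw [zposT291_val, Matrix.det_diagonal, Fin.prod_univ_two, ← map_mul,
    T1.H919.adNorm_rayAdl919]

/-- An element which is trivial at the finite places and the scalar `s` at every infinite place
is `zposT291 K s`. -/
theorem eq_zposT291 {z : G K} (hfin : ∀ v : HeightOneSpectrum (𝓞 K), TrivAtFin v z)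
    (s : ℝˣ) (hs : ∀ w : InfinitePlace K, infComp w z = Matrix.diagonal (fun _ => ((s : ℝ) : ℂ))) :
    z = zposT291 K s := by
  apply G_ext129
  · intro w
    apply gl_ext_of_map429
    rw [← infComp_eq429, ← infComp_eq429, hs w, infComp_zposT291]
  · intro v
    rw [(trivAtFin_iff129 v z).1 (hfin v)]
    exact ((trivAtFin_iff129 v _).1 (finComp_zposT291 s v)).symm

/-- The ray generator is central. -/
theorem rayGen_centralT291 {r : G K} (hr : IsRayGen r) (g : G K) : g * r = r * g := by
  obtain ⟨hfin, t, -, -, ht⟩ := hr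
  refine central_of_scalar_comp429 (fun w => ⟨((infCompHom129 w r : GL (Fin 2) w.Completion) :
    Matrix (Fin 2) (Fin 2) w.Completion) 0 0, ?_⟩) (fun v => ⟨1, ?_⟩) g
  · exact scalar_of_map_scalar429 _ (t : ℂ) (ht w)
  · rw [(trivAtFin_iff129 v r).1 (hfin v)]
    exact one_eq_diagonal429

/-- The ray generator has determinant module `2`. -/
theorem dn_rayGenT291 {r : G K} (hr : IsRayGen r) : dnT291 r = 2 := by
  obtain ⟨hfin, t, ht0, ht2, ht⟩ := hr
  have e : r = zposT291 K (Units.mk0 t ht0.ne') := eq_zposT291 hfin (Units.mk0 t ht0.ne') ht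
  rw [e, dn_zposT291]
  show |t * t| ^ Module.finrank ℚ K = 2
  rw [abs_of_pos (mul_pos ht0 ht0), ← ht2, ← pow_two, ← pow_mul]

/-! ## 3. The action of `GL₂(K) × ℤ` -/

/-- The action `(γ, m) • g = γ g r^m` of `GL₂(K) × ℤ` on `GL₂(𝔸_K)`. -/
@[reducible] def rayActT291 (r : G K) : MulAction (GL (Fin 2) K × Multiplicative ℤ) (G K) where
  smul p g := T1.ratG K p.1 * g * r ^ (Multiplicative.toAdd p.2)
  one_smul g := by
    show T1.ratG K 1 * g * r ^ (0 : ℤ) = g
    rw [map_one, one_mul, zpow_zero, mul_one]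
  mul_smul p q g := by
    show T1.ratG K (p.1 * q.1) * g * r ^ (Multiplicative.toAdd p.2 + Multiplicative.toAdd q.2)
      = T1.ratG K p.1 * (T1.ratG K q.1 * g * r ^ (Multiplicative.toAdd q.2))
        * r ^ (Multiplicative.toAdd p.2)
    rw [map_mul, add_comm, zpow_add]
    simp only [mul_assoc]

theorem smul_defT291 (r : G K) (p : GL (Fin 2) K × Multiplicative ℤ) (g : G K) :
    letI := rayActT291 r
    p • g = T1.ratG K p.1 * g * r ^ (Multiplicative.toAdd p.2) := rfl

theorem countable_prodT291 (K : Type) [Field K] [NumberField K] :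
    Countable (GL (Fin 2) K × Multiplicative ℤ) := by
  haveI := countable_glT291 K
  infer_instance

theorem measurableConstSMulT291 (r : G K) :
    letI := rayActT291 r
    MeasurableConstSMul (GL (Fin 2) K × Multiplicative ℤ) (G K) := by
  letI := rayActT291 r
  haveI := borelSpace_GT291 K
  refine ⟨fun c => ?_⟩
  have hc : Continuous fun g : G K => T1.ratG K c.1 * g * r ^ (Multiplicative.toAdd c.2) :=
    (continuous_const.mul continuous_id).mul continuous_const
  exact hc.measurable

theorem smulInvariantT291 (r : G K) (μ : Measure (G K)) [μ.IsMulLeftInvariant]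
    [μ.IsMulRightInvariant] :
    letI := rayActT291 r
    SMulInvariantMeasure (GL (Fin 2) K × Multiplicative ℤ) (G K) μ := by
  letI := rayActT291 r
  haveI := borelSpace_GT291 K
  refine ⟨fun c s _ => ?_⟩
  have hset : (fun g : G K => c • g) ⁻¹' s
      = (fun g : G K => T1.ratG K c.1 * g) ⁻¹'
        ((fun g : G K => g * r ^ (Multiplicative.toAdd c.2)) ⁻¹' s) := by
    ext g
    rfl
  rw [hset, measure_preimage_mul, measure_preimage_mul_right]

/-- `Φ` is invariant under the action. -/
theorem inv_smulT291 {r : G K} {Φ : G K → ℂ}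
    (hΓ : ∀ (γ : GL (Fin 2) K) (g : G K), Φ (T1.ratG K γ * g) = Φ g)
    (hr : ∀ g : G K, Φ (g * r) = Φ g) (p : GL (Fin 2) K × Multiplicative ℤ) (g : G K) :
    letI := rayActT291 r
    Φ (p • g) = Φ g := by
  letI := rayActT291 r
  have hz : ∀ (n : ℤ) (g : G K), Φ (g * r ^ n) = Φ g := by
    intro n
    induction n using Int.induction_on with
    | zero => intro g; rw [zpow_zero, mul_one]
    | succ n ih => intro g; rw [zpow_add_one, ← mul_assoc, hr, ih]
    | pred n ih =>
      intro g
      rw [zpow_sub_one, ← mul_assoc]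
      have := hr (g * r ^ (-(n : ℤ)) * r⁻¹)
      rw [inv_mul_cancel_right] at this
      rw [← this, ih]
  show Φ (T1.ratG K p.1 * g * r ^ (Multiplicative.toAdd p.2)) = Φ g
  rw [hz, hΓ]

/-! ## 4. The domain of a frame is a fundamental domain -/

section Fund

variable (hN : T1.AdNormC K) (μ : Measure (G K))

/-- For a positive real `a` there is an integer `n` with `1 ≤ a 2^n < 2`. -/
theorem exists_zpow_slabT291 {a : ℝ} (ha : 0 < a) : ∃ n : ℤ, 1 ≤ a * 2 ^ n ∧ a * 2 ^ n < 2 := by
  obtain ⟨m, hm1, hm2⟩ := exists_mem_Ico_zpow ha (one_lt_two : (1 : ℝ) < 2)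
  refine ⟨-m, ?_, ?_⟩
  · rw [zpow_neg, ← div_eq_mul_inv, le_div_iff₀ (zpow_pos two_pos m), one_mul]
    exact hm1
  · rw [zpow_neg, ← div_eq_mul_inv, div_lt_iff₀ (zpow_pos two_pos m)]
    rw [zpow_add_one₀ (two_ne_zero)] at hm2
    linarith

/-- If `x` and `x 2^n` both lie in `[1, 2)`, then `n = 0`. -/
theorem zpow_slab_uniqueT291 {x : ℝ} {n : ℤ} (h1 : 1 ≤ x) (h2 : x < 2)
    (h3 : 1 ≤ x * 2 ^ n) (h4 : x * 2 ^ n < 2) : n = 0 := by
  by_contra hne
  rcases lt_or_gt_of_ne hne with hlt | hgt
  · -- n ≤ -1 : 2^n ≤ 1/2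
    have hle : (2 : ℝ) ^ n ≤ 2 ^ (-1 : ℤ) :=
      zpow_le_zpow_right₀ (by norm_num) (by omega)
    have h5 : (2 : ℝ) ^ (-1 : ℤ) = 1 / 2 := by norm_num
    rw [h5] at hle
    have : x * 2 ^ n ≤ x * (1 / 2) := mul_le_mul_of_nonneg_left hle (by linarith)
    linarith
  · have hge : (2 : ℝ) ^ (1 : ℤ) ≤ 2 ^ n :=
      zpow_le_zpow_right₀ (by norm_num) (by omega)
    have h5 : (2 : ℝ) ^ (1 : ℤ) = 2 := by norm_num
    rw [h5] at hge
    have : x * 2 ≤ x * 2 ^ n := mul_le_mul_of_nonneg_left hge (by linarith)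
    linarith

include hN in
theorem isFundamentalDomainT291 {r : G K} (hr : IsRayGen r) {D : Set (G K)}
    (hm : MeasurableSet D) (hsub : D ⊆ T1.slab K)
    (hstrict : ∀ g ∈ T1.slab K, ∃! γ : GL (Fin 2) K, T1.ratG K γ * g ∈ D) :
    letI := rayActT291 r
    IsFundamentalDomain (GL (Fin 2) K × Multiplicative ℤ) D μ := by
  letI := rayActT291 r
  have hdr : dnT291 r = 2 := dn_rayGenT291 hr
  have hdn : ∀ (p : GL (Fin 2) K × Multiplicative ℤ) (g : G K),
      dnT291 (p • g) = dnT291 g * 2 ^ (Multiplicative.toAdd p.2) := by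
    intro p g
    show dnT291 (T1.ratG K p.1 * g * r ^ (Multiplicative.toAdd p.2)) = _
    rw [dn_mulT291 hN, dn_ratGT291 hN, dn_zpowT291 hN, hdr]
  refine ⟨hm.nullMeasurableSet, ?_, ?_⟩
  · refine Filter.Eventually.of_forall fun g => ?_
    obtain ⟨n, hn1, hn2⟩ := exists_zpow_slabT291 (dn_posT291 hN g)
    have hg : g * r ^ n ∈ T1.slab K := by
      rw [mem_slab_iffT291, dn_mulT291 hN, dn_zpowT291 hN, hdr]
      exact ⟨hn1, hn2⟩
    obtain ⟨γ, hγ, -⟩ := hstrict _ hg
    refine ⟨(γ, Multiplicative.ofAdd n), ?_⟩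
    show T1.ratG K γ * g * r ^ n ∈ D
    rw [mul_assoc]
    exact hγ
  · intro p q hne
    apply Disjoint.aedisjoint
    rw [Set.disjoint_left]
    rintro x ⟨d, hd, rfl⟩ ⟨d', hd', hx⟩
    apply hne
    have hx' : q • d' = p • d := hx
    -- the exponents agree
    have h1 := (mem_slab_iffT291 d).1 (hsub hd)
    have h1' := (mem_slab_iffT291 d').1 (hsub hd')
    have e1 : dnT291 d' * 2 ^ (Multiplicative.toAdd q.2)
        = dnT291 d * 2 ^ (Multiplicative.toAdd p.2) := by
      rw [← hdn, ← hdn, hx']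
    have e2 : dnT291 d' = dnT291 d * 2 ^ (Multiplicative.toAdd p.2 - Multiplicative.toAdd q.2) := by
      rw [zpow_sub₀ (two_ne_zero), ← mul_div_assoc, ← e1,
        mul_div_assoc, div_self (zpow_ne_zero _ two_ne_zero), mul_one]
    have e3 : Multiplicative.toAdd p.2 - Multiplicative.toAdd q.2 = 0 :=
      zpow_slab_uniqueT291 h1.1 h1.2 (e2 ▸ h1'.1) (e2 ▸ h1'.2)
    have e4 : Multiplicative.toAdd p.2 = Multiplicative.toAdd q.2 := by omega
    -- the rational parts agree
    have hx'' : T1.ratG K q.1 * d' * r ^ (Multiplicative.toAdd q.2)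
        = T1.ratG K p.1 * d * r ^ (Multiplicative.toAdd p.2) := hx'
    rw [e4] at hx''
    have hx3 : T1.ratG K q.1 * d' = T1.ratG K p.1 * d := mul_right_cancel hx''
    obtain ⟨δ, -, huniq⟩ := hstrict d (hsub hd)
    have u1 : (1 : GL (Fin 2) K) = δ := huniq 1 (by simpa using hd)
    have u2 : q.1⁻¹ * p.1 = δ := by
      apply huniq
      show T1.ratG K (q.1⁻¹ * p.1) * d ∈ D
      rw [map_mul, mul_assoc, ← hx3, ← mul_assoc, ← map_mul, inv_mul_cancel, map_one, one_mul]
      exact hd'
    have u3 : q.1⁻¹ * p.1 = 1 := u2.trans u1.symm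
    have u4 : p.1 = q.1 := by
      have := congrArg (fun t => q.1 * t) u3
      simpa using this
    exact Prod.ext u4 (Multiplicative.toAdd.injective e4)

end Fund

/-! ## 5. THE KEY LEMMA -/

/-- **KEY LEMMA, ray form**: the integral over the domain of a frame of a function which is left
invariant under `GL₂(K)` and right invariant under the ray generator is invariant under all right
translations. -/
theorem translT291 (hN : T1.AdNormC K) (hU : T1.UnimodC K) (R : FrameR K) (Φ : G K → ℂ)
    (hΓ : ∀ (γ : GL (Fin 2) K) (g : G K), Φ (T1.ratG K γ * g) = Φ g)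
    (hr : ∀ g : G K, Φ (g * R.r) = Φ g) (h : G K) :
    ∫ g in R.F.D, Φ (g * h) ∂(R.F.μ) = ∫ g in R.F.D, Φ g ∂(R.F.μ) := by
  haveI := R.F.haar
  haveI : R.F.μ.IsMulRightInvariant := hU R.F.μ R.F.haar
  letI := rayActT291 R.r
  haveI := borelSpace_GT291 K
  haveI := countable_prodT291 K
  haveI := measurableConstSMulT291 R.r
  haveI := smulInvariantT291 R.r R.F.μ
  have hF : IsFundamentalDomain (GL (Fin 2) K × Multiplicative ℤ) R.F.D R.F.μ :=
    isFundamentalDomainT291 hN R.F.μ R.ray R.F.meas R.F.sub R.F.strict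
  -- the translated domain
  set D' : Set (G K) := (fun g : G K => g * h⁻¹) ⁻¹' R.F.D with hD'
  have hpre : (fun g : G K => g * h) ⁻¹' D' = R.F.D := by
    ext g
    simp [hD', mul_assoc]
  have hcen : ∀ (n : ℤ) (g : G K), g * R.r ^ n = R.r ^ n * g := fun n g =>
    ((Commute.zpow_right (show Commute g R.r from rayGen_centralT291 R.ray g) n).eq)
  have hF' : IsFundamentalDomain (GL (Fin 2) K × Multiplicative ℤ) D' R.F.μ := by
    refine hF.preimage_of_equiv (f := fun g : G K => g * h⁻¹) (e := id)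
      (measurePreserving_mul_right R.F.μ h⁻¹).quasiMeasurePreserving
      Function.bijective_id ?_
    intro p g
    show T1.ratG K p.1 * g * R.r ^ (Multiplicative.toAdd p.2) * h⁻¹
      = T1.ratG K p.1 * (g * h⁻¹) * R.r ^ (Multiplicative.toAdd p.2)
    calc T1.ratG K p.1 * g * R.r ^ (Multiplicative.toAdd p.2) * h⁻¹
        = T1.ratG K p.1 * g * (R.r ^ (Multiplicative.toAdd p.2) * h⁻¹) := by rw [mul_assoc]
      _ = T1.ratG K p.1 * g * (h⁻¹ * R.r ^ (Multiplicative.toAdd p.2)) := by
          rw [← hcen (Multiplicative.toAdd p.2) h⁻¹]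
      _ = T1.ratG K p.1 * (g * h⁻¹) * R.r ^ (Multiplicative.toAdd p.2) := by
          simp only [mul_assoc]
  -- change of variables
  have h1 : ∫ g in R.F.D, Φ (g * h) ∂(R.F.μ) = ∫ g in D', Φ g ∂(R.F.μ) := by
    have := (measurePreserving_mul_right R.F.μ h).setIntegral_preimage_emb
      (measurableEmbedding_mulRight h) Φ D'
    rw [hpre] at this
    exact this
  have h2 := hF'.setIntegral_eq hF (f := Φ) (fun p g => inv_smulT291 hΓ hr p g)
  rw [h1, h2]

/-- **T2.27.00 CLOSED.** -/
theorem subTranslT291 (K : Type) [Field K] [NumberField K] : SubTranslT291 K :=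
  fun hT1 R Φ hΓ hr h => translT291 hT1.adNorm hT1.unimod R Φ hΓ hr h

end Fermat.Agent.LT.T2.H291

end
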