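import Mathlib
import Fermat.Agent.LT.H556.A0
import Fermat.Agent.LT.T1.Spec
import Fermat.Agent.LT.T2.Spec
import Fermat.Agent.LT.T2.SpecTau
import Fermat.Agent.LT.T2.H429.Loc
import Fermat.Agent.LT.T2.H291.OpsSpecT
import Fermat.Agent.LT.T2.H291.TranslT

/-!
# Row LT, tower T2, sub-leaves T2.27.01, T2.27.05, T2.27.06 (helper291)

OFF-MAIN.  The class of T5 (`IsCuspT 𝔫 τ r`) and the pairing under right translations.

* `subCentralT291` (T2.27.01): scalar uniformisers and positive scalars at one infinite place are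
  central;
* `IsAutRT291 r φ`: left invariant under `GL₂(K)`, right invariant under `r`;
  `pair_shift_shiftT291`, `pair_shift_leftT291`, `nsq_shiftT291`: right translations are unitary
  for the pairing of a frame with ray generator (consequences of the KEY LEMMA `translT291`);
* `subShiftPresT291` (T2.27.05), `subShiftIsoT291` (T2.27.06).

The proofs are those of helper429 `LT/T2/H429/Aut.lean` with the ray invariance in the place of
the `Z⁺`-invariance.
-/

set_option autoImplicit false
set_option linter.style.haveILetI false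
set_option linter.unusedSectionVars false

open IsDedekindDomain NumberField MeasureTheory
open Fermat.Agent.LT.H556.A0
open Fermat.Agent.LT.H129
open Fermat.Agent.LT.T2
open Fermat.Agent.LT.T2.H429

noncomputable section

namespace Fermat.Agent.LT.T2.H291

variable {K : Type} [Field K] [NumberField K]

attribute [local instance] Fermat.Agent.LT.T2.borelG

/-! ## 1. Central elements -/

/-- A scalar uniformiser is central. -/
theorem scalarUnif_centralT291 {v : HeightOneSpectrum (𝓞 K)} {z : G K}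
    (hz : IsScalarUniformizerAt v z) (g : G K) : g * z = z * g := by
  obtain ⟨hloc, c, -, hc⟩ := hz
  rw [isLocalAtFin_iff129] at hloc
  refine central_of_scalar_comp429 (fun w => ⟨1, ?_⟩) (fun v' => ?_) g
  · rw [hloc.1 w]
    exact one_eq_diagonal429
  · by_cases h : v' = v
    · subst h
      exact ⟨c, hc⟩
    · refine ⟨1, ?_⟩
      rw [hloc.2 v' h]
      exact one_eq_diagonal429

/-- A positive scalar at one infinite place is central. -/
theorem archPos_centralT291 {w : InfinitePlace K} {z : G K}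
    (hz : IsArchPosScalar w z) (g : G K) : g * z = z * g := by
  obtain ⟨hloc, r, -, hr⟩ := hz
  rw [isLocalAtInf_iff429] at hloc
  refine central_of_scalar_comp429 (fun w' => ?_) (fun v => ⟨1, ?_⟩) g
  · by_cases h : w' = w
    · subst h
      exact ⟨((infCompHom129 w' z : GL (Fin 2) w'.Completion) :
        Matrix (Fin 2) (Fin 2) w'.Completion) 0 0, scalar_of_map_scalar429 _ (r : ℂ) hr⟩
    · refine ⟨1, ?_⟩
      rw [hloc.1 w' h]
      exact one_eq_diagonal429
  · rw [hloc.2 v]
    exact one_eq_diagonal429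

/-- **T2.27.01 CLOSED.** -/
theorem subCentralT291 (K : Type) [Field K] [NumberField K] : SubCentralT291 K :=
  ⟨fun _ _ hz g => scalarUnif_centralT291 hz g, fun _ _ hz g => archPos_centralT291 hz g⟩

/-! ## 2. The invariance class -/

/-- Left invariant under `GL₂(K)` and right invariant under `r`. -/
structure IsAutRT291 (r : G K) (φ : G K → ℂ) : Prop where
  left_inv : ∀ (γ : GL (Fin 2) K) (g : G K), φ (T1.ratG K γ * g) = φ g
  ray_inv : ∀ g : G K, φ (g * r) = φ g

theorem isAutT_isAutRT291 {𝔫 : Ideal (𝓞 K)} {τ : G K → ℂ} {r : G K} {φ : G K → ℂ}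
    (hφ : IsAutT 𝔫 τ r φ) : IsAutRT291 r φ :=
  ⟨fun γ g => hφ.left_inv γ g, fun g => hφ.ray g⟩

theorem cusp_isAutRT291 {𝔫 : Ideal (𝓞 K)} {τ : G K → ℂ} {r : G K} {φ : G K → ℂ}
    (hφ : IsCuspT 𝔫 τ r φ) : IsAutRT291 r φ :=
  isAutT_isAutRT291 hφ.aut

theorem IsAutRT291.shift {r : G K} (hr : ∀ g : G K, g * r = r * g) {φ : G K → ℂ}
    (hφ : IsAutRT291 r φ) (h : G K) : IsAutRT291 r (shift h φ) := by
  refine ⟨fun γ g => ?_, fun g => ?_⟩
  · show φ (T1.ratG K γ * g * h) = φ (g * h)
    rw [mul_assoc, hφ.left_inv]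
  · show φ (g * r * h) = φ (g * h)
    rw [mul_assoc, ← hr h, ← mul_assoc, hφ.ray_inv]

theorem IsAutRT291.mul_conj {r : G K} {φ ψ : G K → ℂ} (hφ : IsAutRT291 r φ)
    (hψ : IsAutRT291 r ψ) : IsAutRT291 r (fun g => φ g * (starRingEnd ℂ) (ψ g)) := by
  refine ⟨fun γ g => ?_, fun g => ?_⟩
  · show φ _ * (starRingEnd ℂ) (ψ _) = _
    rw [hφ.left_inv, hψ.left_inv]
  · show φ _ * (starRingEnd ℂ) (ψ _) = _
    rw [hφ.ray_inv, hψ.ray_inv]

/-! ## 3. The pairing under translations -/

section Pair

variable (hN : T1.AdNormC K) (hU : T1.UnimodC K) (R : FrameR K)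

include hN hU in
/-- Right translations are unitary. -/
theorem pair_shift_shiftT291 {φ ψ : G K → ℂ} (hφ : IsAutRT291 R.r φ) (hψ : IsAutRT291 R.r ψ)
    (h : G K) : pair R.F (shift h φ) (shift h ψ) = pair R.F φ ψ := by
  have hΦ := hφ.mul_conj hψ
  exact translT291 hN hU R (fun g => φ g * (starRingEnd ℂ) (ψ g)) hΦ.left_inv hΦ.ray_inv h

include hN hU in
/-- The adjoint of the right translation by `h` is the right translation by `h⁻¹`. -/
theorem pair_shift_leftT291 {φ ψ : G K → ℂ} (hφ : IsAutRT291 R.r φ) (hψ : IsAutRT291 R.r ψ)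
    (h : G K) : pair R.F (shift h φ) ψ = pair R.F φ (shift h⁻¹ ψ) := by
  have := pair_shift_shiftT291 hN hU R hφ (hψ.shift (rayGen_centralT291 R.ray) h⁻¹) h
  rw [shift_shiftT291, mul_inv_cancel, shift_oneT291] at this
  exact this

include hN hU in
theorem nsq_shiftT291 {φ : G K → ℂ} (hφ : IsAutRT291 R.r φ) (h : G K) :
    nsq R.F (shift h φ) = nsq R.F φ := by
  unfold nsq
  rw [pair_shift_shiftT291 hN hU R hφ hφ h]

end Pair

/-! ## 4. Shifts by central elements preserve the class -/

theorem pres_shift_centralT291 (𝔫 : Ideal (𝓞 K)) (τ : G K → ℂ) (r : G K) {z : G K}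
    (hz : ∀ g : G K, g * z = z * g) : PresT291 𝔫 τ r (shift z) := by
  intro φ hφ
  have key : ∀ g u : G K, g * u * z = g * z * u := fun g u => by
    rw [mul_assoc, hz u, ← mul_assoc]
  refine ⟨⟨?_, ?_, ?_, ?_, ?_, ?_⟩, ?_⟩
  · exact hφ.aut.cont.comp (continuous_mul_const z)
  · obtain ⟨C, hC⟩ := hφ.aut.bdd
    exact ⟨C, fun g => hC _⟩
  · intro γ g
    show φ (_ * g * z) = φ (g * z)
    rw [mul_assoc, hφ.aut.left_inv]
  · intro u hu g
    show φ (g * u * z) = φ (g * z)
    rw [key, hφ.aut.level_inv u hu]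
  · intro w u hu g
    show φ (g * u * z) = τ u * φ (g * z)
    rw [key, hφ.aut.arch_compact w u hu]
  · intro g
    show φ (g * r * z) = φ (g * z)
    rw [key, hφ.aut.ray]
  · intro μ hμ D hD n hn g
    have := hφ.cuspidal μ hμ D hD n hn (g * z)
    simp only [shift]
    simpa only [mul_assoc] using this

/-- **T2.27.05 CLOSED.** -/
theorem subShiftPresT291 (K : Type) [Field K] [NumberField K] : SubShiftPresT291 K :=
  fun 𝔫 τ r _ hz => pres_shift_centralT291 𝔫 τ r hz

/-- **T2.27.06 CLOSED.** -/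
theorem subShiftIsoT291 (K : Type) [Field K] [NumberField K] : SubShiftIsoT291 K :=
  fun _ _ c R z _ _ hφ hψ =>
    pair_shift_shiftT291 c.t1.adNorm c.t1.unimod R (cusp_isAutRT291 hφ) (cusp_isAutRT291 hψ) z

end Fermat.Agent.LT.T2.H291

end
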