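import Fermat.Agent.LT.T2.H291.OpsSpecT
import Fermat.Agent.LT.T2.H291.TranslT
import Fermat.Agent.LT.T2.H291.AutT
import Fermat.Agent.LT.T2.H833.HeckePresT
import Fermat.Agent.LT.T2.H290.HeckeBddT
import Fermat.Agent.LT.T2.H887.HeckeAdjT
import Fermat.Agent.LT.T2.H372.ConvLinT
import Fermat.Agent.LT.T2.H776.CommSphereCircleT
import Fermat.Agent.LT.T2.H196.CircleCommT
import Fermat.Agent.LT.T2.H8.ConvBddT
import Fermat.Agent.LT.T2.H79.CommConvHeckeT
import Fermat.Agent.LT.T2.H904.CommMeanHeckeT

/-!
# T2.27 `LeafT07` — partial assembly (helper291)

Twelve of the twenty fields of `SubT291 K` are closed (rows 1387–1391, 1393, 1399, 1401, 1402,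
1406–1409 of the registry); this file plugs them in and leaves the remaining eight as hypotheses.
The final file `LeafT07.lean` discharges those eight from the swarm's files.
-/

namespace Fermat.Agent.LT.T2.H291

variable {K : Type} [Field K] [NumberField K]

/-- `LeafT07 K` from the eight sub-leaves that were still open at 14:45Z. -/
theorem leafT07_of_restT291
    (hHH : SubCommHeckeHeckeT291 K)
    (hSP : SubSpherePresT291 K)
    (hCP : SubCirclePresT291 K)
    (hML : SubMeanLinT291 K)
    (hMB : SubMeanBddT291 K)
    (hMA : SubMeanAdjT291 K)
    (hSS : SubCommSphereSphereT291 K)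
    (hCM : SubCommConvMeanT291 K) : LeafT07 K :=
  leafT07_of_subT291
    { central := subCentralT291 K
      heckePres := H833.subHeckePresT833 K
      heckeBdd := H290.subHeckeBddT_of_transl290 (subTranslT291 K)
      heckeAdj := H887.subHeckeAdjT_of_transl887 (subTranslT291 K)
      shiftPres := subShiftPresT291 K
      shiftIso := subShiftIsoT291 K
      convLin := H372.subConvLinT372
      convBdd := H8.subConvBddT_of_h8 (subTranslT291 K)
      commHeckeHecke := hHH
      commConvHecke := H79.subCommConvHeckeT_79 K
      spherePres := hSP
      circlePres := hCP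
      meanLin := hML
      meanBdd := hMB
      meanAdj := hMA
      commMeanHecke := H904.subCommMeanHeckeT904 K
      commSphereSphere := hSS
      commSphereCircle := H776.subCommSphereCircleT776 K
      commCircleCircle := H196.subCommCircleCircleT196 K
      commConvMean := hCM }

end Fermat.Agent.LT.T2.H291
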