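import Fermat.Agent.LT.T2.H291.AssemblyT
import Fermat.Agent.LT.T2.H879.S2RotTLeaf
import Fermat.Agent.LT.T2.H166.TypeSU2
import Fermat.Agent.LT.T2.H944.CommHeckeHeckeT
import Fermat.Agent.LT.T2.H409.SpherePresT
import Fermat.Agent.LT.T2.H271.CirclePresT
import Fermat.Agent.LT.T2.H420.MeanLinT
import Fermat.Agent.LT.T2.H378.CommSphereT
import Fermat.Agent.LT.T2.H899.MeanBddT
import Fermat.Agent.LT.T2.H899.MeanAdjT

/-!
# T2.27 `LeafT07` — assembly with ONE open input (helper291)

Nineteen of the twenty fields of `SubT291 K` are closed (registry rows 1387–1402, 1404–1409);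
the only open input is `SubCommConvMeanT291 K` (row 1403, T2.27.21).
-/

namespace Fermat.Agent.LT.T2.H291

variable {K : Type} [Field K] [NumberField K]

/-- **T2.27.12**, closed (helper409 from the tools T2.27.31 of helper879 and T2.27.33 of
helper166). -/
theorem subSpherePresT_closed291 (K : Type) [Field K] [NumberField K] : SubSpherePresT291 K :=
  H409.subSpherePresT409 K H879.subS2RotT879 (H166.subTypeSU2T166 K)

/-- **T2.27.18**, closed (helper378 from T2.27.12 and T2.27.33). -/
theorem subCommSphereSphereT_closed291 (K : Type) [Field K] [NumberField K] :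
    SubCommSphereSphereT291 K :=
  H378.subCommSphereSphereT378 (subSpherePresT_closed291 K) (H166.subTypeSU2T166 K)

/-- `LeafT07 K` from the last open sub-leaf T2.27.21. -/
theorem leafT07_of_commConvMeanT291 (hCM : SubCommConvMeanT291 K) : LeafT07 K :=
  leafT07_of_restT291 (H944.subCommHeckeHeckeT944 K) (subSpherePresT_closed291 K)
    (H271.subCirclePresT271 K) (H420.subMeanLinT420 K)
    (H899.subMeanBddT899 (subTranslT291 K)) (H899.subMeanAdjT899 (subTranslT291 K))
    (subCommSphereSphereT_closed291 K) hCM

end Fermat.Agent.LT.T2.H291
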