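import Mathlib
import Fermat.Agent.LT.T2.H291.OpsSpecT
import Fermat.Agent.LT.T2.H429.OpsSpec
import Fermat.Agent.LT.T2.H472.LocCont
import Fermat.Agent.LT.T2.H878.LocalAlg
import Fermat.Agent.LT.T2.H878.RotMat

/-!
# Row LT, tower T2, sub-leaf T2.27.21 (helper291), part 1: Gelfand's trick in `T`-form

OFF-MAIN.  Two anti-involutions at an infinite place `w`:

* `w` complex: the transposition.  A function which is left and right invariant under `SU(2)` at
  `w` is invariant under the transposition of the component at `w` (`biInv_transposeT291`):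
  `GL₂(ℂ) = SU(2) · (diagonal matrices) · SU(2)` (Cartan decomposition `SubCartanInf429`, and
  `U(2) = SU(2) · diag(δ, 1)`), the transposition fixes the diagonal matrices and preserves
  `SU(2)`.
* `w` real: `θ(m) = e mᵀ e`, `e = diag(1, -1)`.  A function of type `(τ⁻¹, τ⁻¹)` under `SO(2)` at
  `w` is invariant under `θ` at `w` (`biType_thetaT291`): `GL₂(ℝ) = SO(2) · A · SO(2)` with `A`
  the real diagonal matrices, `θ` fixes `SO(2)` and `A` pointwise and `SO(2)` is commutative.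

Nothing is assumed, no opaque constant, no placeholder proof.
-/

set_option autoImplicit false
set_option linter.unusedSectionVars false

open IsDedekindDomain NumberField MeasureTheory Set
open scoped Matrix

noncomputable section

namespace Fermat.Agent.LT.T2.H291

open Fermat.Agent.LT.H556.A0
open Fermat.Agent.LT.T2
open Fermat.Agent.LT.T2.H472
open Fermat.Agent.LT.T2.H878

variable {K : Type} [Field K] [NumberField K]

/-! ## 1. Matrix facts -/

theorem unitary_transposeT291 {k : Matrix (Fin 2) (Fin 2) ℂ} (hk : k * kᴴ = 1) :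
    kᵀ * (kᵀ)ᴴ = 1 := by
  have h1 : kᴴ * k = 1 := mul_eq_one_comm.1 hk
  have h2 : (kᴴ * k)ᵀ = 1 := by rw [h1, Matrix.transpose_one]
  rw [Matrix.transpose_mul] at h2
  rw [← h2]
  rfl

theorem det_ne_zero_of_unitaryT291 {k : Matrix (Fin 2) (Fin 2) ℂ} (hk : k * kᴴ = 1) :
    k.det ≠ 0 := by
  have h := congrArg Matrix.det hk
  rw [Matrix.det_mul, Matrix.det_one] at h
  exact left_ne_zero_of_mul_eq_one h

theorem det_mul_conj_of_unitaryT291 {k : Matrix (Fin 2) (Fin 2) ℂ} (hk : k * kᴴ = 1) :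
    k.det * (starRingEnd ℂ) k.det = 1 := by
  have h := congrArg Matrix.det hk
  rwa [Matrix.det_mul, Matrix.det_conjTranspose, Matrix.det_one] at h

/-- `diag(c, 1)` with `|c| = 1` is unitary. -/
theorem diagOne_unitaryT291 {c : ℂ} (hc : c * (starRingEnd ℂ) c = 1) :
    (Matrix.diagonal ![c, 1] : Matrix (Fin 2) (Fin 2) ℂ)
      * (Matrix.diagonal ![c, 1] : Matrix (Fin 2) (Fin 2) ℂ)ᴴ = 1 := by
  rw [Matrix.diagonal_conjTranspose, Matrix.diagonal_mul_diagonal, ← Matrix.diagonal_one]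
  congr 1
  funext i
  fin_cases i
  · simpa using hc
  · simp

/-- `U(2) = SU(2) · diag(δ, 1)`, on both sides. -/
theorem cartan_suT291 (hC : H429.SubCartanInf429) (g : Matrix (Fin 2) (Fin 2) ℂ)
    (hg : g.det ≠ 0) :
    ∃ s₁ s₂ : Matrix (Fin 2) (Fin 2) ℂ, ∃ a b : ℂ,
      s₁ * s₁ᴴ = 1 ∧ s₂ * s₂ᴴ = 1 ∧ s₁.det = 1 ∧ s₂.det = 1 ∧
      g = s₁ * Matrix.diagonal ![a, b] * s₂ := by
  obtain ⟨k₁, k₂, a, b, hk₁, hk₂, hgk, -⟩ := hC g hg
  have hd₁ := det_mul_conj_of_unitaryT291 hk₁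
  have hd₂ := det_mul_conj_of_unitaryT291 hk₂
  have hd₁0 : k₁.det ≠ 0 := left_ne_zero_of_mul_eq_one hd₁
  have hd₂0 : k₂.det ≠ 0 := left_ne_zero_of_mul_eq_one hd₂
  have hc₁ : (k₁.det)⁻¹ * (starRingEnd ℂ) (k₁.det)⁻¹ = 1 := by
    rw [map_inv₀, ← mul_inv, hd₁, inv_one]
  have hc₂ : (k₂.det)⁻¹ * (starRingEnd ℂ) (k₂.det)⁻¹ = 1 := by
    rw [map_inv₀, ← mul_inv, hd₂, inv_one]
  have hu₁ := diagOne_unitaryT291 hc₁
  have hu₂ := diagOne_unitaryT291 hc₂
  refine ⟨k₁ * Matrix.diagonal ![(k₁.det)⁻¹, 1], Matrix.diagonal ![(k₂.det)⁻¹, 1] * k₂,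
    k₁.det * a * k₂.det, b, ?_, ?_, ?_, ?_, ?_⟩
  · rw [Matrix.conjTranspose_mul]
    calc k₁ * Matrix.diagonal ![(k₁.det)⁻¹, 1] * ((Matrix.diagonal ![(k₁.det)⁻¹, 1])ᴴ * k₁ᴴ)
        = k₁ * (Matrix.diagonal ![(k₁.det)⁻¹, 1] * (Matrix.diagonal ![(k₁.det)⁻¹, 1])ᴴ) * k₁ᴴ := by
          simp only [mul_assoc]
      _ = 1 := by rw [hu₁, mul_one, hk₁]
  · rw [Matrix.conjTranspose_mul]
    calc Matrix.diagonal ![(k₂.det)⁻¹, 1] * k₂ * (k₂ᴴ * (Matrix.diagonal ![(k₂.det)⁻¹, 1])ᴴ)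
        = Matrix.diagonal ![(k₂.det)⁻¹, 1] * (k₂ * k₂ᴴ) * (Matrix.diagonal ![(k₂.det)⁻¹, 1])ᴴ := by
          simp only [mul_assoc]
      _ = 1 := by rw [hk₂, mul_one, hu₂]
  · rw [Matrix.det_mul, Matrix.det_diagonal]
    simp only [Fin.prod_univ_two, Matrix.cons_val_zero, Matrix.cons_val_one]
    rw [mul_one, mul_inv_cancel₀ hd₁0]
  · rw [Matrix.det_mul, Matrix.det_diagonal]
    simp only [Fin.prod_univ_two, Matrix.cons_val_zero, Matrix.cons_val_one]
    rw [mul_one, inv_mul_cancel₀ hd₂0]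
  · rw [hgk]
    have e : Matrix.diagonal ![(k₁.det)⁻¹, 1] * Matrix.diagonal ![k₁.det * a * k₂.det, b]
        * Matrix.diagonal ![(k₂.det)⁻¹, 1] = (Matrix.diagonal ![a, b] : Matrix (Fin 2) (Fin 2) ℂ) := by
      rw [Matrix.diagonal_mul_diagonal, Matrix.diagonal_mul_diagonal]
      congr 1
      funext i
      fin_cases i
      · simp
        field_simp
      · simp
    calc k₁ * Matrix.diagonal ![a, b] * k₂
        = k₁ * (Matrix.diagonal ![(k₁.det)⁻¹, 1] * Matrix.diagonal ![k₁.det * a * k₂.det, b]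
          * Matrix.diagonal ![(k₂.det)⁻¹, 1]) * k₂ := by rw [e]
      _ = k₁ * Matrix.diagonal ![(k₁.det)⁻¹, 1] * Matrix.diagonal ![k₁.det * a * k₂.det, b]
          * (Matrix.diagonal ![(k₂.det)⁻¹, 1] * k₂) := by simp only [mul_assoc]

/-! ## 2. The complex places: the transposition -/

/-- The elements of `SU(2)` at `w` (at a real place: the compact group `SO(2)` itself). -/
def IsSUT291 (w : InfinitePlace K) (k : G K) : Prop :=
  IsArchCompact w k ∧ (infComp w k).det = 1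

/-- The element of `SU(2)` at the complex place `w` with a given component. -/
theorem exists_suT291 {w : InfinitePlace K} (hw : w.IsComplex) (s : Matrix (Fin 2) (Fin 2) ℂ)
    (hs : s * sᴴ = 1) (hd : s.det = 1) : ∃ S : G K, IsSUT291 w S ∧ infComp w S = s := by
  obtain ⟨S, hS, hSc⟩ := exists_archCompact878 (K := K) w s hs
    (fun hr => absurd hr (InfinitePlace.not_isReal_iff_isComplex.2 hw))
  exact ⟨S, ⟨hS, by rw [hSc]; exact hd⟩, hSc⟩

theorem IsSUT291.inv {w : InfinitePlace K} {k : G K} (hk : IsSUT291 w k) : IsSUT291 w k⁻¹ :=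
  ⟨isArchCompact_inv878 hk.1, by rw [infComp_inv472, Matrix.det_nonsing_inv, hk.2]; simp⟩

/-- **Gelfand's trick at a complex place**: a function which is left and right invariant under
`SU(2)` at `w` is invariant under the transposition of the component at `w`. -/
theorem biInv_transposeT291 (hC : H429.SubCartanInf429) {w : InfinitePlace K}
    (hw : w.IsComplex) (F : G K → ℂ)
    (hR : ∀ k : G K, IsSUT291 w k → ∀ g, F (g * k) = F g)
    (hL : ∀ k : G K, IsSUT291 w k → ∀ g, F (k * g) = F g)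
    {g g' : G K} (hs : SameAway878 w g g') (hgg : infComp w g' = (infComp w g)ᵀ) :
    F g' = F g := by
  obtain ⟨s₁, s₂, a, b, hs₁, hs₂, hd₁, hd₂, hg⟩ :=
    cartan_suT291 hC (infComp w g) (det_infComp_ne_zero472 w g)
  obtain ⟨S₁, hS₁, hS₁c⟩ := exists_suT291 (K := K) hw s₁ hs₁ hd₁
  obtain ⟨S₂, hS₂, hS₂c⟩ := exists_suT291 (K := K) hw s₂ hs₂ hd₂
  obtain ⟨T₁, hT₁, hT₁c⟩ := exists_suT291 (K := K) hw s₁ᵀ (unitary_transposeT291 hs₁)
    (by rw [Matrix.det_transpose, hd₁])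
  obtain ⟨T₂, hT₂, hT₂c⟩ := exists_suT291 (K := K) hw s₂ᵀ (unitary_transposeT291 hs₂)
    (by rw [Matrix.det_transpose, hd₂])
  have hu₁ : IsUnit s₁.det := by rw [hd₁]; exact isUnit_one
  have hu₂ : IsUnit s₂.det := by rw [hd₂]; exact isUnit_one
  -- the middle element
  set Δ : G K := S₁⁻¹ * g * S₂⁻¹ with hΔ
  have hΔc : infComp w Δ = Matrix.diagonal ![a, b] := by
    rw [hΔ, infComp_mul878, infComp_mul878, infComp_inv472, infComp_inv472, hS₁c, hS₂c, hg]
    calc s₁⁻¹ * (s₁ * Matrix.diagonal ![a, b] * s₂) * s₂⁻¹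
        = (s₁⁻¹ * s₁) * Matrix.diagonal ![a, b] * (s₂ * s₂⁻¹) := by simp only [mul_assoc]
      _ = Matrix.diagonal ![a, b] := by
          rw [Matrix.nonsing_inv_mul _ hu₁, Matrix.mul_nonsing_inv _ hu₂, one_mul, mul_one]
  have hΔs : SameAway878 w Δ g := by
    have e : SameAway878 w (S₁⁻¹ * g * S₂⁻¹) (1 * g * 1) :=
      ((sameAway_of_local878 (isLocalAtInf_inv472 hS₁.1.1)).mul (SameAway878.refl w g)).mul
        (sameAway_of_local878 (isLocalAtInf_inv472 hS₂.1.1))
    rwa [one_mul, mul_one] at e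
  have e1 : g = S₁ * Δ * S₂ := by
    rw [hΔ]
    group
  have e2 : g' = T₂ * Δ * T₁ := by
    apply ext_of_sameAway878 (w := w)
    · have e : SameAway878 w (T₂ * Δ * T₁) (1 * g * 1) :=
        ((sameAway_of_local878 hT₂.1.1).mul hΔs).mul (sameAway_of_local878 hT₁.1.1)
      rw [one_mul, mul_one] at e
      exact hs.symm.trans e.symm
    · rw [hgg, infComp_mul878, infComp_mul878, hT₁c, hT₂c, hΔc, hg, Matrix.transpose_mul,
        Matrix.transpose_mul, Matrix.diagonal_transpose, mul_assoc]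
  calc F g' = F (T₂ * Δ * T₁) := by rw [e2]
    _ = F (T₂ * Δ) := hR T₁ hT₁ _
    _ = F Δ := hL T₂ hT₂ _
    _ = F (S₁ * Δ) := (hL S₁ hS₁ _).symm
    _ = F (S₁ * Δ * S₂) := (hR S₂ hS₂ _).symm
    _ = F g := by rw [← e1]

/-- Every element has a transpose at `w` (complex place). -/
theorem exists_transposeT291 {w : InfinitePlace K} (hw : w.IsComplex) (h : G K) :
    ∃ h' : G K, SameAway878 w h h' ∧ infComp w h' = (infComp w h)ᵀ := by
  have hnr : ¬ w.IsReal := InfinitePlace.not_isReal_iff_isComplex.2 hw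
  have hdet : (infComp w h).det ≠ 0 := det_infComp_ne_zero472 w h
  obtain ⟨L, hL, hLc⟩ := exists_local878 (K := K) w (infComp w h) hdet (fun hr => absurd hr hnr)
  have hdet' : ((infComp w h)ᵀ).det ≠ 0 := by rwa [Matrix.det_transpose]
  obtain ⟨L', hL', hLc'⟩ := exists_local878 (K := K) w (infComp w h)ᵀ hdet'
    (fun hr => absurd hr hnr)
  refine ⟨h * L⁻¹ * L', ?_, ?_⟩
  · have e : SameAway878 w (h * L⁻¹ * L') (h * 1 * 1) :=
      ((SameAway878.refl w h).mul (sameAway_of_local878 (isLocalAtInf_inv472 hL))).mul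
        (sameAway_of_local878 hL')
    rw [mul_one, mul_one] at e
    exact e.symm
  · rw [infComp_mul878, infComp_mul878, infComp_inv472, hLc, hLc',
      Matrix.mul_nonsing_inv _ (IsUnit.mk0 _ hdet), one_mul]

/-- The transpose at `w` of a product with an element supported at `w`. -/
theorem transpose_mulT291 {w : InfinitePlace K} {y h h' z : G K} (hy : IsLocalAtInf w y)
    (hz : IsLocalAtInf w z) (hzc : infComp w z = (infComp w y)ᵀ) (hs : SameAway878 w h h')
    (hh : infComp w h' = (infComp w h)ᵀ) :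
    SameAway878 w (y * h) (h' * z) ∧ infComp w (h' * z) = (infComp w (y * h))ᵀ := by
  constructor
  · have e1 : SameAway878 w (y * h) (1 * h') := (sameAway_of_local878 hy).mul hs
    have e2 : SameAway878 w (h' * z) (h' * 1) :=
      (SameAway878.refl w h').mul (sameAway_of_local878 hz)
    rw [one_mul] at e1
    rw [mul_one] at e2
    exact e1.trans e2.symm
  · rw [infComp_mul878, infComp_mul878, Matrix.transpose_mul, hzc, hh]

/-! ## 3. The real places: `θ(m) = e mᵀ e` -/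

/-- `e = diag(1, -1)`. -/
def eMatT291 : Matrix (Fin 2) (Fin 2) ℂ := Matrix.diagonal ![1, -1]

/-- The anti-involution `θ(m) = e mᵀ e`. -/
def thetaT291 (m : Matrix (Fin 2) (Fin 2) ℂ) : Matrix (Fin 2) (Fin 2) ℂ :=
  eMatT291 * mᵀ * eMatT291

theorem eMat_mul_selfT291 : eMatT291 * eMatT291 = 1 := by
  unfold eMatT291
  rw [Matrix.diagonal_mul_diagonal, ← Matrix.diagonal_one]
  congr 1
  funext i
  fin_cases i <;> simp

theorem thetaT291_apply (m : Matrix (Fin 2) (Fin 2) ℂ) :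
    thetaT291 m = !![m 0 0, -m 1 0; -m 0 1, m 1 1] := by
  unfold thetaT291 eMatT291
  ext i j
  fin_cases i <;> fin_cases j <;>
    simp [Matrix.mul_apply, Fin.sum_univ_two, Matrix.transpose_apply, Matrix.diagonal_apply]

theorem thetaT291_mul (m n : Matrix (Fin 2) (Fin 2) ℂ) :
    thetaT291 (m * n) = thetaT291 n * thetaT291 m := by
  unfold thetaT291
  rw [Matrix.transpose_mul]
  calc eMatT291 * (nᵀ * mᵀ) * eMatT291
      = eMatT291 * nᵀ * (1 : Matrix (Fin 2) (Fin 2) ℂ) * mᵀ * eMatT291 := by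
        rw [mul_one]
        simp only [mul_assoc]
    _ = eMatT291 * nᵀ * eMatT291 * (eMatT291 * mᵀ * eMatT291) := by
        rw [← eMat_mul_selfT291]
        simp only [mul_assoc]

theorem thetaT291_rotY (θ : ℝ) : thetaT291 (rotY θ) = rotY θ := by
  rw [thetaT291_apply]
  unfold rotY
  ext i j
  fin_cases i <;> fin_cases j <;> simp

theorem thetaT291_diagonal (a b : ℂ) :
    thetaT291 (Matrix.diagonal ![a, b]) = Matrix.diagonal ![a, b] := by
  rw [thetaT291_apply]
  ext i j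
  fin_cases i <;> fin_cases j <;> simp

theorem thetaT291_torus (t : ℝ) : thetaT291 (torus t) = torus t := by
  rw [thetaT291_apply]
  unfold torus
  ext i j
  fin_cases i <;> fin_cases j <;> simp

theorem thetaT291_det (m : Matrix (Fin 2) (Fin 2) ℂ) : (thetaT291 m).det = m.det := by
  rw [thetaT291_apply, Matrix.det_fin_two_of, Matrix.det_fin_two]
  ring

theorem thetaT291_real {m : Matrix (Fin 2) (Fin 2) ℂ} (hm : ∀ i j, (m i j).im = 0)
    (i j : Fin 2) : (thetaT291 m i j).im = 0 := by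
  rw [thetaT291_apply]
  fin_cases i <;> fin_cases j <;> simp [hm]

/-- **Gelfand's trick at a real place**: a function of type `(τ⁻¹, τ⁻¹)` under the compact group
at `w` is invariant under `θ` at `w`. -/
theorem biType_thetaT291 (hC : H429.SubCartanInf429) {w : InfinitePlace K}
    (hw : w.IsReal) (τ : G K → ℂ) (F : G K → ℂ)
    (hR : ∀ k : G K, IsArchCompact w k → ∀ g, F (g * k) = (τ k)⁻¹ * F g)
    (hL : ∀ k : G K, IsArchCompact w k → ∀ g, F (k * g) = (τ k)⁻¹ * F g)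
    {g g' : G K} (hs : SameAway878 w g g') (hgg : infComp w g' = thetaT291 (infComp w g)) :
    F g' = F g := by
  obtain ⟨k₁, k₂, a, b, hk₁, hk₂, hg, hre⟩ := hC (infComp w g) (det_infComp_ne_zero472 w g)
  obtain ⟨hr₁, hr₂, hd₁, hd₂, -, -⟩ := hre (fun i j => infComp_real878 hw g i j)
  obtain ⟨K₁, hK₁, hK₁c⟩ := exists_archCompact878 (K := K) w k₁ hk₁ (fun _ => ⟨hr₁, hd₁⟩)
  obtain ⟨K₂, hK₂, hK₂c⟩ := exists_archCompact878 (K := K) w k₂ hk₂ (fun _ => ⟨hr₂, hd₂⟩)
  obtain ⟨θ₁, hθ₁⟩ := so2_eq_rotY878 k₁ hk₁ hr₁ hd₁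
  obtain ⟨θ₂, hθ₂⟩ := so2_eq_rotY878 k₂ hk₂ hr₂ hd₂
  have hu₁ : IsUnit k₁.det := by rw [hd₁]; exact isUnit_one
  have hu₂ : IsUnit k₂.det := by rw [hd₂]; exact isUnit_one
  set Δ : G K := K₁⁻¹ * g * K₂⁻¹ with hΔ
  have hΔc : infComp w Δ = Matrix.diagonal ![a, b] := by
    rw [hΔ, infComp_mul878, infComp_mul878, infComp_inv472, infComp_inv472, hK₁c, hK₂c, hg]
    calc k₁⁻¹ * (k₁ * Matrix.diagonal ![a, b] * k₂) * k₂⁻¹
        = (k₁⁻¹ * k₁) * Matrix.diagonal ![a, b] * (k₂ * k₂⁻¹) := by simp only [mul_assoc]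
      _ = Matrix.diagonal ![a, b] := by
          rw [Matrix.nonsing_inv_mul _ hu₁, Matrix.mul_nonsing_inv _ hu₂, one_mul, mul_one]
  have hΔs : SameAway878 w Δ g := by
    have e : SameAway878 w (K₁⁻¹ * g * K₂⁻¹) (1 * g * 1) :=
      ((sameAway_of_local878 (isLocalAtInf_inv472 hK₁.1)).mul (SameAway878.refl w g)).mul
        (sameAway_of_local878 (isLocalAtInf_inv472 hK₂.1))
    rwa [one_mul, mul_one] at e
  have e1 : g = K₁ * Δ * K₂ := by
    rw [hΔ]
    group
  have e2 : g' = K₂ * Δ * K₁ := by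
    apply ext_of_sameAway878 (w := w)
    · have e : SameAway878 w (K₂ * Δ * K₁) (1 * g * 1) :=
        ((sameAway_of_local878 hK₂.1).mul hΔs).mul (sameAway_of_local878 hK₁.1)
      rw [one_mul, mul_one] at e
      exact hs.symm.trans e.symm
    · rw [hgg, infComp_mul878, infComp_mul878, hK₁c, hK₂c, hΔc, hg, thetaT291_mul,
        thetaT291_mul, thetaT291_diagonal, hθ₁, hθ₂, thetaT291_rotY, thetaT291_rotY, mul_assoc]
  calc F g' = F (K₂ * Δ * K₁) := by rw [e2]
    _ = (τ K₁)⁻¹ * F (K₂ * Δ) := hR K₁ hK₁ _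
    _ = (τ K₁)⁻¹ * ((τ K₂)⁻¹ * F Δ) := by rw [hL K₂ hK₂ Δ]
    _ = (τ K₂)⁻¹ * ((τ K₁)⁻¹ * F Δ) := by ring
    _ = (τ K₂)⁻¹ * F (K₁ * Δ) := by rw [hL K₁ hK₁ Δ]
    _ = F (K₁ * Δ * K₂) := (hR K₂ hK₂ _).symm
    _ = F g := by rw [← e1]

/-- Every element has a `θ`-transform at `w` (real place). -/
theorem exists_thetaT291 {w : InfinitePlace K} (hw : w.IsReal) (h : G K) :
    ∃ h' : G K, SameAway878 w h h' ∧ infComp w h' = thetaT291 (infComp w h) := by
  have hdet : (infComp w h).det ≠ 0 := det_infComp_ne_zero472 w h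
  obtain ⟨L, hL, hLc⟩ := exists_local878 (K := K) w (infComp w h) hdet
    (fun hr i j => infComp_real878 hr h i j)
  have hdet' : (thetaT291 (infComp w h)).det ≠ 0 := by rwa [thetaT291_det]
  obtain ⟨L', hL', hLc'⟩ := exists_local878 (K := K) w (thetaT291 (infComp w h)) hdet'
    (fun hr i j => thetaT291_real (fun i j => infComp_real878 hr h i j) i j)
  refine ⟨h * L⁻¹ * L', ?_, ?_⟩
  · have e : SameAway878 w (h * L⁻¹ * L') (h * 1 * 1) :=
      ((SameAway878.refl w h).mul (sameAway_of_local878 (isLocalAtInf_inv472 hL))).mul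
        (sameAway_of_local878 hL')
    rw [mul_one, mul_one] at e
    exact e.symm
  · rw [infComp_mul878, infComp_mul878, infComp_inv472, hLc, hLc',
      Matrix.mul_nonsing_inv _ (IsUnit.mk0 _ hdet), one_mul]

/-- The `θ`-transform at `w` of a product with an element supported at `w`. -/
theorem theta_mulT291 {w : InfinitePlace K} {y h h' z : G K} (hy : IsLocalAtInf w y)
    (hz : IsLocalAtInf w z) (hzc : infComp w z = thetaT291 (infComp w y))
    (hs : SameAway878 w h h') (hh : infComp w h' = thetaT291 (infComp w h)) :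
    SameAway878 w (y * h) (h' * z) ∧ infComp w (h' * z) = thetaT291 (infComp w (y * h)) := by
  constructor
  · have e1 : SameAway878 w (y * h) (1 * h') := (sameAway_of_local878 hy).mul hs
    have e2 : SameAway878 w (h' * z) (h' * 1) :=
      (SameAway878.refl w h').mul (sameAway_of_local878 hz)
    rw [one_mul] at e1
    rw [mul_one] at e2
    exact e1.trans e2.symm
  · rw [infComp_mul878, infComp_mul878, thetaT291_mul, hzc, hh]

end Fermat.Agent.LT.T2.H291

end
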