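import Mathlib
import Fermat.Agent.LT.T2.H291.OpsSpecT
import Fermat.Agent.LT.T2.H291.GelfandT
import Fermat.Agent.LT.T2.H878.CommConvMean
import Fermat.Agent.LT.T2.H420.MeanLinT

/-!
# Row LT, tower T2, sub-leaf T2.27.21 (helper291), part 3: the real places

OFF-MAIN.  A convolution by a spherical test function of type `τ` commutes with the `τ`-twisted
circle means on the cusp functions of the class `(𝔫, τ, r)`:

`comm_circleT291 : SubCartanInf429 → … → CommT291 𝔫 τ R.r (conv R.F f) (circleMeanT τ k a)`.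

`T`-form of `comm_circle878` (helper878, T2.07.21), same abstract engine `comm_abstract878` with
`Y_θ = k_θ a`, `Z_θ = k_θ⁻¹ a⁻¹` (the element with component `θ(Y_θ⁻¹)`, `θ(m) = e mᵀ e`) and the
weight `τ(k_θ)⁻¹`.  The kernel `B(g) = ∫ f(g Z_θ) τ(k_θ)⁻¹ dθ` is of type `(τ⁻¹, τ⁻¹)` under
`SO(2)` at `w` (the rotations translate the angle, the integrand has period `2π`), hence
invariant under `θ` at `w` (`biType_thetaT291`).
Nothing is assumed, no opaque constant, no placeholder proof.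
-/

set_option autoImplicit false
set_option linter.unusedSectionVars false
set_option linter.style.haveILetI false

open IsDedekindDomain NumberField MeasureTheory Set
open scoped Matrix Pointwise

noncomputable section

namespace Fermat.Agent.LT.T2.H291

open Fermat.Agent.LT.H556.A0
open Fermat.Agent.LT.T2
open Fermat.Agent.LT.T2.H472
open Fermat.Agent.LT.T2.H878

variable {K : Type} [Field K] [NumberField K]

attribute [local instance] Fermat.Agent.LT.T2.borelG

/-! ## 1. The type on the compact group -/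

theorem isArchCompact_oneT291 (w : InfinitePlace K) : IsArchCompact w (1 : G K) := by
  refine ⟨⟨fun u _ => ?_, fun v => ?_⟩, ?_, fun _ => ?_⟩
  · rw [trivAtInf_iff472]
    simp
  · show finComp v (1 : G K) = 1
    exact finComp_one878 v
  · rw [infComp_one878]
    simp
  · rw [infComp_one878, Matrix.det_one]

theorem tau_ne_zeroT291 {τ : G K → ℂ} (hτ : IsKType τ) {w : InfinitePlace K} {k : G K}
    (hk : IsArchCompact w k) : τ k ≠ 0 := by
  intro h0
  have h := hτ.norm_one w k hk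
  rw [h0, norm_zero] at h
  exact zero_ne_one h

theorem tau_oneT291 {τ : G K → ℂ} (hτ : IsKType τ) (w : InfinitePlace K) : τ (1 : G K) = 1 := by
  have h1 := isArchCompact_oneT291 (K := K) w
  have h0 := tau_ne_zeroT291 hτ h1
  have h := hτ.mul w 1 1 h1 h1
  rw [mul_one] at h
  have h' : τ (1 : G K) * 1 = τ (1 : G K) * τ (1 : G K) := by rw [mul_one]; exact h
  exact (mul_left_cancel₀ h0 h').symm

theorem tau_invT291 {τ : G K → ℂ} (hτ : IsKType τ) {w : InfinitePlace K} {k : G K}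
    (hk : IsArchCompact w k) : τ k⁻¹ = (τ k)⁻¹ := by
  have h := hτ.mul w k⁻¹ k (isArchCompact_inv878 hk) hk
  rw [inv_mul_cancel, tau_oneT291 hτ w] at h
  exact eq_inv_of_mul_eq_one_left h.symm

/-! ## 2. The rotations -/

theorem rot_addT291 {w : InfinitePlace K} {k : ℝ → G K} (hk : IsRotAt w k) (α β : ℝ) :
    k (α + β) = k α * k β := by
  refine local_unique878 (hk _).1 (isLocalAtInf_mul878 (hk α).1 (hk β).1) ?_
  rw [infComp_mul878, (hk _).2, (hk α).2, (hk β).2, rotY_add878]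

theorem rot_zeroT291 {w : InfinitePlace K} {k : ℝ → G K} (hk : IsRotAt w k) : k 0 = 1 := by
  have h := rot_addT291 hk 0 0
  rw [add_zero] at h
  exact mul_eq_left.1 h.symm

theorem rot_invT291 {w : InfinitePlace K} {k : ℝ → G K} (hk : IsRotAt w k) (θ : ℝ) :
    (k θ)⁻¹ = k (-θ) := by
  have h := rot_addT291 hk θ (-θ)
  rw [add_neg_cancel, rot_zeroT291 hk] at h
  exact inv_eq_of_mul_eq_one_right h.symm

/-- Every element of the compact group at the real place `w` is a rotation. -/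
theorem archCompact_eq_rotT291 {w : InfinitePlace K} (hw : w.IsReal) {k : ℝ → G K}
    (hk : IsRotAt w k) {k' : G K} (hk' : IsArchCompact w k') : ∃ θ₀ : ℝ, k' = k θ₀ := by
  obtain ⟨θ₀, hθ₀⟩ := so2_eq_rotY878 (infComp w k') hk'.2.1
    (fun i j => infComp_real878 hw k' i j) (hk'.2.2 hw)
  exact ⟨θ₀, local_unique878 hk'.1 (hk θ₀).1 (by rw [hθ₀, (hk θ₀).2])⟩

/-- `k_{2π}` (component `-1`) commutes with the elements supported at `w`. -/
theorem rot_two_pi_commT291 {w : InfinitePlace K} {k : ℝ → G K} (hk : IsRotAt w k) {y : G K}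
    (hy : IsLocalAtInf w y) : k (2 * Real.pi) * y = y * k (2 * Real.pi) := by
  refine local_unique878 (isLocalAtInf_mul878 (hk _).1 hy) (isLocalAtInf_mul878 hy (hk _).1) ?_
  rw [infComp_mul878, infComp_mul878, (hk _).2, rotY_two_pi878]
  simp

/-! ## 3. The families -/

/-- `Z_θ = k_θ⁻¹ a⁻¹`. -/
def ZcT291 (k : ℝ → G K) (a : G K) (θ : ℝ) : G K := (k θ)⁻¹ * a⁻¹

theorem ZcT291_loc {w : InfinitePlace K} {t : ℝ} {k : ℝ → G K} {a : G K} (hk : IsRotAt w k)
    (ha : IsTorusAt w t a) (θ : ℝ) : IsLocalAtInf w (ZcT291 k a θ) :=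
  isLocalAtInf_mul878 (isLocalAtInf_inv472 (hk θ).1) (isLocalAtInf_inv472 ha.1)

/-- The component of `Z_θ` is the `θ`-transform of the component of `Y_θ⁻¹`. -/
theorem ZcT291_theta {w : InfinitePlace K} {t : ℝ} {k : ℝ → G K} {a : G K} (hk : IsRotAt w k)
    (ha : IsTorusAt w t a) (θ : ℝ) :
    infComp w (ZcT291 k a θ) = thetaT291 (infComp w (k θ * a)⁻¹) := by
  unfold ZcT291
  rw [mul_inv_rev, infComp_mul878, infComp_mul878, thetaT291_mul, rot_invT291 hk, (hk _).2,
    thetaT291_rotY, infComp_inv472, ha.2, torus_inv878, thetaT291_torus]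

section analysisT291

variable (F : Frame K)

/-- `E1` at a real place. -/
theorem circle_E1T291 [F.μ.IsMulRightInvariant] [MeasurableMul (G K)]
    {τ : G K → ℂ} (hτ : IsKType τ) {w : InfinitePlace K} {k : ℝ → G K} (a : G K)
    (hk : IsRotAt w k) {f φ : G K → ℂ}
    (hfR : ∀ k' : G K, IsArchCompact w k' → ∀ g, f (g * k') = (τ k')⁻¹ * f g)
    (hφR : ∀ k' : G K, IsArchCompact w k' → ∀ g, φ (g * k') = τ k' * φ g) (θ : ℝ) (x : G K) :
    ∫ h, φ (x * h * (k θ * a)) * f h ∂F.μ = ∫ h, φ (x * h) * f (h * ZcT291 k a θ) ∂F.μ := by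
  have hkθ := H420.isArchCompact_rot420 hk θ
  have hki := isArchCompact_inv878 hkθ
  have h1 : ∫ h, φ (x * h * (k θ * a)) * f h ∂F.μ
      = ∫ h, τ (k θ) * (φ (x * h * a) * f h) ∂F.μ := by
    rw [← integral_mul_right_eq_self (μ := F.μ) (fun h => φ (x * h * (k θ * a)) * f h) (k θ)⁻¹]
    refine integral_congr_ae (Filter.Eventually.of_forall fun h => ?_)
    show φ (x * (h * (k θ)⁻¹) * (k θ * a)) * f (h * (k θ)⁻¹) = τ (k θ) * (φ (x * h * a) * f h)
    have e : x * (h * (k θ)⁻¹) * (k θ * a) = x * h * a := by group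
    rw [e, hfR _ hki, tau_invT291 hτ hkθ, inv_inv]
    ring
  have h2 : ∫ h, φ (x * h) * f (h * ZcT291 k a θ) ∂F.μ
      = ∫ h, τ (k θ) * (φ (x * h * a) * f h) ∂F.μ := by
    rw [← integral_mul_right_eq_self (μ := F.μ) (fun h => φ (x * h) * f (h * ZcT291 k a θ))
      (a * k θ)]
    refine integral_congr_ae (Filter.Eventually.of_forall fun h => ?_)
    show φ (x * (h * (a * k θ))) * f (h * (a * k θ) * ZcT291 k a θ)
      = τ (k θ) * (φ (x * h * a) * f h)
    have e1 : x * (h * (a * k θ)) = x * h * a * k θ := by group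
    have e2 : h * (a * k θ) * ZcT291 k a θ = h := by
      unfold ZcT291
      group
    rw [e1, e2, hφR _ hkθ]
    ring
  rw [h1, h2]

/-- The integrand of the kernel has period `2π`. -/
theorem kernel_periodicT291 {τ : G K → ℂ} (hτ : IsKType τ) {w : InfinitePlace K} {t : ℝ}
    {k : ℝ → G K} {a : G K} (hk : IsRotAt w k) (ha : IsTorusAt w t a) {f : G K → ℂ}
    (hfR : ∀ k' : G K, IsArchCompact w k' → ∀ g, f (g * k') = (τ k')⁻¹ * f g) (g : G K) :
    Function.Periodic (fun θ => f (g * ZcT291 k a θ) * (τ (k θ))⁻¹) (2 * Real.pi) := by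
  intro θ
  show f (g * ZcT291 k a (θ + 2 * Real.pi)) * (τ (k (θ + 2 * Real.pi)))⁻¹
    = f (g * ZcT291 k a θ) * (τ (k θ))⁻¹
  have hc := H420.isArchCompact_rot420 hk (2 * Real.pi)
  have hci := isArchCompact_inv878 hc
  have hkθ := H420.isArchCompact_rot420 hk θ
  have e1 : ZcT291 k a (θ + 2 * Real.pi) = ZcT291 k a θ * (k (2 * Real.pi))⁻¹ := by
    unfold ZcT291
    rw [rot_addT291 hk, mul_inv_rev]
    have hcomm := rot_two_pi_commT291 hk
      (isLocalAtInf_mul878 (isLocalAtInf_inv472 (hk θ).1) (isLocalAtInf_inv472 ha.1))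
    -- `c⁻¹ y = y c⁻¹` from `c y = y c`
    have : (k (2 * Real.pi))⁻¹ * ((k θ)⁻¹ * a⁻¹) = (k θ)⁻¹ * a⁻¹ * (k (2 * Real.pi))⁻¹ := by
      rw [eq_mul_inv_iff_mul_eq, mul_assoc, ← hcomm, ← mul_assoc, inv_mul_cancel, one_mul]
    rw [mul_assoc, this]
  rw [e1, ← mul_assoc, hfR _ hci, tau_invT291 hτ hc, inv_inv, rot_addT291 hk,
    hτ.mul w _ _ hkθ hc, mul_inv]
  have h0 := tau_ne_zeroT291 hτ hc
  field_simp

/-- **The twisted invariance `RI` at a real place**: the kernel is of right type `τ⁻¹`. -/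
theorem circle_RIT291 {τ : G K → ℂ} (hτ : IsKType τ) {w : InfinitePlace K} (hw : w.IsReal)
    {t : ℝ} {k : ℝ → G K} {a : G K} (hk : IsRotAt w k) (ha : IsTorusAt w t a) {f : G K → ℂ}
    (hfR : ∀ k' : G K, IsArchCompact w k' → ∀ g, f (g * k') = (τ k')⁻¹ * f g) (g k' : G K)
    (hk' : IsArchCompact w k') :
    ∫ θ in Ioc 0 (2 * Real.pi), f (g * k' * ZcT291 k a θ) * (τ (k θ))⁻¹
      = (τ k')⁻¹ * ∫ θ in Ioc 0 (2 * Real.pi), f (g * ZcT291 k a θ) * (τ (k θ))⁻¹ := by
  have h2 : (0 : ℝ) ≤ 2 * Real.pi := by positivity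
  obtain ⟨θ₀, rfl⟩ := archCompact_eq_rotT291 hw hk hk'
  have hper := kernel_periodicT291 hτ hk ha hfR g
  set u : ℝ → ℂ := fun θ => f (g * ZcT291 k a θ) * (τ (k θ))⁻¹ with hu
  have e : ∀ θ : ℝ, f (g * k θ₀ * ZcT291 k a θ) * (τ (k θ))⁻¹ = (τ (k θ₀))⁻¹ * u (θ - θ₀) := by
    intro θ
    have e1 : g * k θ₀ * ZcT291 k a θ = g * ZcT291 k a (θ - θ₀) := by
      unfold ZcT291
      have : k θ = k (θ - θ₀) * k θ₀ := by rw [← rot_addT291 hk, sub_add_cancel]
      rw [this]
      group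
    have e2 : τ (k θ) = τ (k (θ - θ₀)) * τ (k θ₀) := by
      have : k θ = k (θ - θ₀) * k θ₀ := by rw [← rot_addT291 hk, sub_add_cancel]
      rw [this, hτ.mul w _ _ (H420.isArchCompact_rot420 hk _) (H420.isArchCompact_rot420 hk _)]
    rw [e1, e2, hu, mul_inv]
    ring
  rw [← intervalIntegral.integral_of_le h2, ← intervalIntegral.integral_of_le h2]
  simp_rw [e]
  rw [intervalIntegral.integral_const_mul, intervalIntegral.integral_comp_sub_right u θ₀]
  congr 1
  have := hper.intervalIntegral_add_eq (0 - θ₀) 0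
  rw [zero_add] at this
  have e3 : 0 - θ₀ + 2 * Real.pi = 2 * Real.pi - θ₀ := by ring
  rw [e3] at this
  exact this

/-- `E2` at a real place: the equality of the kernels (Gelfand's trick with `θ`). -/
theorem circle_E2T291 (hC : H429.SubCartanInf429) {τ : G K → ℂ} (hτ : IsKType τ)
    {w : InfinitePlace K} (hw : w.IsReal) {t : ℝ} {k : ℝ → G K} {a : G K}
    (hk : IsRotAt w k) (ha : IsTorusAt w t a) {f : G K → ℂ}
    (hfR : ∀ k' : G K, IsArchCompact w k' → ∀ g, f (g * k') = (τ k')⁻¹ * f g)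
    (hfL : ∀ k' : G K, IsArchCompact w k' → ∀ g, f (k' * g) = (τ k')⁻¹ * f g) (h : G K) :
    ∫ θ in Ioc 0 (2 * Real.pi), f ((k θ * a)⁻¹ * h) * (τ (k θ))⁻¹
      = ∫ θ in Ioc 0 (2 * Real.pi), f (h * ZcT291 k a θ) * (τ (k θ))⁻¹ := by
  obtain ⟨h', hs, hh⟩ := exists_thetaT291 hw h
  have step1 : ∀ θ : ℝ, f ((k θ * a)⁻¹ * h) = f (h' * ZcT291 k a θ) := by
    intro θ
    have hsm := theta_mulT291 (y := (k θ * a)⁻¹) (z := ZcT291 k a θ)
      (isLocalAtInf_inv472 (isLocalAtInf_mul878 (hk θ).1 ha.1)) (ZcT291_loc hk ha θ)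
      (ZcT291_theta hk ha θ) hs hh
    exact (biType_thetaT291 hC hw τ f hfR hfL hsm.1 hsm.2).symm
  have step2 : ∫ θ in Ioc 0 (2 * Real.pi), f (h' * ZcT291 k a θ) * (τ (k θ))⁻¹
      = ∫ θ in Ioc 0 (2 * Real.pi), f (h * ZcT291 k a θ) * (τ (k θ))⁻¹ := by
    refine biType_thetaT291 hC hw τ
      (fun g => ∫ θ in Ioc 0 (2 * Real.pi), f (g * ZcT291 k a θ) * (τ (k θ))⁻¹) ?_ ?_ hs hh
    · intro k' hk' g
      exact circle_RIT291 hτ hw hk ha hfR g k' hk'
    · intro k' hk' g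
      show ∫ θ in Ioc 0 (2 * Real.pi), f (k' * g * ZcT291 k a θ) * (τ (k θ))⁻¹
        = (τ k')⁻¹ * ∫ θ in Ioc 0 (2 * Real.pi), f (g * ZcT291 k a θ) * (τ (k θ))⁻¹
      rw [← integral_const_mul]
      refine integral_congr_ae (Filter.Eventually.of_forall fun θ => ?_)
      show f (k' * g * ZcT291 k a θ) * (τ (k θ))⁻¹
        = (τ k')⁻¹ * (f (g * ZcT291 k a θ) * (τ (k θ))⁻¹)
      rw [mul_assoc k' g, hfL k' hk']
      ring
  rw [← step2]
  refine integral_congr_ae (Filter.Eventually.of_forall fun θ => ?_)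
  show f ((k θ * a)⁻¹ * h) * (τ (k θ))⁻¹ = f (h' * ZcT291 k a θ) * (τ (k θ))⁻¹
  rw [step1 θ]

end analysisT291

/-! ## 4. The commutation -/

/-- **T2.27.21, real places.** -/
theorem comm_circleT291 (hC : H429.SubCartanInf429) {𝔫 : Ideal (𝓞 K)} {τ : G K → ℂ}
    (hctx : CtxT291 K 𝔫 τ) (R : FrameR K) {f : G K → ℂ} (hf : IsSphTestT 𝔫 τ f)
    {w : InfinitePlace K} (hw : w.IsReal) {t : ℝ} {k : ℝ → G K} {a : G K}
    (hk : IsRotAt w k) (ha : IsTorusAt w t a) :
    CommT291 𝔫 τ R.r (conv R.F f) (circleMeanT τ k a) := by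
  intro φ hφ
  funext x
  have h2 : (0 : ℝ) ≤ 2 * Real.pi := by positivity
  have hkc : Continuous k := H420.continuous_rot420 hk
  have hwt : Continuous fun θ : ℝ => (τ (k θ))⁻¹ := H420.continuous_type_rot420 hctx.kt hk
  obtain ⟨-, hlc, ht2, hsc⟩ := hctx.t1.locComp
  have := hlc
  have := ht2
  have := hsc
  have : BorelSpace (G K) := ⟨rfl⟩
  have := R.F.haar
  have : R.F.μ.IsMulRightInvariant := hctx.t1.unimod R.F.μ R.F.haar
  have hYc : Continuous fun θ : ℝ => k θ * a := hkc.mul continuous_const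
  have hZc : Continuous (ZcT291 k a) := by
    unfold ZcT291
    exact hkc.inv.mul continuous_const
  have main := comm_abstract878 R.F.μ (volume : Measure ℝ) hf.test.cont hf.test.cpt
    hφ.aut.cont hYc hZc hwt
    (measurableSet_Ioc : MeasurableSet (Ioc (0 : ℝ) (2 * Real.pi)))
    (isCompact_Icc : IsCompact (Icc (0 : ℝ) (2 * Real.pi))) Ioc_subset_Icc_self
    (circle_E1T291 R.F hctx.kt a hk (hf.test.arch_right w) (hφ.aut.arch_compact w))
    (circle_E2T291 hC hctx.kt hw hk ha (hf.test.arch_right w) (hf.test.arch_left w)) x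
  have hL : conv R.F f (circleMeanT τ k a φ) x
      = ∫ h, (∫ θ in Ioc 0 (2 * Real.pi), φ (x * h * (k θ * a)) * (τ (k θ))⁻¹) * f h
          ∂(R.F.μ) := by
    show ∫ h, circleMeanT τ k a φ (x * h) * f h ∂(R.F.μ) = _
    refine integral_congr_ae (Filter.Eventually.of_forall fun h => ?_)
    show circleMeanT τ k a φ (x * h) * f h = _
    congr 1
    show ∫ θ in (0 : ℝ)..(2 * Real.pi), (τ (k θ))⁻¹ * φ (x * h * k θ * a) = _
    rw [intervalIntegral.integral_of_le h2]
    refine integral_congr_ae (Filter.Eventually.of_forall fun θ => ?_)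
    show (τ (k θ))⁻¹ * φ (x * h * k θ * a) = φ (x * h * (k θ * a)) * (τ (k θ))⁻¹
    rw [mul_comm, mul_assoc (x * h)]
  have hR : circleMeanT τ k a (conv R.F f φ) x
      = ∫ θ in Ioc 0 (2 * Real.pi), (∫ h, φ (x * (k θ * a) * h) * f h ∂(R.F.μ))
          * (τ (k θ))⁻¹ := by
    show ∫ θ in (0 : ℝ)..(2 * Real.pi), (τ (k θ))⁻¹ * conv R.F f φ (x * k θ * a) = _
    rw [intervalIntegral.integral_of_le h2]
    refine integral_congr_ae (Filter.Eventually.of_forall fun θ => ?_)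
    show (τ (k θ))⁻¹ * conv R.F f φ (x * k θ * a)
      = (∫ h, φ (x * (k θ * a) * h) * f h ∂(R.F.μ)) * (τ (k θ))⁻¹
    rw [mul_comm, mul_assoc x]
    rfl
  rw [hL, hR]
  exact main

end Fermat.Agent.LT.T2.H291

end
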