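import Fermat.Agent.LT.T2.H291.CommConvSphereT
import Fermat.Agent.LT.T2.H291.CommConvCircleT
import Fermat.Agent.LT.T2.H555.CartanInfAdapter
import Fermat.Agent.LT.T2.H879.S2RotTLeaf
import Fermat.Agent.LT.T2.H166.TypeSU2

/-!
# Row LT, tower T2, sub-leaf T2.27.21 `SubCommConvMeanT291` (helper291)

OFF-MAIN.  A convolution by a spherical test function of type `τ` commutes with the sphere means
(complex places, `CommConvSphereT.lean`) and with the `τ`-twisted circle means (real places,
`CommConvCircleT.lean`) on the cusp functions of the class `(𝔫, τ, r)`.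

Inputs, all closed: `SubS2RotT291` (T2.27.31, helper879), `SubTypeSU2T291 K` (T2.27.33,
helper166), `SubCartanInf429` (T2.07.32, helper555), and the abstract engine `comm_abstract878`
of helper878 (T2.07.21).  Nothing is assumed, no opaque constant, no placeholder proof.
-/

namespace Fermat.Agent.LT.T2.H291

open Fermat.Agent.LT.T2

variable {K : Type} [Field K] [NumberField K]

/-- **T2.27.21** from the auxiliary sub-leaves. -/
theorem subCommConvMeanT_of_toolsT291 (hrot : SubS2RotT291) (hS : SubTypeSU2T291 K)
    (hC : H429.SubCartanInf429) : SubCommConvMeanT291 K := by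
  intro 𝔫 τ hctx R f hf
  exact ⟨fun w hw d _ Y hY => comm_sphereT291 hrot hS hC hctx R hf hw hY,
    fun w hw t _ k a hk ha => comm_circleT291 hC hctx R hf hw hk ha⟩

/-- **T2.27.21**, unconditional. -/
theorem subCommConvMeanT291 (K : Type) [Field K] [NumberField K] : SubCommConvMeanT291 K :=
  subCommConvMeanT_of_toolsT291 H879.subS2RotT879 (H166.subTypeSU2T166 K) H555.subCartanInf555

end Fermat.Agent.LT.T2.H291
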