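import Mathlib
import Fermat.Agent.LT.T2.H291.OpsSpecT
import Fermat.Agent.LT.T2.H291.GelfandT
import Fermat.Agent.LT.T2.H878.CommConvMean

/-!
# Row LT, tower T2, sub-leaf T2.27.21 (helper291), part 2: the complex places

OFF-MAIN.  A convolution by a spherical test function of type `τ` commutes with the sphere means
on the cusp functions of the class `(𝔫, τ, r)`:

`comm_sphereT291 : SubS2RotT291 → SubTypeSU2T291 K → SubCartanInf429 → … →
  CommT291 𝔫 τ R.r (conv R.F f) (sphereMean Y)`.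

`T`-form of `comm_sphere878` (helper878, T2.07.21), same abstract engine `comm_abstract878`.
The type `τ` is trivial on `SU(2)` at `w` (`SubTypeSU2T291`), so `f` is bi-invariant and `φ` is
right invariant under `SU(2)` at `w`; the anti-involution is the TRANSPOSITION at `w`
(`biInv_transposeT291`), and `Z_p` is the element with component
`(Y_p⁻¹)ᵀ = rotZ(-α) rotY(β) torus(-d)` at `w`.  The invariance `RI` of the kernel under `SU(2)`
is `SubS2RotT291` after the reflection `α ↦ -α` (the integrand has period `2π` in `α`).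
Nothing is assumed, no opaque constant, no placeholder proof.
-/

set_option autoImplicit false
set_option linter.unusedSectionVars false
set_option linter.style.haveILetI false

open IsDedekindDomain NumberField MeasureTheory Set
open scoped Matrix Pointwise

noncomputable section

namespace Fermat.Agent.LT.T2.H291

open Fermat.Agent.LT.H556.A0
open Fermat.Agent.LT.T2
open Fermat.Agent.LT.T2.H472
open Fermat.Agent.LT.T2.H878

variable {K : Type} [Field K] [NumberField K]

attribute [local instance] Fermat.Agent.LT.T2.borelG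

/-! ## 1. Matrix facts -/

theorem rotZ_transposeT291 (α : ℝ) : (rotZ α)ᵀ = rotZ α := by
  unfold rotZ
  ext i j
  fin_cases i <;> fin_cases j <;> simp [Matrix.transpose_apply]

theorem torus_transposeT291 (d : ℝ) : (torus d)ᵀ = torus d := by
  unfold torus
  ext i j
  fin_cases i <;> fin_cases j <;> simp [Matrix.transpose_apply]

theorem rotY_negT291 (β : ℝ) : rotY (-β) = (rotY β)ᵀ := by
  have e1 : -β / 2 = -(β / 2) := by ring
  unfold rotY
  rw [e1, Real.cos_neg, Real.sin_neg]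
  ext i j
  fin_cases i <;> fin_cases j <;> simp [Matrix.transpose_apply]

theorem rotY_mul_negT291 (β : ℝ) : rotY β * rotY (-β) = 1 := by
  rw [rotY_add878, add_neg_cancel, rotY_zero878]

theorem rotZ_addT291 (α β : ℝ) : rotZ (α + β) = rotZ α * rotZ β := by
  have e1 : Complex.I * (((α + β) / 2 : ℝ) : ℂ)
      = Complex.I * ((α / 2 : ℝ) : ℂ) + Complex.I * ((β / 2 : ℝ) : ℂ) := by
    push_cast
    ring
  have e2 : Complex.exp (Complex.I * (((α + β) / 2 : ℝ) : ℂ))
      = Complex.exp (Complex.I * ((α / 2 : ℝ) : ℂ))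
        * Complex.exp (Complex.I * ((β / 2 : ℝ) : ℂ)) := by
    rw [e1, Complex.exp_add]
  have e3 : Complex.exp (-(Complex.I * (((α + β) / 2 : ℝ) : ℂ)))
      = Complex.exp (-(Complex.I * ((α / 2 : ℝ) : ℂ)))
        * Complex.exp (-(Complex.I * ((β / 2 : ℝ) : ℂ))) := by
    rw [e1, neg_add, Complex.exp_add]
  unfold rotZ
  rw [e2, e3]
  ext i j
  fin_cases i <;> fin_cases j <;> simp [Matrix.mul_apply, Fin.sum_univ_two]

theorem rotZ_mul_negT291 (α : ℝ) : rotZ α * rotZ (-α) = 1 := by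
  rw [← rotZ_addT291, add_neg_cancel, rotZ_zero878]

theorem rotZ_two_piT291 : rotZ (2 * Real.pi) = -1 := by
  have e1 : Complex.I * ((2 * Real.pi / 2 : ℝ) : ℂ) = (Real.pi : ℂ) * Complex.I := by
    push_cast
    ring
  unfold rotZ
  rw [e1, Complex.exp_neg, Complex.exp_pi_mul_I]
  ext i j
  fin_cases i <;> fin_cases j <;> simp

theorem det_rotZT291 (γ : ℝ) : (rotZ γ).det = 1 := by
  unfold rotZ
  rw [Matrix.det_fin_two_of, mul_zero, sub_zero, ← Complex.exp_add, add_neg_cancel,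
    Complex.exp_zero]

theorem rotZ_mul_torusT291 (γ d : ℝ) : rotZ γ * torus d = torus d * rotZ γ := by
  unfold rotZ torus
  ext i j
  fin_cases i <;> fin_cases j <;> simp [Matrix.mul_apply, Fin.sum_univ_two, mul_comm]

/-- The component of `Z_p`. -/
def zST291 (d : ℝ) (p : ℝ × ℝ) : Matrix (Fin 2) (Fin 2) ℂ :=
  rotZ (-p.1) * rotY p.2 * torus (-d)

theorem sphere_mul_zS_transposeT291 (d : ℝ) (p : ℝ × ℝ) :
    rotZ p.1 * rotY p.2 * torus d * (zST291 d p)ᵀ = 1 := by
  unfold zST291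
  rw [Matrix.transpose_mul, Matrix.transpose_mul, torus_transposeT291, rotZ_transposeT291,
    ← rotY_negT291]
  calc rotZ p.1 * rotY p.2 * torus d * (torus (-d) * (rotY (-p.2) * rotZ (-p.1)))
      = rotZ p.1 * (rotY p.2 * (torus d * torus (-d)) * rotY (-p.2)) * rotZ (-p.1) := by
        simp only [mul_assoc]
    _ = 1 := by rw [torus_mul_neg878, mul_one, rotY_mul_negT291, mul_one, rotZ_mul_negT291]

theorem zS_eqT291 (d : ℝ) (p : ℝ × ℝ) :
    zST291 d p = ((rotZ p.1 * rotY p.2 * torus d)⁻¹)ᵀ := by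
  have h := Matrix.inv_eq_right_inv (sphere_mul_zS_transposeT291 d p)
  rw [h, Matrix.transpose_transpose]

theorem det_zST291 (d : ℝ) (p : ℝ × ℝ) : (zST291 d p).det ≠ 0 := by
  unfold zST291
  rw [Matrix.det_mul, Matrix.det_mul, det_rotZT291, rotY_det878, one_mul, one_mul]
  exact det_torus878 (-d)

theorem continuous_zST291 (d : ℝ) : Continuous (zST291 d) := by
  unfold zST291
  exact (((continuous_rotZ878.comp (continuous_neg.comp continuous_fst)).matrix_mul
    (continuous_rotY878.comp continuous_snd)).matrix_mul continuous_const)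

/-! ## 2. The family `Z` -/

/-- The family `Z_p`: the element supported at `w` with component `(Y_p⁻¹)ᵀ`. -/
def ZsT291 (w : InfinitePlace K) (hw : w.IsComplex) (d : ℝ) (p : ℝ × ℝ) : G K :=
  locC878 w hw ⟨zST291 d p, det_zST291 d p⟩

theorem ZsT291_loc (w : InfinitePlace K) (hw : w.IsComplex) (d : ℝ) (p : ℝ × ℝ) :
    IsLocalAtInf w (ZsT291 w hw d p) := locC_loc878 w hw _

theorem ZsT291_comp (w : InfinitePlace K) (hw : w.IsComplex) (d : ℝ) (p : ℝ × ℝ) :
    infComp w (ZsT291 w hw d p) = zST291 d p := locC_comp878 w hw _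

theorem continuous_ZsT291 (w : InfinitePlace K) (hw : w.IsComplex) (d : ℝ) :
    Continuous (ZsT291 (K := K) w hw d) :=
  (continuous_locC878 w hw).comp ((continuous_zST291 d).subtype_mk _)

/-- The component of `Z_p` is the transpose of the component of `Y_p⁻¹`. -/
theorem ZsT291_transpose {w : InfinitePlace K} (hw : w.IsComplex) {d : ℝ} {Y : ℝ → ℝ → G K}
    (hY : IsSphereAt w d Y) (p : ℝ × ℝ) :
    infComp w (ZsT291 w hw d p) = (infComp w (Y p.1 p.2)⁻¹)ᵀ := by
  rw [ZsT291_comp, infComp_inv472, (hY p.1 p.2).2, zS_eqT291]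

/-! ## 3. `SU(2)` at `w` -/

/-- `k_p = Y_p a⁻¹` lies in `SU(2)` at `w`. -/
theorem isSU_sphere_kT291 {w : InfinitePlace K} (hw : w.IsComplex) {d : ℝ} {Y : ℝ → ℝ → G K}
    (hY : IsSphereAt w d Y) (p : ℝ × ℝ) : IsSUT291 w (Y p.1 p.2 * (Y 0 0)⁻¹) := by
  refine ⟨(sphereFam878 hw hY).k_cpt p, ?_⟩
  rw [comp_sphere_k878 hY, Matrix.det_mul, det_rotZT291, rotY_det878, one_mul]

/-- `k'_p = Z_p a` lies in `SU(2)` at `w`. -/
theorem isSU_sphere_k'T291 {w : InfinitePlace K} (hw : w.IsComplex) {d : ℝ} {Y : ℝ → ℝ → G K}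
    (hY : IsSphereAt w d Y) (p : ℝ × ℝ) : IsSUT291 w (ZsT291 w hw d p * Y 0 0) := by
  have hc : infComp w (ZsT291 w hw d p * Y 0 0) = rotZ (-p.1) * rotY p.2 := by
    rw [infComp_mul878, ZsT291_comp, comp_sphere_zero878 hY]
    unfold zST291
    have := torus_mul_neg878 (-d)
    rw [neg_neg] at this
    rw [mul_assoc, this, mul_one]
  refine ⟨⟨isLocalAtInf_mul878 (ZsT291_loc w hw d p) (hY 0 0).1, ?_,
    fun hr => absurd hr (InfinitePlace.not_isReal_iff_isComplex.2 hw)⟩, ?_⟩
  · rw [hc, Matrix.conjTranspose_mul]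
    calc rotZ (-p.1) * rotY p.2 * ((rotY p.2)ᴴ * (rotZ (-p.1))ᴴ)
        = rotZ (-p.1) * (rotY p.2 * (rotY p.2)ᴴ) * (rotZ (-p.1))ᴴ := by simp only [mul_assoc]
      _ = 1 := by rw [rotY_unitary878, mul_one, rotZ_unitary878]
  · rw [hc, Matrix.det_mul, det_rotZT291, rotY_det878, one_mul]

section analysisT291

variable (F : Frame K)

/-- `E1` at a complex place. -/
theorem sphere_E1T291 [F.μ.IsMulRightInvariant] [MeasurableMul (G K)]
    {w : InfinitePlace K} (hw : w.IsComplex) {d : ℝ} {Y : ℝ → ℝ → G K}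
    (hY : IsSphereAt w d Y) {f φ : G K → ℂ}
    (hfR : ∀ k : G K, IsSUT291 w k → ∀ g, f (g * k) = f g)
    (hφR : ∀ k : G K, IsSUT291 w k → ∀ g, φ (g * k) = φ g) (p : ℝ × ℝ) (x : G K) :
    ∫ h, φ (x * h * Y p.1 p.2) * f h ∂F.μ = ∫ h, φ (x * h) * f (h * ZsT291 w hw d p) ∂F.μ := by
  have hk := (isSU_sphere_kT291 hw hY p).inv
  have hk' := (isSU_sphere_k'T291 hw hY p).inv
  have h1 : ∫ h, φ (x * h * Y p.1 p.2) * f h ∂F.μ = ∫ h, φ (x * h * Y 0 0) * f h ∂F.μ := by
    rw [← integral_mul_right_eq_self (μ := F.μ) (fun h => φ (x * h * Y p.1 p.2) * f h)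
      (Y p.1 p.2 * (Y 0 0)⁻¹)⁻¹]
    refine integral_congr_ae (Filter.Eventually.of_forall fun h => ?_)
    show φ (x * (h * (Y p.1 p.2 * (Y 0 0)⁻¹)⁻¹) * Y p.1 p.2) * f (h * (Y p.1 p.2 * (Y 0 0)⁻¹)⁻¹)
      = φ (x * h * Y 0 0) * f h
    rw [hfR _ hk]
    congr 2
    group
  have h2 : ∫ h, φ (x * h) * f (h * ZsT291 w hw d p) ∂F.μ
      = ∫ h, φ (x * h * Y 0 0) * f h ∂F.μ := by
    rw [← integral_mul_right_eq_self (μ := F.μ) (fun h => φ (x * h) * f (h * ZsT291 w hw d p))
      (Y 0 0 * (ZsT291 w hw d p * Y 0 0)⁻¹)]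
    refine integral_congr_ae (Filter.Eventually.of_forall fun h => ?_)
    show φ (x * (h * (Y 0 0 * (ZsT291 w hw d p * Y 0 0)⁻¹)))
        * f (h * (Y 0 0 * (ZsT291 w hw d p * Y 0 0)⁻¹) * ZsT291 w hw d p)
      = φ (x * h * Y 0 0) * f h
    have e1 : x * (h * (Y 0 0 * (ZsT291 w hw d p * Y 0 0)⁻¹))
        = x * h * Y 0 0 * (ZsT291 w hw d p * Y 0 0)⁻¹ := by group
    have e2 : h * (Y 0 0 * (ZsT291 w hw d p * Y 0 0)⁻¹) * ZsT291 w hw d p = h := by group
    rw [e1, e2, hφR _ hk']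
  rw [h1, h2]

/-- The invariance of `psi878` under `SU(2)`. -/
theorem psi_inv_suT291 {w : InfinitePlace K} (hw : w.IsComplex) {f : G K → ℂ}
    (hfR : ∀ k : G K, IsSUT291 w k → ∀ g, f (g * k) = f g) (h : G K)
    (m k : Matrix (Fin 2) (Fin 2) ℂ) (hk : k * kᴴ = 1) (hd : k.det = 1) :
    psi878 w hw f h (m * k) = psi878 w hw f h m := by
  by_cases hm : m.det ≠ 0
  · obtain ⟨Kk, hKk, hKkc⟩ := exists_suT291 (K := K) hw k hk hd
    have e1 : m = infComp w (locC878 (K := K) w hw ⟨m, hm⟩) :=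
      (locC_comp878 w hw ⟨m, hm⟩).symm
    have e2 : m * k = infComp w (locC878 (K := K) w hw ⟨m, hm⟩ * Kk) := by
      rw [infComp_mul878, hKkc, ← e1]
    rw [e2, psi_eq878 hw f h _ (isLocalAtInf_mul878 (locC_loc878 w hw _) hKk.1.1), ← mul_assoc,
      hfR Kk hKk]
    conv_rhs => rw [e1]
    rw [psi_eq878 hw f h _ (locC_loc878 w hw _)]
  · have hmk : ¬ (m * k).det ≠ 0 := by
      rw [Matrix.det_mul]
      intro h1
      exact hm (left_ne_zero_of_mul h1)
    unfold psi878
    rw [dif_neg hm, dif_neg hmk]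

/-- The function fed to `SubS2RotT291`. -/
def psiST291 (w : InfinitePlace K) (hw : w.IsComplex) (d : ℝ) (f : G K → ℂ) (h : G K) :
    Matrix (Fin 2) (Fin 2) ℂ → ℂ :=
  fun m => psi878 w hw f h (m * torus (-d))

theorem continuousOn_psiST291 {w : InfinitePlace K} (hw : w.IsComplex) (d : ℝ) {f : G K → ℂ}
    (hf : Continuous f) (h : G K) :
    ContinuousOn (psiST291 w hw d f h) {m | m.det ≠ 0} := by
  have h1 : ContinuousOn (fun m : Matrix (Fin 2) (Fin 2) ℂ => m * torus (-d)) {m | m.det ≠ 0} :=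
    (continuous_id.matrix_mul continuous_const).continuousOn
  refine (continuousOn_psi878 hw hf h).comp h1 ?_
  intro m hm
  show (m * torus (-d)).det ≠ 0
  rw [Matrix.det_mul]
  exact mul_ne_zero hm (det_torus878 (-d))

theorem psiS_invT291 {w : InfinitePlace K} (hw : w.IsComplex) (d : ℝ) {f : G K → ℂ}
    (hfR : ∀ k : G K, IsSUT291 w k → ∀ g, f (g * k) = f g) (h : G K)
    (m : Matrix (Fin 2) (Fin 2) ℂ) (γ : ℝ) :
    psiST291 w hw d f h (m * rotZ γ) = psiST291 w hw d f h m := by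
  unfold psiST291
  rw [mul_assoc, rotZ_mul_torusT291, ← mul_assoc]
  exact psi_inv_suT291 hw hfR h _ _ (rotZ_unitary878 γ) (det_rotZT291 γ)

/-- The kernel integrand in terms of `psiST291`. -/
theorem kernel_eqT291 {w : InfinitePlace K} (hw : w.IsComplex) (d : ℝ) (f : G K → ℂ)
    (h k' : G K) (hk' : IsLocalAtInf w k') (p : ℝ × ℝ) :
    f (h * k' * ZsT291 w hw d p)
      = psiST291 w hw d f h (infComp w k' * (rotZ (-p.1) * rotY p.2)) := by
  unfold psiST291
  have e : infComp w k' * (rotZ (-p.1) * rotY p.2) * torus (-d)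
      = infComp w (k' * ZsT291 w hw d p) := by
    rw [infComp_mul878, ZsT291_comp]
    unfold zST291
    simp only [mul_assoc]
  rw [e, psi_eq878 hw f h _ (isLocalAtInf_mul878 hk' (ZsT291_loc w hw d p)), mul_assoc]

/-- The reflection `α ↦ -α` on a period. -/
theorem integral_reflectT291 (H : ℝ → ℂ) (hper : Function.Periodic H (2 * Real.pi)) :
    ∫ α in (0 : ℝ)..(2 * Real.pi), H (-α) = ∫ α in (0 : ℝ)..(2 * Real.pi), H α := by
  rw [intervalIntegral.integral_comp_neg (fun α => H α), neg_zero]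
  have h := hper.intervalIntegral_add_eq (-(2 * Real.pi)) 0
  rw [neg_add_cancel, zero_add] at h
  exact h

/-- **The invariance `RI` at a complex place.** -/
theorem sphere_RIT291 (hrot : SubS2RotT291) {w : InfinitePlace K} (hw : w.IsComplex)
    (d : ℝ) {f : G K → ℂ} (hf : Continuous f)
    (hfR : ∀ k : G K, IsSUT291 w k → ∀ g, f (g * k) = f g) (h k' : G K)
    (hk' : IsSUT291 w k') :
    ∫ p in boxS878, f (h * k' * ZsT291 w hw d p) * wtS878 p
      = ∫ p in boxS878, f (h * ZsT291 w hw d p) * wtS878 p := by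
  -- the common value
  have key : ∀ k₁ : G K, IsSUT291 w k₁ →
      ∫ p in boxS878, f (h * k₁ * ZsT291 w hw d p) * wtS878 p
        = ∫ α in (0 : ℝ)..(2 * Real.pi), ∫ β in (0 : ℝ)..Real.pi,
            psiST291 w hw d f h (rotZ α * rotY β) * ((Real.sin β : ℝ) : ℂ) := by
    intro k₁ hk₁
    have hc : Continuous fun p => f (h * k₁ * ZsT291 w hw d p) * wtS878 p :=
      (hf.comp (continuous_const.mul (continuous_ZsT291 w hw d))).mul continuous_wtS878
    rw [← sphere_conv878 _ ((hc.continuousOn.integrableOn_compact isCompact_boxSc878).mono_set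
      boxS_subset878)]
    rw [← hrot (psiST291 w hw d f h) (continuousOn_psiST291 hw d hf h)
      (psiS_invT291 hw d hfR h) (infComp w k₁) hk₁.1.2.1 hk₁.2]
    set H : ℝ → ℂ := fun α => ∫ β in (0 : ℝ)..Real.pi,
      psiST291 w hw d f h (infComp w k₁ * (rotZ α * rotY β)) * ((Real.sin β : ℝ) : ℂ) with hH
    have hper : Function.Periodic H (2 * Real.pi) := by
      intro α
      show ∫ β in (0 : ℝ)..Real.pi,
          psiST291 w hw d f h (infComp w k₁ * (rotZ (α + 2 * Real.pi) * rotY β))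
            * ((Real.sin β : ℝ) : ℂ)
        = ∫ β in (0 : ℝ)..Real.pi,
          psiST291 w hw d f h (infComp w k₁ * (rotZ α * rotY β)) * ((Real.sin β : ℝ) : ℂ)
      refine intervalIntegral.integral_congr fun β _ => ?_
      show psiST291 w hw d f h (infComp w k₁ * (rotZ (α + 2 * Real.pi) * rotY β))
          * ((Real.sin β : ℝ) : ℂ)
        = psiST291 w hw d f h (infComp w k₁ * (rotZ α * rotY β)) * ((Real.sin β : ℝ) : ℂ)
      have e : infComp w k₁ * (rotZ (α + 2 * Real.pi) * rotY β)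
          = infComp w k₁ * (rotZ α * rotY β) * rotZ (2 * Real.pi) := by
        rw [rotZ_addT291, rotZ_two_piT291]
        simp
      rw [e, psiS_invT291 hw d hfR h]
    have e1 : ∫ α in (0 : ℝ)..(2 * Real.pi), ∫ β in (0 : ℝ)..Real.pi,
        f (h * k₁ * ZsT291 w hw d (α, β)) * wtS878 (α, β)
        = ∫ α in (0 : ℝ)..(2 * Real.pi), H (-α) := by
      refine intervalIntegral.integral_congr fun α _ => ?_
      show ∫ β in (0 : ℝ)..Real.pi, f (h * k₁ * ZsT291 w hw d (α, β)) * wtS878 (α, β) = H (-α)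
      rw [hH]
      refine intervalIntegral.integral_congr fun β _ => ?_
      show f (h * k₁ * ZsT291 w hw d (α, β)) * wtS878 (α, β) = _
      rw [kernel_eqT291 hw d f h k₁ hk₁.1.1 (α, β)]
      rfl
    rw [e1, integral_reflectT291 H hper]
  have h1 : IsSUT291 w (1 : G K) := by
    have := (hk'.inv)
    have h2 : IsSUT291 w (k' * k'⁻¹) :=
      ⟨isArchCompact_mul878 hk'.1 this.1, by
        rw [infComp_mul878, Matrix.det_mul, hk'.2, this.2, mul_one]⟩
    rwa [mul_inv_cancel] at h2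
  have k1 := key k' hk'
  have k2 := key 1 h1
  rw [mul_one] at k2
  rw [k1, k2]

/-- `E2` at a complex place: the equality of the kernels (Gelfand's trick, transposition). -/
theorem sphere_E2T291 (hrot : SubS2RotT291) (hC : H429.SubCartanInf429)
    {w : InfinitePlace K} (hw : w.IsComplex) {d : ℝ} {Y : ℝ → ℝ → G K}
    (hY : IsSphereAt w d Y) {f : G K → ℂ} (hf : Continuous f)
    (hfR : ∀ k : G K, IsSUT291 w k → ∀ g, f (g * k) = f g)
    (hfL : ∀ k : G K, IsSUT291 w k → ∀ g, f (k * g) = f g) (h : G K) :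
    ∫ p in boxS878, f ((Y p.1 p.2)⁻¹ * h) * wtS878 p
      = ∫ p in boxS878, f (h * ZsT291 w hw d p) * wtS878 p := by
  obtain ⟨h', hs, hh⟩ := exists_transposeT291 hw h
  have step1 : ∀ p : ℝ × ℝ, f ((Y p.1 p.2)⁻¹ * h) = f (h' * ZsT291 w hw d p) := by
    intro p
    have hsm := transpose_mulT291 (y := (Y p.1 p.2)⁻¹) (z := ZsT291 w hw d p)
      (isLocalAtInf_inv472 (hY p.1 p.2).1) (ZsT291_loc w hw d p) (ZsT291_transpose hw hY p) hs hh
    exact (biInv_transposeT291 hC hw f hfR hfL hsm.1 hsm.2).symm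
  have step2 : ∫ p in boxS878, f (h' * ZsT291 w hw d p) * wtS878 p
      = ∫ p in boxS878, f (h * ZsT291 w hw d p) * wtS878 p := by
    refine biInv_transposeT291 hC hw
      (fun g => ∫ p in boxS878, f (g * ZsT291 w hw d p) * wtS878 p) ?_ ?_ hs hh
    · intro k' hk' g
      exact sphere_RIT291 hrot hw d hf hfR g k' hk'
    · intro k' hk' g
      show ∫ p in boxS878, f (k' * g * ZsT291 w hw d p) * wtS878 p
        = ∫ p in boxS878, f (g * ZsT291 w hw d p) * wtS878 p
      refine integral_congr_ae (Filter.Eventually.of_forall fun p => ?_)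
      show f (k' * g * ZsT291 w hw d p) * wtS878 p = f (g * ZsT291 w hw d p) * wtS878 p
      rw [mul_assoc, hfL k' hk']
  rw [← step2]
  refine integral_congr_ae (Filter.Eventually.of_forall fun p => ?_)
  show f ((Y p.1 p.2)⁻¹ * h) * wtS878 p = f (h' * ZsT291 w hw d p) * wtS878 p
  rw [step1 p]

end analysisT291

/-! ## 4. The commutation -/

/-- **T2.27.21, complex places.** -/
theorem comm_sphereT291 (hrot : SubS2RotT291) (hS : SubTypeSU2T291 K)
    (hC : H429.SubCartanInf429) {𝔫 : Ideal (𝓞 K)} {τ : G K → ℂ} (hctx : CtxT291 K 𝔫 τ)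
    (R : FrameR K) {f : G K → ℂ} (hf : IsSphTestT 𝔫 τ f) {w : InfinitePlace K}
    (hw : w.IsComplex) {d : ℝ} {Y : ℝ → ℝ → G K} (hY : IsSphereAt w d Y) :
    CommT291 𝔫 τ R.r (conv R.F f) (sphereMean Y) := by
  intro φ hφ
  funext x
  have hYc := continuous_sphere878 hY
  -- invariance under `SU(2)` at `w`
  have hτ1 : ∀ k : G K, IsSUT291 w k → τ k = 1 := fun k hk => hS τ hctx.kt w hw k hk.1 hk.2
  have hfR : ∀ k : G K, IsSUT291 w k → ∀ g, f (g * k) = f g := by
    intro k hk g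
    rw [hf.test.arch_right w k hk.1 g, hτ1 k hk, inv_one, one_mul]
  have hfL : ∀ k : G K, IsSUT291 w k → ∀ g, f (k * g) = f g := by
    intro k hk g
    rw [hf.test.arch_left w k hk.1 g, hτ1 k hk, inv_one, one_mul]
  have hφR : ∀ k : G K, IsSUT291 w k → ∀ g, φ (g * k) = φ g := by
    intro k hk g
    rw [hφ.aut.arch_compact w k hk.1 g, hτ1 k hk, one_mul]
  -- the abstract engine
  have main : ∫ h, (∫ p in boxS878, φ (x * h * Y p.1 p.2) * wtS878 p) * f h ∂(R.F.μ)
      = ∫ p in boxS878, (∫ h, φ (x * Y p.1 p.2 * h) * f h ∂(R.F.μ)) * wtS878 p := by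
    obtain ⟨-, hlc, ht2, hsc⟩ := hctx.t1.locComp
    have := hlc
    have := ht2
    have := hsc
    have : BorelSpace (G K) := ⟨rfl⟩
    have := R.F.haar
    have : R.F.μ.IsMulRightInvariant := hctx.t1.unimod R.F.μ R.F.haar
    exact comm_abstract878 R.F.μ (volume : Measure (ℝ × ℝ)) hf.test.cont hf.test.cpt
      hφ.aut.cont hYc (continuous_ZsT291 w hw d) continuous_wtS878 measurableSet_boxS878
      isCompact_boxSc878 boxS_subset878 (sphere_E1T291 R.F hw hY hfR hφR)
      (sphere_E2T291 hrot hC hw hY hf.test.cont hfR hfL) x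
  have hL : conv R.F f (sphereMean Y φ) x
      = ∫ h, (∫ p in boxS878, φ (x * h * Y p.1 p.2) * wtS878 p) * f h ∂(R.F.μ) := by
    show ∫ h, sphereMean Y φ (x * h) * f h ∂(R.F.μ) = _
    refine integral_congr_ae (Filter.Eventually.of_forall fun h => ?_)
    show sphereMean Y φ (x * h) * f h = _
    congr 1
    exact sphere_conv878 (fun p => φ (x * h * Y p.1 p.2) * wtS878 p)
      (fam_mean_integrable878 hctx.t1 volume isCompact_boxSc878 boxS_subset878 hYc
        continuous_wtS878 hφ.aut.cont (x * h))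
  have hR : sphereMean Y (conv R.F f φ) x
      = ∫ p in boxS878, (∫ h, φ (x * Y p.1 p.2 * h) * f h ∂(R.F.μ)) * wtS878 p :=
    sphere_conv878 (fun p => (∫ h, φ (x * Y p.1 p.2 * h) * f h ∂(R.F.μ)) * wtS878 p)
      (fam_mean_conv_integrable878 hctx.t1 R.F volume measurableSet_boxS878 isCompact_boxSc878
        boxS_subset878 hYc continuous_wtS878 hf.test.cont hf.test.cpt hφ.aut.cont x)
  rw [hL, hR]
  exact main

end Fermat.Agent.LT.T2.H291

end
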