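import Fermat.Agent.LT.T2.H291.AssemblyT19
import Fermat.Agent.LT.T2.H291.CommConvMeanT

/-!
# Row LT, tower T2, leaf T2.27 `LeafT07` (`OpsGoodT` + `OpsAdjT`, class of T5): CLOSED (helper291)

OFF-MAIN.  `leafT07_291 (K) : T2.LeafT07 K`, unconditional, for every number field `K`.

Assembly (`leafT07_of_subT291`, `OpsSpecT.lean`) of the twenty sub-leaves `T2.27.x`
(registry rows 1387–1409):

* T2.27.00 key lemma (ray form), .01 central, .05 shiftPres, .06 shiftIso, .21 commConvMean:
  helper291 (`TranslT`, `AutT`, `GelfandT`, `CommConvSphereT`, `CommConvCircleT`,
  `CommConvMeanT`);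
* .02 heckePres helper833, .03 heckeBdd helper290, .04 heckeAdj helper887, .08 convLin
  helper372, .09 convBdd helper8, .10 commHeckeHecke helper944, .11 commConvHecke helper79,
  .12 spherePres helper409, .13 circlePres helper271, .14 meanLin helper420, .15 meanBdd and
  .16 meanAdj helper899, .17 commMeanHecke helper904, .18 commSphereSphere helper378,
  .19 commSphereCircle helper776, .20 commCircleCircle helper196;
* tools .31 S2Rot helper879 (core helper197), .33 TypeSU2 helper166, Cartan helper555,
  LocCont helper472, abstract commutation engine helper878.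

All files are byte-identical copies of the owners' files.  Nothing is assumed, no opaque
constant, no placeholder proof.
-/

namespace Fermat.Agent.LT.T2.H291

/-- **T2.27** `LeafT07`: `OpsGoodT` and `OpsAdjT` for the class of T5, every number field. -/
theorem leafT07_291 (K : Type) [Field K] [NumberField K] : LeafT07 K :=
  leafT07_of_commConvMeanT291 (subCommConvMeanT291 K)

end Fermat.Agent.LT.T2.H291
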